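import Mathlib
import Fermat.Prelude.Def_FLTPrelim_Ramification

set_option autoImplicit false

namespace Fermat.Agent.S05

open scoped Pointwise

section general

variable {K L : Type*} [Field K] [Field L] [Algebra K L]

/-- Unpacking membership in the inertia subgroup (as a subgroup of the full Galois group). -/
theorem mem_inertiaSubgroupIn_iff {A : ValuationSubring L} {s : L ≃ₐ[K] L} :
    s ∈ A.inertiaSubgroupIn K ↔
      ∃ g : A.decompositionSubgroup K, g ∈ A.inertiaSubgroup K ∧ (g : L ≃ₐ[K] L) = s := by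
  unfold ValuationSubring.inertiaSubgroupIn
  rw [Subgroup.mem_map]
  rfl

theorem inertia_smul_eq {A : ValuationSubring L} {s : L ≃ₐ[K] L}
    (hs : s ∈ A.inertiaSubgroupIn K) : s • A = A := by
  obtain ⟨g, -, rfl⟩ := mem_inertiaSubgroupIn_iff.mp hs
  exact g.2

theorem inertia_inv_mem {A : ValuationSubring L} {s : L ≃ₐ[K] L}
    (hs : s ∈ A.inertiaSubgroupIn K) : s⁻¹ ∈ A.inertiaSubgroupIn K :=
  Subgroup.inv_mem _ hs

theorem inertia_apply_mem {A : ValuationSubring L} {s : L ≃ₐ[K] L}
    (hs : s ∈ A.inertiaSubgroupIn K) {x : L} (hx : x ∈ A) : s x ∈ A := by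
  have h := inertia_smul_eq hs
  have : s • x ∈ s • A := ValuationSubring.smul_mem_pointwise_smul s x A hx
  rw [h] at this
  exact this

theorem inertia_mem_iff {A : ValuationSubring L} {s : L ≃ₐ[K] L}
    (hs : s ∈ A.inertiaSubgroupIn K) (x : L) : s x ∈ A ↔ x ∈ A := by
  refine ⟨fun h => ?_, fun h => inertia_apply_mem hs h⟩
  have := inertia_apply_mem (inertia_inv_mem hs) h
  simpa using this

/-- An element of the inertia group moves every element of `A` by an element of the maximal
ideal. -/
theorem inertia_sub_mem_nonunits {A : ValuationSubring L} {s : L ≃ₐ[K] L}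
    (hs : s ∈ A.inertiaSubgroupIn K) {x : L} (hx : x ∈ A) : s x - x ∈ A.nonunits := by
  obtain ⟨g, hg, rfl⟩ := mem_inertiaSubgroupIn_iff.mp hs
  have hg1 : MulSemiringAction.toRingAut (A.decompositionSubgroup K)
      (IsLocalRing.ResidueField A) g = 1 := hg
  have h2 : g • IsLocalRing.residue A ⟨x, hx⟩ = IsLocalRing.residue A ⟨x, hx⟩ := by
    have := congrArg (fun f : RingAut (IsLocalRing.ResidueField A) =>
      f (IsLocalRing.residue A ⟨x, hx⟩)) hg1
    simpa using this
  rw [← IsLocalRing.ResidueField.residue_smul] at h2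
  have h3 : g • (⟨x, hx⟩ : A) - ⟨x, hx⟩ ∈ IsLocalRing.maximalIdeal A := by
    rw [← Ideal.Quotient.eq]
    exact h2
  have h4 : ((g • (⟨x, hx⟩ : A) - ⟨x, hx⟩ : A) : L) ∈ A.nonunits :=
    ValuationSubring.coe_mem_nonunits_iff.mpr h3
  exact h4

/-- Every element of an algebraic extension has finite order under any automorphism. -/
theorem exists_pow_apply_eq [Algebra.IsAlgebraic K L] (s : L ≃ₐ[K] L) (x : L) :
    ∃ n : ℕ, 0 < n ∧ (s ^ n) x = x := by
  have hx : IsAlgebraic K x := Algebra.IsAlgebraic.isAlgebraic x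
  have hint : IsIntegral K x := hx.isIntegral
  have hfin : ((minpoly K x).rootSet L).Finite := Polynomial.rootSet_finite _ _
  have hmem : ∀ i : ℕ, (s ^ i) x ∈ (minpoly K x).rootSet L := by
    intro i
    rw [Polynomial.mem_rootSet]
    refine ⟨minpoly.ne_zero hint, ?_⟩
    have := Polynomial.aeval_algHom_apply ((s ^ i : L ≃ₐ[K] L) : L →ₐ[K] L) x (minpoly K x)
    rw [minpoly.aeval, map_zero] at this
    exact this
  have : Finite ((minpoly K x).rootSet L) := hfin
  obtain ⟨a, b, hab, hne⟩ := Finite.exists_ne_map_eq_of_infinite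
    (fun i : ℕ => (⟨(s ^ i) x, hmem i⟩ : (minpoly K x).rootSet L))
  have hval : (s ^ a) x = (s ^ b) x := congrArg Subtype.val hne
  wlog hlt : a < b generalizing a b
  · exact this b a (Ne.symm hab) hne.symm hval.symm (lt_of_le_of_ne (not_lt.mp hlt) (Ne.symm hab))
  refine ⟨b - a, Nat.sub_pos_of_lt hlt, ?_⟩
  have hb : b = (b - a) + a := by omega
  rw [hb, pow_add] at hval
  have h2 : (s ^ a) x = (s ^ a) ((s ^ (b - a)) x) := by
    rw [hval]
    have hc : s ^ (b - a) * s ^ a = s ^ a * s ^ (b - a) := by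
      rw [← pow_add, ← pow_add, add_comm]
    rw [hc]
    rfl
  exact ((s ^ a).injective h2).symm

theorem pow_smul_eq {A : ValuationSubring L} {s : L ≃ₐ[K] L} (hs : s • A = A) (n : ℕ) :
    (s ^ n) • A = A := by
  have h : s ∈ MulAction.stabilizer (L ≃ₐ[K] L) A := hs
  exact Subgroup.pow_mem _ h n

theorem apply_mem_iff_of_smul_eq {A : ValuationSubring L} {s : L ≃ₐ[K] L} (hs : s • A = A)
    (x : L) : s x ∈ A ↔ x ∈ A := by
  have h1 : ∀ {t : L ≃ₐ[K] L}, t • A = A → ∀ {z : L}, z ∈ A → t z ∈ A := by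
    intro t ht z hz
    have : t • z ∈ t • A := ValuationSubring.smul_mem_pointwise_smul t z A hz
    rw [ht] at this
    exact this
  refine ⟨fun h => ?_, fun h => h1 hs h⟩
  have hinv : s⁻¹ • A = A := by
    have h : s ∈ MulAction.stabilizer (L ≃ₐ[K] L) A := hs
    exact Subgroup.inv_mem _ h
  have := h1 hinv h
  simpa using this

theorem prod_mem_nonunits (A : ValuationSubring L) (f : ℕ → L) (hf : ∀ i, f i ∈ A.nonunits)
    (n : ℕ) : ∏ i ∈ Finset.range (n + 1), f i ∈ A.nonunits := by
  induction n with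
  | zero => simpa using hf 0
  | succ n ih =>
    rw [Finset.prod_range_succ]
    exact A.nonunits.mul_mem ih (hf _)

theorem prod_range_div_field (f : ℕ → L) (hf : ∀ i, f i ≠ 0) (n : ℕ) :
    ∏ i ∈ Finset.range n, f (i + 1) / f i = f n / f 0 := by
  induction n with
  | zero => simp [hf 0]
  | succ n ih =>
    rw [Finset.prod_range_succ, ih]
    have := hf n
    have := hf 0
    field_simp

theorem apply_div_mem_of_smul_eq [Algebra.IsAlgebraic K L] {A : ValuationSubring L}
    {s : L ≃ₐ[K] L} (hs : s • A = A) (x : L) : s x / x ∈ A := by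
  by_cases hx : x = 0
  · simp [hx, A.zero_mem]
  by_contra hy
  obtain ⟨n, hn, hnx⟩ := exists_pow_apply_eq s x
  obtain ⟨m, rfl⟩ : ∃ m, n = m + 1 := ⟨n - 1, by omega⟩
  have hprod : ∏ i ∈ Finset.range (m + 1), ((s ^ i) (s x / x))⁻¹ = 1 := by
    rw [Finset.prod_inv_distrib]
    have h1 : ∀ i, (s ^ i) (s x / x) = (s ^ (i + 1)) x / (s ^ i) x := by
      intro i
      rw [map_div₀, pow_succ]
      rfl
    simp_rw [h1]
    rw [prod_range_div_field (fun i => (s ^ i) x) (fun i => (map_ne_zero_iff _ (s ^ i).injective).mpr hx), hnx]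
    simp [hx]
  have hmem : ∀ i, ((s ^ i) (s x / x))⁻¹ ∈ A.nonunits := by
    intro i
    rw [ValuationSubring.inv_mem_nonunits_iff]
    right
    rw [apply_mem_iff_of_smul_eq (pow_smul_eq hs i)]
    exact hy
  have := prod_mem_nonunits A _ hmem m
  rw [hprod, ValuationSubring.mem_nonunits_iff, map_one] at this
  exact lt_irrefl _ this

/-- Elements of the decomposition group preserve the valuation (algebraic extensions). -/
theorem valuation_apply_eq_of_smul_eq [Algebra.IsAlgebraic K L] {A : ValuationSubring L}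
    {s : L ≃ₐ[K] L} (hs : s • A = A) (x : L) : A.valuation (s x) = A.valuation x := by
  by_cases hx : x = 0
  · simp [hx]
  have hsx : s x ≠ 0 := by simpa using hx
  have h1 := apply_div_mem_of_smul_eq hs x
  have hinv : s⁻¹ • A = A := by
    have h : s ∈ MulAction.stabilizer (L ≃ₐ[K] L) A := hs
    exact Subgroup.inv_mem _ h
  have h2 := apply_div_mem_of_smul_eq hinv (s x)
  have h2' : x / s x ∈ A := by simpa using h2
  rw [← ValuationSubring.valuation_le_one_iff, map_div₀] at h1 h2'
  have hvx : A.valuation x ≠ 0 := by simpa using hx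
  have hvsx : A.valuation (s x) ≠ 0 := by simpa using hsx
  rw [div_le_one₀ (zero_lt_iff.mpr hvx)] at h1
  rw [div_le_one₀ (zero_lt_iff.mpr hvsx)] at h2'
  exact le_antisymm h1 h2'

/-- Inertia preserves the valuation. -/
theorem inertia_valuation_eq [Algebra.IsAlgebraic K L] {A : ValuationSubring L} {s : L ≃ₐ[K] L}
    (hs : s ∈ A.inertiaSubgroupIn K) (x : L) : A.valuation (s x) = A.valuation x :=
  valuation_apply_eq_of_smul_eq (inertia_smul_eq hs) x

/-- Inertia fixes a square root `w` of a fixed element, as soon as `w` is a unit of `A` and `2` is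
a unit of `A`. -/
theorem inertia_fixes_of_sq {A : ValuationSubring L} {s : L ≃ₐ[K] L}
    (hs : s ∈ A.inertiaSubgroupIn K) (h2 : A.valuation (2 : L) = 1) {w : L}
    (hw : A.valuation w = 1) (hfix : s (w ^ 2) = w ^ 2) : s w = w := by
  have hwA : w ∈ A := (A.valuation_le_one_iff w).mp hw.le
  have h1 : (s w - w) * (s w + w) = 0 := by
    have : s w ^ 2 = w ^ 2 := by rw [← map_pow]; exact hfix
    linear_combination this
  rcases mul_eq_zero.mp h1 with h | h
  · exact sub_eq_zero.mp h
  · exfalso
    have h3 := inertia_sub_mem_nonunits hs hwA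
    have h4 : s w - w = -(2 * w) := by linear_combination h
    rw [h4, ValuationSubring.mem_nonunits_iff, Valuation.map_neg, map_mul, h2, hw, one_mul] at h3
    exact lt_irrefl _ h3

end general

section integers

variable {L : Type*} [Field L]

theorem mul_mem_nonunits_of_mem (A : ValuationSubring L) {a t : L} (ha : a ∈ A)
    (ht : t ∈ A.nonunits) : a * t ∈ A.nonunits := by
  rw [ValuationSubring.mem_nonunits_iff] at ht ⊢
  rw [map_mul]
  have h1 : A.valuation a ≤ 1 := (A.valuation_le_one_iff a).mpr ha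
  calc A.valuation a * A.valuation t ≤ 1 * A.valuation t := by gcongr
    _ = A.valuation t := one_mul _
    _ < 1 := ht

theorem one_notMem_nonunits (A : ValuationSubring L) : (1 : L) ∉ A.nonunits := by
  rw [ValuationSubring.mem_nonunits_iff, map_one]
  exact lt_irrefl _

theorem intCast_mem' (A : ValuationSubring L) (n : ℤ) : (n : L) ∈ A := intCast_mem A n

/-- An integer lies in the maximal ideal of a valuation ring above `q` iff `q` divides it. -/
theorem intCast_mem_nonunits_iff {A : ValuationSubring L} {q : ℕ} (hq : q.Prime)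
    (hA : A.LiesOverPrime q) (n : ℤ) : (n : L) ∈ A.nonunits ↔ (q : ℤ) ∣ n := by
  constructor
  · intro hn
    by_contra h
    have hq' : Prime (q : ℤ) := Nat.prime_iff_prime_int.mp hq
    have hcop : IsCoprime (q : ℤ) n := (hq'.irreducible.coprime_iff_not_dvd).mpr h
    obtain ⟨u, w, huw⟩ := hcop
    have h1 : ((u : L) * (q : L) + (w : L) * (n : L)) = 1 := by
      have := congrArg (fun z : ℤ => (z : L)) huw
      simpa using this
    have h2 : (u : L) * (q : L) ∈ A.nonunits := mul_mem_nonunits_of_mem A (intCast_mem A u) hA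
    have h3 : (w : L) * (n : L) ∈ A.nonunits := mul_mem_nonunits_of_mem A (intCast_mem A w) hn
    have h4 := A.nonunits.add_mem h2 h3
    rw [h1] at h4
    exact one_notMem_nonunits A h4
  · rintro ⟨k, rfl⟩
    push_cast
    rw [mul_comm]
    exact mul_mem_nonunits_of_mem A (intCast_mem A k) hA

theorem valuation_intCast_eq_one_iff {A : ValuationSubring L} {q : ℕ} (hq : q.Prime)
    (hA : A.LiesOverPrime q) (n : ℤ) : A.valuation (n : L) = 1 ↔ ¬ (q : ℤ) ∣ n := by
  rw [← intCast_mem_nonunits_iff hq hA, ValuationSubring.mem_nonunits_iff, not_lt]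
  have h1 : A.valuation (n : L) ≤ 1 := (A.valuation_le_one_iff _).mpr (intCast_mem A n)
  exact ⟨fun h => h.ge, fun h => le_antisymm h1 h⟩

theorem valuation_natCast_eq_one_iff {A : ValuationSubring L} {q : ℕ} (hq : q.Prime)
    (hA : A.LiesOverPrime q) (n : ℕ) : A.valuation (n : L) = 1 ↔ ¬ q ∣ n := by
  have := valuation_intCast_eq_one_iff hq hA (n : ℤ)
  rw [Int.natCast_dvd_natCast] at this
  simpa using this

/-- The inverse of an integer prime to `q` lies in `A`. -/
theorem inv_intCast_mem {A : ValuationSubring L} {q : ℕ} (hq : q.Prime)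
    (hA : A.LiesOverPrime q) {n : ℤ} (hn : ¬ (q : ℤ) ∣ n) : ((n : L))⁻¹ ∈ A := by
  rw [← ValuationSubring.valuation_le_one_iff, map_inv₀,
    (valuation_intCast_eq_one_iff hq hA n).mpr hn, inv_one]

theorem valuation_two_eq_one {A : ValuationSubring L} {q : ℕ} (hq : q.Prime)
    (hA : A.LiesOverPrime q) (hq2 : q ≠ 2) : A.valuation (2 : L) = 1 := by
  have := (valuation_natCast_eq_one_iff hq hA 2).mpr (by
    intro h
    exact hq2 ((Nat.prime_dvd_prime_iff_eq hq Nat.prime_two).mp h))
  simpa using this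

theorem valuation_prime_eq_one {A : ValuationSubring L} {q : ℕ} (hq : q.Prime)
    (hA : A.LiesOverPrime q) {p : ℕ} (hp : p.Prime) (hqp : q ≠ p) :
    A.valuation (p : L) = 1 :=
  (valuation_natCast_eq_one_iff hq hA p).mpr (by
    intro h
    exact hqp ((Nat.prime_dvd_prime_iff_eq hq hp).mp h))

/-- A rational number whose denominator is prime to `q` lies in `A`. -/
theorem ratCast_mem_of_not_dvd_den {A : ValuationSubring L} {q : ℕ} (hq : q.Prime)
    (hA : A.LiesOverPrime q) (r : ℚ) (hr : ¬ q ∣ r.den) : (r : L) ∈ A := by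
  rw [Rat.cast_def, div_eq_mul_inv]
  refine A.mul_mem _ _ (intCast_mem A r.num) ?_
  have := inv_intCast_mem hq hA (n := (r.den : ℤ)) (by rwa [Int.natCast_dvd_natCast])
  simpa using this

/-- A nonzero valuation is `< 1`, `= 1` or `> 1`; convenient trichotomy in terms of membership. -/
theorem valuation_lt_one_or_eq_one_or_inv (A : ValuationSubring L) (x : L) :
    x ∈ A.nonunits ∨ A.valuation x = 1 ∨ x ∉ A := by
  rcases lt_trichotomy (A.valuation x) 1 with h | h | h
  · exact Or.inl (A.mem_nonunits_iff.mpr h)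
  · exact Or.inr (Or.inl h)
  · refine Or.inr (Or.inr fun hx => ?_)
    exact absurd ((A.valuation_le_one_iff x).mpr hx) (not_le.mpr h)

end integers

section points

open WeierstrassCurve WeierstrassCurve.Affine

/-- The algebraic closure of `ℚ` used by the frozen statement. -/
abbrev Qbar : Type := AlgebraicClosure ℚ

/-- The absolute Galois group of `ℚ`. -/
abbrev GalQ : Type := Qbar ≃ₐ[ℚ] Qbar

theorem isAlgebraic_Qbar : Algebra.IsAlgebraic ℚ Qbar :=
  letI : Algebra ℚ (AlgebraicClosure ℚ) := AlgebraicClosure.instAlgebra ℚ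
  (inferInstance : Algebra.IsAlgebraic ℚ (AlgebraicClosure ℚ))

theorem isAlgClosed_Qbar : IsAlgClosed Qbar := inferInstance

theorem charZero_Qbar : CharZero Qbar := inferInstance

/-- Inertia preserves the valuation, for `Qbar / ℚ`. -/
theorem inertia_valuation_eq_Qbar {A : ValuationSubring Qbar} {s : GalQ}
    (hs : s ∈ A.inertiaSubgroupIn ℚ) (x : Qbar) : A.valuation (s x) = A.valuation x :=
  haveI := isAlgebraic_Qbar
  inertia_valuation_eq hs x

theorem inertia_fixes_rat (s : GalQ) (r : ℚ) : s (algebraMap ℚ Qbar r) = algebraMap ℚ Qbar r :=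
  s.commutes r

theorem inertia_fixes_ratCast (s : GalQ) (r : ℚ) : s (r : Qbar) = (r : Qbar) := by
  have := s.commutes r
  rwa [eq_ratCast] at this

theorem inertia_fixes_intCast (s : GalQ) (n : ℤ) : s (n : Qbar) = (n : Qbar) := map_intCast s n

variable (W : WeierstrassCurve ℚ)

theorem smul_point_zero (s : GalQ) : s • (0 : (W⁄Qbar).Point) = 0 := rfl

theorem nonsingular_apply (s : GalQ) {x y : Qbar} (h : (W⁄Qbar).Nonsingular x y) :
    (W⁄Qbar).Nonsingular (s x) (s y) :=
  (WeierstrassCurve.Affine.baseChange_nonsingular W (f := (s : Qbar →ₐ[ℚ] Qbar))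
    (s : Qbar →ₐ[ℚ] Qbar).injective x y).mpr h

theorem smul_point_some (s : GalQ) {x y : Qbar} (h : (W⁄Qbar).Nonsingular x y) :
    s • (Point.some x y h : (W⁄Qbar).Point) = Point.some (s x) (s y) (nonsingular_apply W s h) :=
  rfl

theorem smul_point_add (s : GalQ) (P Q : (W⁄Qbar).Point) : s • (P + Q) = s • P + s • Q :=
  smul_add s P Q

theorem smul_point_neg (s : GalQ) (P : (W⁄Qbar).Point) : s • (-P) = -(s • P) :=
  smul_neg s P

theorem smul_point_sub (s : GalQ) (P Q : (W⁄Qbar).Point) : s • (P - Q) = s • P - s • Q :=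
  smul_sub s P Q

theorem smul_point_zsmul (s : GalQ) (m : ℤ) (P : (W⁄Qbar).Point) : s • (m • P) = m • (s • P) :=
  WeierstrassCurve.Affine.Point.algEquiv_smul_zsmul s m P

theorem smul_point_nsmul (s : GalQ) (m : ℕ) (P : (W⁄Qbar).Point) : s • (m • P) = m • (s • P) := by
  have := smul_point_zsmul W s (m : ℤ) P
  simpa using this

/-- To prove that a mod-`n` representation is unramified at `q` it suffices to show that inertia
fixes every `n`-torsion point. -/
theorem unramifiedAt_of_pointwise (n q : ℕ)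
    (h : ∀ A : ValuationSubring Qbar, A.LiesOverPrime q → ∀ s ∈ A.inertiaSubgroupIn ℚ,
      ∀ T : (W⁄Qbar).Point, (n : ℤ) • T = 0 → s • T = T) :
    WeierstrassCurve.Affine.Point.GaloisRepUnramifiedAt (K := Qbar) ℚ W n q := by
  intro A hA s hs x
  apply Subtype.ext
  have hx := x.2
  rw [Submodule.mem_torsionBy_iff] at hx
  exact h A hA s hs x.1 hx

end points

section frey

open WeierstrassCurve WeierstrassCurve.Affine

/-- Reduction of the frozen statement to a pointwise statement. -/
theorem frey_unramifiedAt_of_pointwise (P : FreyPackage) (q : ℕ)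
    (h : ∀ A : ValuationSubring Qbar, A.LiesOverPrime q → ∀ s ∈ A.inertiaSubgroupIn ℚ,
      ∀ T : (P.freyCurve⁄Qbar).Point, (P.p : ℤ) • T = 0 → s • T = T) :
    P.GaloisRepUnramifiedAt q :=
  unramifiedAt_of_pointwise P.freyCurve P.p q h

end frey

end Fermat.Agent.S05
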