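import Fermat.Agent.S05.LocalAssembly
import Fermat.Agent.S05.LegLabel

/-!
# Proof of the torsion-label statement `TLHyp`
-/

set_option autoImplicit false

namespace Fermat.Agent.S05

open WeierstrassCurve WeierstrassCurve.Affine

theorem tlHyp : TLHyp := by
  intro A W h1 h3 h6 ha2 ha4 hne h2 n _ _ _ x y h hn hl hu
  obtain ⟨s, hs⟩ := IsAlgClosed.exists_pow_nat_eq W.a₂ (n := 2) (by norm_num)
  have hN : LegLabel.Node A.valuation W s :=
    ⟨h1, h3, h6, ⟨hs, ha2, ha4, hne, h2⟩⟩
  exact LegLabel.torsion_label hN h n hn hl hu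

theorem legendreLocalHyp : LegendreLocalHyp := legendreLocalHyp_of_TL tlHyp

end Fermat.Agent.S05
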