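import Mathlib
import Fermat.Prelude.Def_FLTPrelim_FreyPackage

set_option autoImplicit false

/-!
Number facts about the Frey curve: invariants, discriminant, coprimality.
-/

namespace Fermat.Agent.S05

open WeierstrassCurve

variable (P : FreyPackage)

/-- `a^p` as a rational. -/
def qA : ℚ := (P.a : ℚ) ^ P.p

/-- `b^p` as a rational. -/
def qB : ℚ := (P.b : ℚ) ^ P.p

/-- `c^p` as a rational. -/
def qC : ℚ := (P.c : ℚ) ^ P.p

lemma qA_add_qB : qA P + qB P = qC P := by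
  have h := P.hFLT
  have h' : ((P.a ^ P.p + P.b ^ P.p : ℤ) : ℚ) = ((P.c ^ P.p : ℤ) : ℚ) := by rw [h]
  push_cast at h'
  exact h'

lemma qA_ne_zero : qA P ≠ 0 := pow_ne_zero _ (Int.cast_ne_zero.mpr P.ha0)

lemma qB_ne_zero : qB P ≠ 0 := pow_ne_zero _ (Int.cast_ne_zero.mpr P.hb0)

lemma qC_ne_zero : qC P ≠ 0 := pow_ne_zero _ (Int.cast_ne_zero.mpr P.hc0)

@[simp] lemma freyCurve_a₁ : P.freyCurve.a₁ = 1 := rfl

@[simp] lemma freyCurve_a₃ : P.freyCurve.a₃ = 0 := rfl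

@[simp] lemma freyCurve_a₆ : P.freyCurve.a₆ = 0 := rfl

lemma freyCurve_a₂ : P.freyCurve.a₂ = (qB P - 1 - qA P) / 4 := rfl

lemma freyCurve_a₄ : P.freyCurve.a₄ = -(qA P * qB P) / 16 := by
  show -((P.a : ℚ) ^ P.p) * ((P.b : ℚ) ^ P.p) / 16 = _
  simp only [qA, qB]
  ring

lemma freyCurve_b₂ : P.freyCurve.b₂ = qB P - qA P := by
  rw [b₂, freyCurve_a₁, freyCurve_a₂]
  ring

lemma freyCurve_b₄ : P.freyCurve.b₄ = -(qA P * qB P) / 8 := by
  rw [b₄, freyCurve_a₁, freyCurve_a₃, freyCurve_a₄]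
  ring

lemma freyCurve_b₆ : P.freyCurve.b₆ = 0 := by
  rw [b₆, freyCurve_a₃, freyCurve_a₆]
  ring

lemma freyCurve_b₈ : P.freyCurve.b₈ = -(qA P * qB P) ^ 2 / 256 := by
  rw [b₈, freyCurve_a₁, freyCurve_a₃, freyCurve_a₆, freyCurve_a₄]
  ring

lemma freyCurve_c₄ : P.freyCurve.c₄ = qA P ^ 2 + qA P * qB P + qB P ^ 2 := by
  rw [c₄, freyCurve_b₂, freyCurve_b₄]
  ring

lemma freyCurve_Δ : P.freyCurve.Δ = (qA P * qB P * qC P) ^ 2 / 256 := by
  rw [Δ, freyCurve_b₂, freyCurve_b₄, freyCurve_b₆, freyCurve_b₈, ← qA_add_qB]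
  ring

lemma freyCurve_Δ_ne_zero : P.freyCurve.Δ ≠ 0 := by
  rw [freyCurve_Δ]
  exact div_ne_zero (pow_ne_zero _ (mul_ne_zero (mul_ne_zero (qA_ne_zero P) (qB_ne_zero P))
    (qC_ne_zero P))) (by norm_num)

/-- The two-torsion cubic of the Frey curve splits over `ℚ`. -/
lemma freyCurve_twoTorsion_factor (x : ℚ) :
    4 * x ^ 3 + P.freyCurve.b₂ * x ^ 2 + 2 * P.freyCurve.b₄ * x + P.freyCurve.b₆ =
      4 * x * (x - qA P / 4) * (x + qB P / 4) := by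
  rw [freyCurve_b₂, freyCurve_b₄, freyCurve_b₆]
  ring

/-- The Weierstrass equation of the Frey curve in completed-square form. -/
lemma freyCurve_equation_iff (x y : ℚ) :
    P.freyCurve.toAffine.Equation x y ↔
      (y + x / 2) ^ 2 = x * (x - qA P / 4) * (x + qB P / 4) := by
  rw [Affine.equation_iff]
  rw [freyCurve_a₁, freyCurve_a₃, freyCurve_a₆, freyCurve_a₂, freyCurve_a₄]
  constructor <;> intro h <;> linear_combination h

section Field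

variable {K : Type*} [Field K] [Algebra ℚ K]

/-- `a^p` in a field of characteristic zero. -/
def kA : K := algebraMap ℚ K (qA P)

/-- `b^p` in a field of characteristic zero. -/
def kB : K := algebraMap ℚ K (qB P)

/-- `c^p` in a field of characteristic zero. -/
def kC : K := algebraMap ℚ K (qC P)

lemma kA_add_kB : (kA P : K) + kB P = kC P := by
  simp only [kA, kB, kC, ← map_add, qA_add_qB]

lemma kA_eq : (kA P : K) = ((P.a : ℤ) : K) ^ P.p := by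
  simp only [kA, qA, map_pow, map_intCast]

lemma kB_eq : (kB P : K) = ((P.b : ℤ) : K) ^ P.p := by
  simp only [kB, qB, map_pow, map_intCast]

lemma kC_eq : (kC P : K) = ((P.c : ℤ) : K) ^ P.p := by
  simp only [kC, qC, map_pow, map_intCast]

@[simp] lemma baseChange_a₁ : (P.freyCurve⁄K).a₁ = 1 := by
  show algebraMap ℚ K P.freyCurve.a₁ = 1
  rw [freyCurve_a₁, map_one]

@[simp] lemma baseChange_a₃ : (P.freyCurve⁄K).a₃ = 0 := by
  show algebraMap ℚ K P.freyCurve.a₃ = 0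
  rw [freyCurve_a₃, map_zero]

@[simp] lemma baseChange_a₆ : (P.freyCurve⁄K).a₆ = 0 := by
  show algebraMap ℚ K P.freyCurve.a₆ = 0
  rw [freyCurve_a₆, map_zero]

lemma baseChange_a₂ : (P.freyCurve⁄K).a₂ = (kB P - 1 - kA P) / 4 := by
  show algebraMap ℚ K P.freyCurve.a₂ = _
  rw [freyCurve_a₂]
  simp only [kA, kB, map_div₀, map_sub, map_one, map_ofNat]

lemma baseChange_a₄ : (P.freyCurve⁄K).a₄ = -(kA P * kB P) / 16 := by
  show algebraMap ℚ K P.freyCurve.a₄ = _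
  rw [freyCurve_a₄]
  simp only [kA, kB, map_div₀, map_neg, map_mul, map_ofNat]

lemma baseChange_b₂ : (P.freyCurve⁄K).b₂ = kB P - kA P := by
  show (P.freyCurve.map (algebraMap ℚ K)).b₂ = _
  rw [map_b₂, freyCurve_b₂]
  simp only [kA, kB, map_sub]

lemma baseChange_b₄ : (P.freyCurve⁄K).b₄ = -(kA P * kB P) / 8 := by
  show (P.freyCurve.map (algebraMap ℚ K)).b₄ = _
  rw [map_b₄, freyCurve_b₄]
  simp only [kA, kB, map_div₀, map_neg, map_mul, map_ofNat]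

lemma baseChange_b₆ : (P.freyCurve⁄K).b₆ = 0 := by
  show (P.freyCurve.map (algebraMap ℚ K)).b₆ = _
  rw [map_b₆, freyCurve_b₆, map_zero]

lemma baseChange_b₈ : (P.freyCurve⁄K).b₈ = -(kA P * kB P) ^ 2 / 256 := by
  show (P.freyCurve.map (algebraMap ℚ K)).b₈ = _
  rw [map_b₈, freyCurve_b₈]
  simp only [kA, kB, map_div₀, map_neg, map_mul, map_pow, map_ofNat]

lemma baseChange_c₄ : (P.freyCurve⁄K).c₄ = kA P ^ 2 + kA P * kB P + kB P ^ 2 := by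
  show (P.freyCurve.map (algebraMap ℚ K)).c₄ = _
  rw [map_c₄, freyCurve_c₄]
  simp only [kA, kB, map_add, map_mul, map_pow]

lemma baseChange_Δ : (P.freyCurve⁄K).Δ = (kA P * kB P * kC P) ^ 2 / 256 := by
  show (P.freyCurve.map (algebraMap ℚ K)).Δ = _
  rw [map_Δ, freyCurve_Δ]
  simp only [kA, kB, kC, map_div₀, map_mul, map_pow, map_ofNat]

lemma baseChange_Δ_ne_zero : (P.freyCurve⁄K).Δ ≠ 0 := by
  show (P.freyCurve.map (algebraMap ℚ K)).Δ ≠ 0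
  rw [map_Δ]
  exact (map_ne_zero_iff _ (algebraMap ℚ K).injective).mpr (freyCurve_Δ_ne_zero P)

/-- The Weierstrass equation of the base-changed Frey curve in completed-square form. -/
lemma baseChange_equation_iff [CharZero K] (x y : K) :
    (P.freyCurve⁄K).toAffine.Equation x y ↔
      (y + x / 2) ^ 2 = x * (x - kA P / 4) * (x + kB P / 4) := by
  rw [Affine.equation_iff]
  rw [baseChange_a₁, baseChange_a₃, baseChange_a₆, baseChange_a₂, baseChange_a₄]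
  constructor <;> intro h <;> linear_combination h

end Field

section Coprime

/-- A prime dividing `a` does not divide `b`. -/
lemma not_dvd_b_of_dvd_a {q : ℕ} (hq : q.Prime) (h : (q : ℤ) ∣ P.a) : ¬ (q : ℤ) ∣ P.b := by
  intro hb
  have h1 : (q : ℤ) ∣ gcd P.a P.b := dvd_gcd h hb
  rw [P.hgcdab] at h1
  exact (Nat.prime_iff_prime_int.mp hq).not_dvd_one h1

lemma not_dvd_c_of_dvd_a {q : ℕ} (hq : q.Prime) (h : (q : ℤ) ∣ P.a) : ¬ (q : ℤ) ∣ P.c := by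
  intro hc
  have h1 : (q : ℤ) ∣ gcd P.a P.c := dvd_gcd h hc
  rw [P.hgcdac] at h1
  exact (Nat.prime_iff_prime_int.mp hq).not_dvd_one h1

lemma not_dvd_a_of_dvd_b {q : ℕ} (hq : q.Prime) (h : (q : ℤ) ∣ P.b) : ¬ (q : ℤ) ∣ P.a :=
  fun ha => not_dvd_b_of_dvd_a P hq ha h

lemma not_dvd_c_of_dvd_b {q : ℕ} (hq : q.Prime) (h : (q : ℤ) ∣ P.b) : ¬ (q : ℤ) ∣ P.c := by
  intro hc
  have h1 : (q : ℤ) ∣ gcd P.b P.c := dvd_gcd h hc
  rw [P.hgcdbc] at h1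
  exact (Nat.prime_iff_prime_int.mp hq).not_dvd_one h1

lemma not_dvd_a_of_dvd_c {q : ℕ} (hq : q.Prime) (h : (q : ℤ) ∣ P.c) : ¬ (q : ℤ) ∣ P.a :=
  fun ha => not_dvd_c_of_dvd_a P hq ha h

lemma not_dvd_b_of_dvd_c {q : ℕ} (hq : q.Prime) (h : (q : ℤ) ∣ P.c) : ¬ (q : ℤ) ∣ P.b :=
  fun hb => not_dvd_c_of_dvd_b P hq hb h

lemma dvd_abc_iff {q : ℕ} (hq : q.Prime) :
    (q : ℤ) ∣ P.a * P.b * P.c ↔ (q : ℤ) ∣ P.a ∨ (q : ℤ) ∣ P.b ∨ (q : ℤ) ∣ P.c := by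
  have hp := Nat.prime_iff_prime_int.mp hq
  rw [hp.dvd_mul, hp.dvd_mul, or_assoc]

/-- The three mutually exclusive cases of bad reduction. -/
lemma dvd_cases {q : ℕ} (hq : q.Prime) (h : (q : ℤ) ∣ P.a * P.b * P.c) :
    ((q : ℤ) ∣ P.a ∧ ¬ (q : ℤ) ∣ P.b ∧ ¬ (q : ℤ) ∣ P.c) ∨
    ((q : ℤ) ∣ P.b ∧ ¬ (q : ℤ) ∣ P.a ∧ ¬ (q : ℤ) ∣ P.c) ∨
    ((q : ℤ) ∣ P.c ∧ ¬ (q : ℤ) ∣ P.a ∧ ¬ (q : ℤ) ∣ P.b) := by
  rcases (dvd_abc_iff P hq).mp h with h | h | h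
  · exact Or.inl ⟨h, not_dvd_b_of_dvd_a P hq h, not_dvd_c_of_dvd_a P hq h⟩
  · exact Or.inr (Or.inl ⟨h, not_dvd_a_of_dvd_b P hq h, not_dvd_c_of_dvd_b P hq h⟩)
  · exact Or.inr (Or.inr ⟨h, not_dvd_a_of_dvd_c P hq h, not_dvd_b_of_dvd_c P hq h⟩)

end Coprime

end Fermat.Agent.S05
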