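import Fermat.Agent.S05.Transport
import Fermat.Agent.S05.FreyNumbers

set_option autoImplicit false

/-!
Reduction of the statement on the Frey curve to a local statement on the Legendre-type model
`y² = x (x - α) (x + β)` with `α`, `α + β` prime to `q` and `β = ± tᵖ`.
-/

namespace Fermat.Agent.S05

open WeierstrassCurve Transport

/-- The local statement for the Legendre-type model `y² = x (x - α) (x + β)`. -/
def LegendreLocal (p q : ℕ) (α β : ℤ) : Prop :=
  WeierstrassCurve.Affine.Point.GaloisRepUnramifiedAt (K := AlgebraicClosure ℚ) ℚ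
    (legendre (α : ℚ) (β : ℚ)).toAffine p q

/-- The hypotheses under which the local statement is needed. -/
def LegendreLocalHyp : Prop :=
  ∀ (p q : ℕ) (α β t : ℤ), p.Prime → 5 ≤ p → q.Prime → q ≠ 2 → q ≠ p →
    ¬ (q : ℤ) ∣ α → ¬ (q : ℤ) ∣ (α + β) → α ≠ 0 → β ≠ 0 → α + β ≠ 0 →
    (β = t ^ p ∨ β = -t ^ p) → LegendreLocal p q α β

theorem unramified_of_legendreLocal (hloc : LegendreLocalHyp)
    (P : FreyPackage) {q : ℕ} (hq : q.Prime) (hq2 : q ≠ 2) (hqp : q ≠ P.p) :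
    P.GaloisRepUnramifiedAt q := by
  have hqi := Nat.prime_iff_prime_int.mp hq
  have hFLT := P.hFLT
  have hap : P.a ^ P.p ≠ 0 := pow_ne_zero _ P.ha0
  have hbp : P.b ^ P.p ≠ 0 := pow_ne_zero _ P.hb0
  have hcp : P.c ^ P.p ≠ 0 := pow_ne_zero _ P.hc0
  have hpow : ∀ x : ℤ, ¬ (q : ℤ) ∣ x → ¬ (q : ℤ) ∣ x ^ P.p := fun x hx h =>
    hx (hqi.dvd_of_dvd_pow h)
  have hpown : ∀ x : ℤ, ¬ (q : ℤ) ∣ x → ¬ (q : ℤ) ∣ -x ^ P.p := fun x hx h =>
    hpow x hx ((dvd_neg).mp h)
  unfold FreyPackage.GaloisRepUnramifiedAt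
  by_cases ha : (q : ℤ) ∣ P.a
  · -- the model with `(α, β) = (-cᵖ, aᵖ)`
    have hb := not_dvd_b_of_dvd_a P hq ha
    have hc := not_dvd_c_of_dvd_a P hq ha
    have hsum : -P.c ^ P.p + P.a ^ P.p = -P.b ^ P.p := by linarith
    have h := hloc P.p q (-P.c ^ P.p) (P.a ^ P.p) P.a P.pp P.hp5 hq hq2 hqp (hpown _ hc)
      (by rw [hsum]; exact hpown _ hb) (neg_ne_zero.mpr hcp) hap
      (by rw [hsum]; exact neg_ne_zero.mpr hbp) (Or.inl rfl)
    unfold LegendreLocal at h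
    have hW : legendre ((-P.c ^ P.p : ℤ) : ℚ) ((P.a ^ P.p : ℤ) : ℚ) =
        freyChange ((P.a : ℚ) ^ P.p) • P.freyCurve := by
      rw [← freyChange_a]
      push_cast
      rfl
    exact galoisRepUnramifiedAt_of_eq_smul P.freyCurve _ hW P.p q h
  · by_cases hc : (q : ℤ) ∣ P.c
    · -- the model with `(α, β) = (bᵖ, -cᵖ)`
      have hb := not_dvd_b_of_dvd_c P hq hc
      have hsum : P.b ^ P.p + -P.c ^ P.p = -P.a ^ P.p := by linarith
      have h := hloc P.p q (P.b ^ P.p) (-P.c ^ P.p) P.c P.pp P.hp5 hq hq2 hqp (hpow _ hb)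
        (by rw [hsum]; exact hpown _ ha) hbp (neg_ne_zero.mpr hcp)
        (by rw [hsum]; exact neg_ne_zero.mpr hap) (Or.inr rfl)
      unfold LegendreLocal at h
      have hW : legendre ((P.b ^ P.p : ℤ) : ℚ) ((-P.c ^ P.p : ℤ) : ℚ) =
          freyChange (-(P.b : ℚ) ^ P.p) • P.freyCurve := by
        rw [← freyChange_b]
        push_cast
        rfl
      exact galoisRepUnramifiedAt_of_eq_smul P.freyCurve _ hW P.p q h
    · -- the model with `(α, β) = (aᵖ, bᵖ)`
      have hsum : P.a ^ P.p + P.b ^ P.p = P.c ^ P.p := hFLT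
      have h := hloc P.p q (P.a ^ P.p) (P.b ^ P.p) P.b P.pp P.hp5 hq hq2 hqp (hpow _ ha)
        (by rw [hsum]; exact hpow _ hc) hap hbp (by rw [hsum]; exact hcp) (Or.inl rfl)
      unfold LegendreLocal at h
      have hW : legendre ((P.a ^ P.p : ℤ) : ℚ) ((P.b ^ P.p : ℤ) : ℚ) =
          freyChange 0 • P.freyCurve := by
        rw [← freyChange_zero]
        push_cast
        rfl
      exact galoisRepUnramifiedAt_of_eq_smul P.freyCurve _ hW P.p q h

end Fermat.Agent.S05
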