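import Mathlib
import Fermat.Prelude.Def_FLTPrelim_Ramification

/-!
# S05: common definitions

Setting: a field `K` with a valuation `v` (multiplicative notation: `v x ≤ 1` means integral,
`v x < 1` means in the maximal ideal).  Curves in "Legendre form" `y² = x³ + a₂ x² + a₄ x`.
-/

set_option autoImplicit false

namespace Fermat.Agent.S05

open WeierstrassCurve WeierstrassCurve.Affine

variable {K : Type*} [Field K] {Γ₀ : Type*} [LinearOrderedCommGroupWithZero Γ₀]

/-- Legendre-type model `y² = x³ + a₂ x² + a₄ x` with `v`-integral coefficients, `2` a unit. -/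
structure LegModel (v : Valuation K Γ₀) (W : Affine K) : Prop where
  a₁ : W.a₁ = 0
  a₃ : W.a₃ = 0
  a₆ : W.a₆ = 0
  va₂ : v W.a₂ ≤ 1
  va₄ : v W.a₄ ≤ 1
  v2 : v (2 : K) = 1

/-- Multiplicative reduction with the node at `(0,0)`: `a₂ = s²` a unit, `a₄` in the maximal ideal,
`a₄ ≠ 0`. -/
structure NodeModel (v : Valuation K Γ₀) (W : Affine K) (s : K) : Prop extends LegModel v W where
  hs : s ^ 2 = W.a₂
  va : v W.a₂ = 1
  vb : v W.a₄ < 1
  b_ne : W.a₄ ≠ 0

/-- In the node model: points not reducing to the node `(0,0)`. -/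
def NearE0 (v : Valuation K Γ₀) {W : Affine K} : W.Point → Prop
  | .zero => True
  | .some x _ _ => 1 ≤ v x

/-- A ring endomorphism acting trivially on the residue field of `v`. -/
def IsInertialFor (v : Valuation K Γ₀) (τ : K →+* K) : Prop :=
  ∀ x, v x ≤ 1 → v (τ x - x) < 1

end Fermat.Agent.S05
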