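import Mathlib
import Fermat.Agent.S05.Defs

/-! # S05: classes of points on the node model (definitions)

`ρ = v a₄`.  Classes of points of `W` (node model, `s² = a₂`):
* `NearE0 v P` (Defs): `P = 0` or `1 ≤ v x`;
* `IsLow v P`: affine with `v x ≤ ρ` (contains `T0 = (0,0)`);
* `IsCls v e t P`: affine with `v x = t` and `y/x ≡ e` mod the maximal ideal (`e = s` or `e = -s`,
  used for `ρ < t < 1`).
Each lemma below = `add_master` (or `add_T0`) + the corresponding valuation lemma
(`ValAB.val_A_G/val_A/val_B`, `val_C`, `val_D/val_D_G`).  -/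

set_option autoImplicit false

namespace Fermat.Agent.S05

open WeierstrassCurve WeierstrassCurve.Affine

variable {K : Type*} [Field K] [DecidableEq K] {Γ₀ : Type*} [LinearOrderedCommGroupWithZero Γ₀]

/-- affine point with `v x ≤ v a₄` -/
def IsLow (v : Valuation K Γ₀) {W : Affine K} (P : W.Point) : Prop :=
  ∃ (x y : K) (h : W.Nonsingular x y), P = Point.some x y h ∧ v x ≤ v W.a₄

/-- affine point with `v x = t` and `y / x ≡ e` -/
def IsCls (v : Valuation K Γ₀) {W : Affine K} (e : K) (t : Γ₀) (P : W.Point) : Prop :=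
  ∃ (x y : K) (h : W.Nonsingular x y), P = Point.some x y h ∧ v x = t ∧ v (y / x - e) < 1

end Fermat.Agent.S05
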