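import Mathlib
import Fermat.Agent.S05.Defs

/-! # S05 chunk E: explicit group law on `y² = x³ + a₂x² + a₄x` in the coordinates
`(x, g = y/x)`; translation by the 2-torsion point `(0,0)`; negation.
Pure algebra over a field, no valuation. -/

set_option autoImplicit false

namespace Fermat.Agent.S05

open WeierstrassCurve WeierstrassCurve.Affine

variable {K : Type*} [Field K] [DecidableEq K] {W : Affine K}

/-- The Legendre-form equation. -/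
theorem master_equation_iff (h1 : W.a₁ = 0) (h3 : W.a₃ = 0) (h6 : W.a₆ = 0) (x y : K) :
    W.Equation x y ↔ y ^ 2 = x ^ 3 + W.a₂ * x ^ 2 + W.a₄ * x := by
  rw [Affine.equation_iff, h1, h3, h6]
  constructor <;> intro h <;> linear_combination h

theorem master_negY (h1 : W.a₁ = 0) (h3 : W.a₃ = 0) (x y : K) : W.negY x y = -y := by
  simp [Affine.negY, h1, h3]

/-- On the Legendre model, `g = y/x` satisfies `g² = x + a₂ + a₄/x`. -/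
theorem g_sq (h1 : W.a₁ = 0) (h3 : W.a₃ = 0) (h6 : W.a₆ = 0) {x y : K} (h : W.Equation x y)
    (hx : x ≠ 0) : (y / x) ^ 2 = x + W.a₂ + W.a₄ / x := by
  rw [master_equation_iff h1 h3 h6] at h
  field_simp
  linear_combination h

/-- `-(x,y) = (x,-y)`. -/
theorem neg_some_leg (h1 : W.a₁ = 0) (h3 : W.a₃ = 0) {x y : K} (h : W.Nonsingular x y) :
    ∃ h' : W.Nonsingular x (-y), -Point.some x y h = Point.some x (-y) h' := by
  have key : ∀ y' (_ : W.negY x y = y'), ∃ h' : W.Nonsingular x y',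
      -Point.some x y h = Point.some x y' h' := by
    rintro _ rfl
    exact ⟨_, Point.neg_some h⟩
  exact key _ (master_negY h1 h3 x y)

/-- `(0,0)` is a nonsingular point when `a₄ ≠ 0`. -/
theorem nonsingular_zero_zero (h1 : W.a₁ = 0) (h3 : W.a₃ = 0) (h6 : W.a₆ = 0) (hb : W.a₄ ≠ 0) :
    W.Nonsingular 0 0 := by
  rw [Affine.nonsingular_zero]
  exact ⟨h6, Or.inr hb⟩

/-- `(0,0)` has order two. -/
theorem T0_add_T0 (h1 : W.a₁ = 0) (h3 : W.a₃ = 0) (h6 : W.a₆ = 0) (h0 : W.Nonsingular 0 0) :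
    Point.some 0 0 h0 + Point.some 0 0 h0 = 0 := by
  apply Point.add_self_of_Y_eq
  rw [master_negY h1 h3]; simp

/-- Translation by `T0 = (0,0)`: `(x,y) + T0 = (a₄/x, -a₄ y/x²)` for `x ≠ 0`. -/
theorem add_T0 (h1 : W.a₁ = 0) (h3 : W.a₃ = 0) (h6 : W.a₆ = 0) (h0 : W.Nonsingular 0 0)
    {x y : K} (h : W.Nonsingular x y) (hx : x ≠ 0) :
    ∃ h' : W.Nonsingular (W.a₄ / x) (-(W.a₄ * y / x ^ 2)),
      Point.some x y h + Point.some 0 0 h0 = Point.some (W.a₄ / x) (-(W.a₄ * y / x ^ 2)) h' := by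
  have key : ∀ X Y (_ : W.addX x 0 (W.slope x 0 y 0) = X)
      (_ : W.addY x 0 y (W.slope x 0 y 0) = Y), ∃ h' : W.Nonsingular X Y,
      Point.some x y h + Point.some 0 0 h0 = Point.some X Y h' := by
    rintro _ _ rfl rfl
    exact ⟨_, Point.add_of_X_ne hx⟩
  have hg := g_sq h1 h3 h6 h.1 hx
  have hsl : W.slope x 0 y 0 = y / x := by
    rw [Affine.slope_of_X_ne hx]; simp
  have hX : W.addX x 0 (W.slope x 0 y 0) = W.a₄ / x := by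
    rw [hsl]
    simp only [Affine.addX, h1]
    linear_combination hg
  refine key _ _ hX ?_
  rw [Affine.addY, hX, master_negY h1 h3, Affine.negAddY, hX, hsl]
  field_simp
  ring

/-- The slope in `(x, g)`-coordinates (chord and tangent at once). -/
theorem master_slope (h1 : W.a₁ = 0) (h3 : W.a₃ = 0) (h6 : W.a₆ = 0) {x₁ y₁ x₂ y₂ : K}
    (hP₁ : W.Equation x₁ y₁) (hP₂ : W.Equation x₂ y₂) (hx₁ : x₁ ≠ 0) (hx₂ : x₂ ≠ 0)
    (hG : y₁ / x₁ + y₂ / x₂ ≠ 0) :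
    W.slope x₁ x₂ y₁ y₂ =
      y₁ / x₁ + x₂ * (1 - W.a₄ / (x₁ * x₂)) / (y₁ / x₁ + y₂ / x₂) := by
  have e₁ := (master_equation_iff h1 h3 h6 x₁ y₁).mp hP₁
  have e₂ := (master_equation_iff h1 h3 h6 x₂ y₂).mp hP₂
  have hG' : y₁ * x₂ + y₂ * x₁ ≠ 0 := by
    intro h0
    apply hG
    field_simp
    linear_combination h0
  by_cases hx : x₁ = x₂
  · subst hx
    have hy : y₁ ≠ W.negY x₁ y₂ := by
      rw [master_negY h1 h3]
      intro h0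
      apply hG
      rw [h0]; field_simp; ring
    have hyy : y₁ = y₂ := Affine.Y_eq_of_Y_ne hP₁ hP₂ rfl hy
    subst hyy
    rw [Affine.slope_of_Y_ne rfl hy, master_negY h1 h3, h1]
    have hy0 : y₁ ≠ 0 := by
      intro h0; apply hG; rw [h0]; simp
    have h2 : (2 : K) ≠ 0 := by
      intro h2
      apply hy
      rw [master_negY h1 h3]
      linear_combination y₁ * h2
    have hyy' : y₁ - -y₁ = 2 * y₁ := by ring
    have hgg : y₁ / x₁ + y₁ / x₁ = 2 * y₁ / x₁ := by ring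
    rw [hyy', hgg]
    field_simp
    grind
  · rw [Affine.slope_of_X_ne hx]
    have hd : x₁ - x₂ ≠ 0 := sub_ne_zero.mpr hx
    field_simp
    grind

/-- Master formula (chord and tangent at once).  With `gᵢ = yᵢ/xᵢ`, `G = g₁ + g₂ ≠ 0`,
`κ = 1 - a₄/(x₁x₂)`: the sum is an affine point `(x₃,y₃)` with
`x₃ · x₁x₂ · G² = (x₁x₂ - a₄)²` and, if `x₁x₂ ≠ a₄` (i.e. `x₃ ≠ 0`),
`y₃/x₃ = G/κ - g₁ - x₂ κ / G`. -/
theorem add_master (h1 : W.a₁ = 0) (h3 : W.a₃ = 0) (h6 : W.a₆ = 0) {x₁ y₁ x₂ y₂ : K}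
    (hP₁ : W.Nonsingular x₁ y₁) (hP₂ : W.Nonsingular x₂ y₂) (hx₁ : x₁ ≠ 0) (hx₂ : x₂ ≠ 0)
    (hG : y₁ / x₁ + y₂ / x₂ ≠ 0) :
    ∃ (x₃ y₃ : K) (hP₃ : W.Nonsingular x₃ y₃),
      Point.some x₁ y₁ hP₁ + Point.some x₂ y₂ hP₂ = Point.some x₃ y₃ hP₃ ∧
      x₃ * (x₁ * x₂) * (y₁ / x₁ + y₂ / x₂) ^ 2 = (x₁ * x₂ - W.a₄) ^ 2 ∧
      (x₁ * x₂ ≠ W.a₄ →
        y₃ / x₃ = (y₁ / x₁ + y₂ / x₂) / (1 - W.a₄ / (x₁ * x₂)) - y₁ / x₁
          - x₂ * (1 - W.a₄ / (x₁ * x₂)) / (y₁ / x₁ + y₂ / x₂)) := by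
  have hxy : ¬(x₁ = x₂ ∧ y₁ = W.negY x₂ y₂) := by
    rintro ⟨hx, hy⟩
    rw [master_negY h1 h3] at hy
    apply hG
    rw [hx, hy]; field_simp; ring
  have hsl := master_slope h1 h3 h6 hP₁.1 hP₂.1 hx₁ hx₂ hG
  have hg₁ := g_sq h1 h3 h6 hP₁.1 hx₁
  have hg₂ := g_sq h1 h3 h6 hP₂.1 hx₂
  set ℓ := W.slope x₁ x₂ y₁ y₂ with hℓ
  have hy₁ : y₁ = y₁ / x₁ * x₁ := by field_simp
  have hX : W.addX x₁ x₂ ℓ * (x₁ * x₂) * (y₁ / x₁ + y₂ / x₂) ^ 2 = (x₁ * x₂ - W.a₄) ^ 2 := by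
    simp only [Affine.addX, h1]
    rw [hsl]
    generalize y₁ / x₁ = g₁ at *
    generalize y₂ / x₂ = g₂ at *
    field_simp
    field_simp at hg₁ hg₂
    grind
  refine ⟨W.addX x₁ x₂ ℓ, W.addY x₁ x₂ y₁ ℓ, Affine.nonsingular_add hP₁ hP₂ hxy,
    Point.add_some hxy, hX, ?_⟩
  intro hne
  have hκ : x₁ * x₂ - W.a₄ ≠ 0 := sub_ne_zero.mpr hne
  have hx₃ : W.addX x₁ x₂ ℓ ≠ 0 := by
    intro h0
    rw [h0] at hX
    simp only [zero_mul] at hX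
    exact hκ ((pow_eq_zero_iff (two_ne_zero)).mp hX.symm)
  have hx₃' : W.addX x₁ x₂ ℓ =
      (x₁ * x₂ - W.a₄) ^ 2 / ((x₁ * x₂) * (y₁ / x₁ + y₂ / x₂) ^ 2) := by
    rw [eq_div_iff (mul_ne_zero (mul_ne_zero hx₁ hx₂) (pow_ne_zero 2 hG))]
    linear_combination hX
  rw [Affine.addY, master_negY h1 h3, Affine.negAddY]
  rw [div_eq_iff hx₃, hx₃', hsl]
  conv_lhs => rw [hy₁]
  generalize y₁ / x₁ = g₁ at *
  generalize y₂ / x₂ = g₂ at *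
  field_simp
  field_simp at hg₁ hg₂
  grind

/-- If `g₁ + g₂ = 0` (both `xᵢ ≠ 0`) then `x₁ = x₂` (so `P₁ = -P₂`) or `x₁ x₂ = a₄`. -/
theorem eq_or_mul_eq_of_g_add_eq_zero (h1 : W.a₁ = 0) (h3 : W.a₃ = 0) (h6 : W.a₆ = 0)
    {x₁ y₁ x₂ y₂ : K} (hP₁ : W.Equation x₁ y₁) (hP₂ : W.Equation x₂ y₂) (hx₁ : x₁ ≠ 0)
    (hx₂ : x₂ ≠ 0) (hG : y₁ / x₁ + y₂ / x₂ = 0) : x₁ = x₂ ∨ x₁ * x₂ = W.a₄ := by
  have hg₁ := g_sq h1 h3 h6 hP₁ hx₁
  have hg₂ := g_sq h1 h3 h6 hP₂ hx₂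
  have h12 : y₁ / x₁ = -(y₂ / x₂) := eq_neg_of_add_eq_zero_left hG
  rw [h12, neg_sq, hg₂] at hg₁
  have : (x₁ - x₂) * (x₁ * x₂ - W.a₄) = 0 := by
    field_simp at hg₁
    linear_combination -hg₁
  rcases mul_eq_zero.mp this with h | h
  · exact Or.inl (sub_eq_zero.mp h)
  · exact Or.inr (sub_eq_zero.mp h)

/-- If `x₁ = x₂` and `y₁ + y₂ = 0` the sum is `0`. -/
theorem add_eq_zero_of_neg (h1 : W.a₁ = 0) (h3 : W.a₃ = 0) {x y₁ y₂ : K}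
    (hP₁ : W.Nonsingular x y₁) (hP₂ : W.Nonsingular x y₂) (hy : y₁ + y₂ = 0) :
    Point.some x y₁ hP₁ + Point.some x y₂ hP₂ = 0 := by
  apply Point.add_of_Y_eq rfl
  rw [master_negY h1 h3]
  exact eq_neg_of_add_eq_zero_left hy

end Fermat.Agent.S05
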