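import Mathlib

/-! # S05: the valuation environment of the node model (shared by the `ValLemmas` chunks). -/

set_option autoImplicit false

namespace Fermat.Agent.S05

variable {K : Type*} [Field K] {Γ₀ : Type*} [LinearOrderedCommGroupWithZero Γ₀]

/-- the valuation environment of the node model -/
structure NodeEnv (v : Valuation K Γ₀) (a b : K) : Prop where
  va : v a = 1
  vb : v b < 1
  b_ne : b ≠ 0
  v2 : v (2 : K) = 1

end Fermat.Agent.S05
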