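import Mathlib

/-! # S05 chunk F (part): valuation estimates (A) and (B) for the master formula.

Pure field + valuation computations.  `a = a₂`, `b = a₄`, `e² = a`.  A "g-point" is `(x, g)` with
`x ≠ 0`, `g² = x + a + b/x`.  Hypotheses of the node environment are passed explicitly
(`va : v a = 1`, `vb : v b < 1`, `hb : b ≠ 0`, `v2 : v 2 = 1`) so that this file is independent of
the `NodeEnv` structure of `ValLemmas.lean`. -/

set_option autoImplicit false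

namespace Fermat.Agent.S05.ValAB

variable {K : Type*} [Field K] {Γ₀ : Type*} [LinearOrderedCommGroupWithZero Γ₀]
variable {v : Valuation K Γ₀} {a b e x₁ x₂ g₁ g₂ x₃ g₃ x g : K}

/-- `(g₁ - g₂)(g₁ + g₂) = (x₁ - x₂) κ`. -/
theorem g_sub_mul_g_add (hx₁ : x₁ ≠ 0) (hx₂ : x₂ ≠ 0)
    (hg₁ : g₁ ^ 2 = x₁ + a + b / x₁) (hg₂ : g₂ ^ 2 = x₂ + a + b / x₂) :
    (g₁ - g₂) * (g₁ + g₂) = (x₁ - x₂) * (1 - b / (x₁ * x₂)) := by
  have : (g₁ - g₂) * (g₁ + g₂) = g₁ ^ 2 - g₂ ^ 2 := by ring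
  rw [this, hg₁, hg₂]
  field_simp
  ring

theorem v_e_eq_one (va : v a = 1) (he : e ^ 2 = a) : v e = 1 := by
  have h : v e ^ 2 = 1 := by rw [← map_pow, he, va]
  rcases pow_eq_one_iff.1 h with h | h
  · exact h
  · omega

/-- `v κ = 1` when `v b < v (x₁ x₂)`. -/
theorem v_kappa (h : v b < v x₁ * v x₂) : v (1 - b / (x₁ * x₂)) = 1 := by
  have hne : v x₁ * v x₂ ≠ 0 := ne_of_gt (lt_of_le_of_lt zero_le h)
  have hlt : v (b / (x₁ * x₂)) < 1 := by
    rw [map_div₀, map_mul]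
    exact (div_lt_one₀ (zero_lt_iff.2 hne)).2 h
  have : v (1 - b / (x₁ * x₂)) = v (1 : K) := by
    apply Valuation.map_sub_eq_of_lt_left
    rw [map_one]; exact hlt
  rw [this, map_one]

/-- if `1 ≤ v x` then `v g ^ 2 ≤ v x`. -/
theorem v_g_sq_le (va : v a = 1) (vb : v b < 1) (hg : g ^ 2 = x + a + b / x) (h1 : 1 ≤ v x) :
    v g ^ 2 ≤ v x := by
  have hx0 : v x ≠ 0 := ne_of_gt (lt_of_lt_of_le zero_lt_one h1)
  rw [← map_pow, hg]
  refine Valuation.map_add_le _ (Valuation.map_add_le _ le_rfl ?_) ?_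
  · rw [va]; exact h1
  · rw [map_div₀]
    refine le_trans ((div_le_one₀ (zero_lt_iff.2 hx0)).2 (le_trans vb.le h1)) h1

/-- if `1 < v x` then `v g ^ 2 = v x`. -/
theorem v_g_sq_eq (va : v a = 1) (vb : v b < 1) (hg : g ^ 2 = x + a + b / x) (h1 : 1 < v x) :
    v g ^ 2 = v x := by
  have hx0 : v x ≠ 0 := ne_of_gt (lt_trans zero_lt_one h1)
  rw [← map_pow, hg, add_assoc]
  apply Valuation.map_add_eq_of_lt_left
  refine Valuation.map_add_lt _ ?_ ?_
  · rw [va]; exact h1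
  · rw [map_div₀]
    exact lt_of_le_of_lt ((div_le_one₀ (zero_lt_iff.2 hx0)).2 (le_trans vb.le h1.le)) h1

/-- (A) both points away from the node: `G ≠ 0` unless `x₁ = x₂`. -/
theorem val_A_G (vb : v b < 1) (hx₁ : x₁ ≠ 0) (hx₂ : x₂ ≠ 0)
    (hg₁ : g₁ ^ 2 = x₁ + a + b / x₁) (hg₂ : g₂ ^ 2 = x₂ + a + b / x₂)
    (h1 : 1 ≤ v x₁) (h2 : 1 ≤ v x₂) (hG : g₁ + g₂ = 0) : x₁ = x₂ := by
  have hid := g_sub_mul_g_add hx₁ hx₂ hg₁ hg₂
  rw [hG, mul_zero] at hid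
  have hk : v (1 - b / (x₁ * x₂)) = 1 := by
    apply v_kappa
    calc v b < 1 := vb
      _ = 1 * 1 := (one_mul 1).symm
      _ ≤ v x₁ * v x₂ := mul_le_mul' h1 h2
  have hk0 : (1 - b / (x₁ * x₂)) ≠ 0 := by
    intro h0; rw [h0, map_zero] at hk; exact zero_ne_one hk
  rcases mul_eq_zero.1 hid.symm with h | h
  · exact sub_eq_zero.1 h
  · exact absurd h hk0

/-- (A) both points away from the node: so is the sum. -/
theorem val_A (va : v a = 1) (vb : v b < 1) (hx₁ : x₁ ≠ 0) (hx₂ : x₂ ≠ 0)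
    (hg₁ : g₁ ^ 2 = x₁ + a + b / x₁) (hg₂ : g₂ ^ 2 = x₂ + a + b / x₂)
    (h1 : 1 ≤ v x₁) (h2 : 1 ≤ v x₂) (hG : g₁ + g₂ ≠ 0)
    (hx₃ : x₃ * (x₁ * x₂) * (g₁ + g₂) ^ 2 = (x₁ * x₂ - b) ^ 2) : 1 ≤ v x₃ := by
  have h12 : 1 ≤ v x₁ * v x₂ := by
    calc (1 : Γ₀) = 1 * 1 := (one_mul 1).symm
      _ ≤ v x₁ * v x₂ := mul_le_mul' h1 h2
  have hnum : v (x₁ * x₂ - b) = v x₁ * v x₂ := by
    rw [← map_mul]
    apply Valuation.map_sub_eq_of_lt_left
    rw [map_mul]; exact lt_of_lt_of_le vb h12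
  -- v G ^ 2 ≤ v x₁ * v x₂
  have hGsq : v (g₁ + g₂) ^ 2 ≤ v x₁ * v x₂ := by
    have hg1 := v_g_sq_le va vb hg₁ h1
    have hg2 := v_g_sq_le va vb hg₂ h2
    rcases le_total (v g₁) (v g₂) with h | h
    · have : v (g₁ + g₂) ≤ v g₂ := Valuation.map_add_le _ h le_rfl
      calc v (g₁ + g₂) ^ 2 ≤ v g₂ ^ 2 := pow_le_pow_left₀ zero_le this 2
        _ ≤ v x₂ := hg2
        _ = 1 * v x₂ := (one_mul _).symm
        _ ≤ v x₁ * v x₂ := mul_le_mul_left h1 _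
    · have : v (g₁ + g₂) ≤ v g₁ := Valuation.map_add_le _ le_rfl h
      calc v (g₁ + g₂) ^ 2 ≤ v g₁ ^ 2 := pow_le_pow_left₀ zero_le this 2
        _ ≤ v x₁ := hg1
        _ = v x₁ * 1 := (mul_one _).symm
        _ ≤ v x₁ * v x₂ := mul_le_mul_right h2 _
  have hv := congrArg v hx₃
  rw [map_mul, map_mul, map_mul, map_pow, map_pow, hnum] at hv
  have hGne : v (g₁ + g₂) ≠ 0 := (Valuation.ne_zero_iff v).2 hG
  have h120 : v x₁ * v x₂ ≠ 0 := ne_of_gt (lt_of_lt_of_le zero_lt_one h12)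
  -- v x₃ * (v x₁ v x₂) * vG² = (v x₁ v x₂)²  ⇒  v x₃ * vG² = v x₁ v x₂
  have hv' : v x₃ * v (g₁ + g₂) ^ 2 = v x₁ * v x₂ := by
    have : v x₃ * v (g₁ + g₂) ^ 2 * (v x₁ * v x₂) = (v x₁ * v x₂) * (v x₁ * v x₂) := by
      rw [mul_right_comm, hv, sq]
    exact mul_right_cancel₀ h120 this
  by_contra hlt
  rw [not_le] at hlt
  have hG2ne : v (g₁ + g₂) ^ 2 ≠ 0 := pow_ne_zero _ hGne
  have : v x₃ * v (g₁ + g₂) ^ 2 < 1 * v (g₁ + g₂) ^ 2 :=
    mul_lt_mul_of_pos_right hlt (zero_lt_iff.2 hG2ne)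
  rw [hv', one_mul] at this
  exact absurd hGsq (not_le.2 this)

/-- `t ^ 2 ≤ X`, `1 ≤ X` imply `t ≤ X`. -/
theorem le_of_sq_le_of_one_le {t X : Γ₀} (h : t ^ 2 ≤ X) (h1 : 1 ≤ X) : t ≤ X := by
  rcases le_or_gt t 1 with ht | ht
  · exact le_trans ht h1
  · have : t < t ^ 2 := by
      rw [sq]
      calc t = t * 1 := (mul_one t).symm
        _ < t * t := mul_lt_mul_of_pos_left ht (lt_trans zero_lt_one ht)
    exact le_trans this.le h

/-- (B) `P₁` away from the node, `P₂` in the class `(v x₂, e)`: the sum is in the same class. -/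
theorem val_B (va : v a = 1) (vb : v b < 1) (he : e ^ 2 = a)
    (hx₁ : x₁ ≠ 0) (hx₂ : x₂ ≠ 0)
    (hg₁ : g₁ ^ 2 = x₁ + a + b / x₁)
    (h1 : 1 ≤ v x₁) (h2l : v b < v x₂) (h2u : v x₂ < 1) (hc : v (g₂ - e) < 1) :
    g₁ + g₂ ≠ 0 ∧ x₁ * x₂ ≠ b ∧
    (x₃ * (x₁ * x₂) * (g₁ + g₂) ^ 2 = (x₁ * x₂ - b) ^ 2 → v x₃ = v x₂) ∧
    (g₃ = (g₁ + g₂) / (1 - b / (x₁ * x₂)) - g₁ - x₂ * (1 - b / (x₁ * x₂)) / (g₁ + g₂) →
      v (g₃ - e) < 1) := by
  have hvx1 : v x₁ ≠ 0 := (Valuation.ne_zero_iff v).2 hx₁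
  have hvx2 : v x₂ ≠ 0 := (Valuation.ne_zero_iff v).2 hx₂
  have h12 : v b < v x₁ * v x₂ := by
    calc v b < v x₂ := h2l
      _ = 1 * v x₂ := (one_mul _).symm
      _ ≤ v x₁ * v x₂ := mul_le_mul_left h1 _
  have hk : v (1 - b / (x₁ * x₂)) = 1 := v_kappa h12
  have hk0 : (1 - b / (x₁ * x₂)) ≠ 0 := by
    intro h0; rw [h0, map_zero] at hk; exact zero_ne_one hk
  have hxb : x₁ * x₂ ≠ b := by
    intro h; rw [← h, map_mul] at h12; exact lt_irrefl _ h12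
  have ve : v e = 1 := v_e_eq_one va he
  have vg2 : v g₂ = 1 := by
    have : g₂ = e + (g₂ - e) := by ring
    rw [this, Valuation.map_add_eq_of_lt_left _ (by rw [ve]; exact hc), ve]
  -- the key: `v G ^ 2 = v x₁`
  have hGsq : v (g₁ + g₂) ^ 2 = v x₁ := by
    rcases eq_or_lt_of_le h1 with h1e | h1l
    · -- `v x₁ = 1`
      have hg1le : v g₁ ≤ 1 := by
        have := v_g_sq_le va vb hg₁ h1
        rw [← h1e] at this
        by_contra hlt
        rw [not_le] at hlt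
        exact absurd this (not_le.2 (one_lt_pow₀ hlt two_ne_zero))
      have hGle : v (g₁ + g₂) ≤ 1 := Valuation.map_add_le _ hg1le vg2.le
      have hGeq : v (g₁ + g₂) = 1 := by
        by_contra hne
        have hGlt : v (g₁ + g₂) < 1 := lt_of_le_of_ne hGle hne
        have h1' : v (g₁ + e) < 1 := by
          have : g₁ + e = (g₁ + g₂) - (g₂ - e) := by ring
          rw [this]; exact Valuation.map_sub_lt _ hGlt hc
        have h2' : v (g₁ - e) ≤ 1 := Valuation.map_sub_le _ hg1le ve.le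
        have h3 : v (g₁ ^ 2 - a) < 1 := by
          have : g₁ ^ 2 - a = (g₁ - e) * (g₁ + e) := by rw [← he]; ring
          rw [this, map_mul]
          calc v (g₁ - e) * v (g₁ + e) ≤ 1 * v (g₁ + e) := mul_le_mul_left h2' _
            _ = v (g₁ + e) := one_mul _
            _ < 1 := h1'
        have h4 : v (g₁ ^ 2 - a) = 1 := by
          have : g₁ ^ 2 - a = x₁ + b / x₁ := by rw [hg₁]; ring
          rw [this, Valuation.map_add_eq_of_lt_left, ← h1e]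
          rw [map_div₀, ← h1e, div_one]; exact vb
        rw [h4] at h3; exact lt_irrefl _ h3
      rw [hGeq, one_pow, ← h1e]
    · -- `1 < v x₁`
      have hg1 := v_g_sq_eq va vb hg₁ h1l
      have hg1lt : 1 < v g₁ := by
        by_contra hle
        rw [not_lt] at hle
        have : v g₁ ^ 2 ≤ 1 := pow_le_one₀ zero_le hle
        rw [hg1] at this; exact absurd h1l (not_lt.2 this)
      rw [Valuation.map_add_eq_of_lt_left _ (by rw [vg2]; exact hg1lt), hg1]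
  have hG0 : g₁ + g₂ ≠ 0 := by
    intro h0; rw [h0, map_zero] at hGsq
    exact hvx1 (by rw [← hGsq]; exact zero_pow two_ne_zero)
  have hGge : 1 ≤ v (g₁ + g₂) := by
    by_contra hlt
    rw [not_le] at hlt
    have : v (g₁ + g₂) ^ 2 < 1 := pow_lt_one₀ zero_le hlt two_ne_zero
    rw [hGsq] at this; exact absurd h1 (not_le.2 this)
  refine ⟨hG0, hxb, ?_, ?_⟩
  · intro hx₃
    have hnum : v (x₁ * x₂ - b) = v x₁ * v x₂ := by
      rw [← map_mul]
      apply Valuation.map_sub_eq_of_lt_left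
      rw [map_mul]; exact h12
    have hv := congrArg v hx₃
    rw [map_mul, map_mul, map_mul, map_pow, map_pow, hnum, hGsq] at hv
    -- v x₃ * (v x₁ * v x₂) * v x₁ = (v x₁ * v x₂)^2
    have h120 : v x₁ * v x₂ ≠ 0 := mul_ne_zero hvx1 hvx2
    have : v x₃ * v x₁ * (v x₁ * v x₂) = v x₂ * v x₁ * (v x₁ * v x₂) := by
      rw [mul_right_comm, hv, sq, mul_comm (v x₂) (v x₁)]
    exact mul_right_cancel₀ hvx1 (mul_right_cancel₀ h120 this)
  · intro hg₃
    have hid : g₃ - e = (b / (x₁ * x₂) * (g₁ + e) + (g₂ - e)) / (1 - b / (x₁ * x₂))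
        - x₂ * (1 - b / (x₁ * x₂)) / (g₁ + g₂) := by
      rw [hg₃]; field_simp; ring
    rw [hid]
    refine Valuation.map_sub_lt _ ?_ ?_
    · rw [map_div₀, hk, div_one]
      refine Valuation.map_add_lt _ ?_ hc
      -- v (b/(x₁x₂)) * v (g₁+e) < 1
      have hge : v (g₁ + e) ≤ v x₁ := by
        apply le_of_sq_le_of_one_le _ h1
        have hg1 := v_g_sq_le va vb hg₁ h1
        rcases le_total (v g₁) (v e) with h | h
        · have : v (g₁ + e) ≤ v e := Valuation.map_add_le _ h le_rfl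
          calc v (g₁ + e) ^ 2 ≤ v e ^ 2 := pow_le_pow_left₀ zero_le this 2
            _ = 1 := by rw [ve, one_pow]
            _ ≤ v x₁ := h1
        · have : v (g₁ + e) ≤ v g₁ := Valuation.map_add_le _ le_rfl h
          calc v (g₁ + e) ^ 2 ≤ v g₁ ^ 2 := pow_le_pow_left₀ zero_le this 2
            _ ≤ v x₁ := hg1
      rw [map_mul, map_div₀, map_mul]
      rcases eq_or_ne (v (g₁ + e)) 0 with h0 | h0
      · rw [h0, mul_zero]; exact zero_lt_one
      · have h120 : v x₁ * v x₂ ≠ 0 := mul_ne_zero hvx1 hvx2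
        rw [div_mul_eq_mul_div, div_lt_one₀ (zero_lt_iff.2 h120)]
        calc v b * v (g₁ + e) < v x₂ * v (g₁ + e) :=
              mul_lt_mul_of_pos_right h2l (zero_lt_iff.2 h0)
          _ ≤ v x₂ * v x₁ := mul_le_mul_right hge _
          _ = v x₁ * v x₂ := mul_comm _ _
    · rw [map_div₀, map_mul, hk, mul_one]
      have hGne : v (g₁ + g₂) ≠ 0 := (Valuation.ne_zero_iff v).2 hG0
      rw [div_lt_one₀ (zero_lt_iff.2 hGne)]
      exact lt_of_lt_of_le h2u hGge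

end Fermat.Agent.S05.ValAB
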