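import Mathlib
import Fermat.Agent.S05.NodeEnv

/-! # S05 chunk F (part D): valuation estimates for the master formula, opposite-sign case,
and the class dichotomy.  Statements verbatim from the plan-v1 skeleton `ValLemmas.lean`
(`val_D`, `val_D_G`, `class_dichotomy`); private helpers are prefixed `valD_`. -/

set_option autoImplicit false
set_option linter.unusedVariables false

namespace Fermat.Agent.S05

variable {K : Type*} [Field K] {Γ₀ : Type*} [LinearOrderedCommGroupWithZero Γ₀]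
variable {v : Valuation K Γ₀} {a b e x₁ x₂ g₁ g₂ x₃ g₃ : K}

theorem valD_ve (hE : NodeEnv v a b) (he : e ^ 2 = a) : v e = 1 := by
  have h : v e ^ 2 = 1 := by rw [← map_pow, he, hE.va]
  exact (pow_eq_one_iff.mp h).resolve_right (by norm_num)

theorem valD_v2e (hE : NodeEnv v a b) (he : e ^ 2 = a) : v (2 * e) = 1 := by
  rw [map_mul, hE.v2, valD_ve hE he, one_mul]

/-- `v (x + b/x) < 1` for `v b < v x < 1`. -/
theorem valD_lt_one {x : K} (hx : x ≠ 0) (hl : v b < v x) (hu : v x < 1) :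
    v (x + b / x) < 1 := by
  have hvx : v x ≠ 0 := (v.ne_zero_iff).mpr hx
  apply v.map_add_lt hu
  rw [map_div₀]
  exact (div_lt_one₀ (zero_lt_iff.mpr hvx)).mpr hl

/-- class dichotomy: for `v b < v x < 1` exactly one of `g ≡ e`, `g ≡ -e`. -/
theorem class_dichotomy (hE : NodeEnv v a b) (he : e ^ 2 = a) {x g : K} (hx : x ≠ 0)
    (hg : g ^ 2 = x + a + b / x) (hl : v b < v x) (hu : v x < 1) :
    (v (g - e) < 1 ∧ ¬ v (g + e) < 1) ∨ (v (g + e) < 1 ∧ ¬ v (g - e) < 1) := by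
  have hprod : (g - e) * (g + e) = x + b / x := by
    have : (g - e) * (g + e) = g ^ 2 - e ^ 2 := by ring
    rw [this, hg, he]; ring
  have hlt : v ((g - e) * (g + e)) < 1 := by rw [hprod]; exact valD_lt_one hx hl hu
  have h2e := valD_v2e hE he
  have hnot : ¬ (v (g - e) < 1 ∧ v (g + e) < 1) := by
    rintro ⟨h1, h2⟩
    have : v ((g + e) - (g - e)) < 1 := v.map_sub_lt h2 h1
    have h3 : (g + e) - (g - e) = 2 * e := by ring
    rw [h3, h2e] at this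
    exact lt_irrefl _ this
  rw [map_mul] at hlt
  by_cases h1 : v (g - e) < 1
  · left
    exact ⟨h1, fun h2 => hnot ⟨h1, h2⟩⟩
  · right
    have h1' : 1 ≤ v (g - e) := not_lt.mp h1
    have h2 : v (g + e) < 1 := by
      by_contra h2
      have h2' : 1 ≤ v (g + e) := not_lt.mp h2
      have : (1 : Γ₀) ≤ v (g - e) * v (g + e) := by
        calc (1 : Γ₀) = 1 * 1 := (one_mul 1).symm
          _ ≤ v (g - e) * v (g + e) := mul_le_mul' h1' h2'
      exact absurd hlt (not_lt.mpr this)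
    exact ⟨h2, h1⟩

/-- (D) opposite signs: `G = 0` forces `x₁ = x₂`. -/
theorem val_D_G (hE : NodeEnv v a b) (hx₁ : x₁ ≠ 0) (hx₂ : x₂ ≠ 0)
    (hg₁ : g₁ ^ 2 = x₁ + a + b / x₁) (hg₂ : g₂ ^ 2 = x₂ + a + b / x₂)
    (h12 : v b < v x₁ * v x₂) (hG : g₁ + g₂ = 0) : x₁ = x₂ := by
  have hne : x₁ * x₂ - b ≠ 0 := by
    intro h
    have : x₁ * x₂ = b := sub_eq_zero.mp h
    rw [← this, map_mul] at h12
    exact lt_irrefl _ h12
  have hg : g₁ = -g₂ := eq_neg_of_add_eq_zero_left hG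
  have hsq : g₁ ^ 2 = g₂ ^ 2 := by rw [hg]; ring
  rw [hg₁, hg₂] at hsq
  have key : (x₁ - x₂) * (x₁ * x₂ - b) = 0 := by
    field_simp at hsq
    linear_combination hsq
  rcases mul_eq_zero.mp key with h | h
  · exact sub_eq_zero.mp h
  · exact absurd h hne

/-- `v (g - e) = v (x + b/x)` if `v (g - e) < 1`. -/
theorem valD_minus (hE : NodeEnv v a b) (he : e ^ 2 = a) {x g : K}
    (hg : g ^ 2 = x + a + b / x) (hc : v (g - e) < 1) : v (g - e) = v (x + b / x) := by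
  have hprod : (g - e) * (g + e) = x + b / x := by
    have : (g - e) * (g + e) = g ^ 2 - e ^ 2 := by ring
    rw [this, hg, he]; ring
  have h1 : v (g + e) = 1 := by
    have h3 : g + e = 2 * e + (g - e) := by ring
    rw [h3, v.map_add_eq_of_lt_left (by rw [valD_v2e hE he]; exact hc), valD_v2e hE he]
  rw [← hprod, map_mul, h1, mul_one]

/-- `v (g + e) = v (x + b/x)` if `v (g + e) < 1`. -/
theorem valD_plus (hE : NodeEnv v a b) (he : e ^ 2 = a) {x g : K}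
    (hg : g ^ 2 = x + a + b / x) (hc : v (g + e) < 1) : v (g + e) = v (x + b / x) := by
  have he' : (-e) ^ 2 = a := by rw [← he]; ring
  have := valD_minus (e := -e) hE he' hg (by rwa [sub_neg_eq_add])
  rwa [sub_neg_eq_add] at this

/-- (D) opposite signs (`g₁ ≡ e`, `g₂ ≡ -e`), `v b < v x₁ * v x₂`, `G ≠ 0`. -/
theorem val_D (hE : NodeEnv v a b) (he : e ^ 2 = a) (hx₁ : x₁ ≠ 0) (hx₂ : x₂ ≠ 0)
    (hg₁ : g₁ ^ 2 = x₁ + a + b / x₁) (hg₂ : g₂ ^ 2 = x₂ + a + b / x₂)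
    (h1l : v b < v x₁) (h1u : v x₁ < 1) (h2l : v b < v x₂) (h2u : v x₂ < 1)
    (hc₁ : v (g₁ - e) < 1) (hc₂ : v (g₂ + e) < 1) (h12 : v b < v x₁ * v x₂)
    (hG : g₁ + g₂ ≠ 0) (hx₃ : x₃ * (x₁ * x₂) * (g₁ + g₂) ^ 2 = (x₁ * x₂ - b) ^ 2) :
    x₁ * x₂ ≠ b ∧
    (v x₁ = v x₂ → 1 ≤ v x₃) ∧
    (v x₂ < v x₁ → v x₃ = v x₂ / v x₁ ∧
      (g₃ = (g₁ + g₂) / (1 - b / (x₁ * x₂)) - g₁ - x₂ * (1 - b / (x₁ * x₂)) / (g₁ + g₂) →
        v (g₃ + e) < 1)) := by
  have hv1 : v x₁ ≠ 0 := (v.ne_zero_iff).mpr hx₁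
  have hv2 : v x₂ ≠ 0 := (v.ne_zero_iff).mpr hx₂
  have hv1p : 0 < v x₁ := zero_lt_iff.mpr hv1
  have hv2p : 0 < v x₂ := zero_lt_iff.mpr hv2
  have hvG : v (g₁ + g₂) ≠ 0 := (v.ne_zero_iff).mpr hG
  have hne : x₁ * x₂ ≠ b := by
    intro h
    rw [← h, map_mul] at h12
    exact lt_irrefl _ h12
  -- `v (x₁ x₂ - b) = v x₁ * v x₂`
  have hnum : v (x₁ * x₂ - b) = v x₁ * v x₂ := by
    rw [v.map_sub_eq_of_lt_left (by rw [map_mul]; exact h12), map_mul]
  -- valuation form of hx₃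
  have hval : v x₃ * (v x₁ * v x₂) * v (g₁ + g₂) ^ 2 = (v x₁ * v x₂) ^ 2 := by
    have := congrArg v hx₃
    simpa only [map_mul, map_pow, hnum] using this
  have hG' : g₁ + g₂ = (g₁ - e) + (g₂ + e) := by ring
  have e1 := valD_minus hE he hg₁ hc₁
  have e2 := valD_plus hE he hg₂ hc₂
  refine ⟨hne, ?_, ?_⟩
  · intro heq
    -- v b < v x₁ ^ 2 and v b < v x₂ ^ 2
    have hb1 : v (b / x₁) < v x₁ := by
      rw [map_div₀, div_lt_iff₀ hv1p]
      calc v b < v x₁ * v x₂ := h12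
        _ = v x₁ * v x₁ := by rw [heq]
    have hb2 : v (b / x₂) < v x₂ := by
      rw [map_div₀, div_lt_iff₀ hv2p]
      calc v b < v x₁ * v x₂ := h12
        _ = v x₂ * v x₂ := by rw [heq]
    have f1 : v (g₁ - e) = v x₁ := by rw [e1, v.map_add_eq_of_lt_left hb1]
    have f2 : v (g₂ + e) = v x₂ := by rw [e2, v.map_add_eq_of_lt_left hb2]
    have hGle : v (g₁ + g₂) ≤ v x₁ := by
      rw [hG']
      exact v.map_add_le (le_of_eq f1) (by rw [f2, heq])
    -- v x₃ * v x₁^2 * vG^2 = v x₁^4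
    by_contra hlt
    have hlt' : v x₃ < 1 := not_le.mp hlt
    have : v x₃ * (v x₁ * v x₂) * v (g₁ + g₂) ^ 2 < (v x₁ * v x₂) ^ 2 := by
      have hGsq : v (g₁ + g₂) ^ 2 ≤ v x₁ * v x₂ := by
        rw [← heq, ← sq]
        exact pow_le_pow_left₀ zero_le hGle 2
      calc v x₃ * (v x₁ * v x₂) * v (g₁ + g₂) ^ 2
          ≤ v x₃ * (v x₁ * v x₂) * (v x₁ * v x₂) := by gcongr
        _ < 1 * (v x₁ * v x₂) * (v x₁ * v x₂) := by
            have hp : 0 < v x₁ * v x₂ := mul_pos hv1p hv2p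
            exact mul_lt_mul_of_pos_right (mul_lt_mul_of_pos_right hlt' hp) hp
        _ = (v x₁ * v x₂) ^ 2 := by rw [one_mul, sq]
    rw [hval] at this
    exact lt_irrefl _ this
  · intro hlt
    have hb1 : v (b / x₁) < v x₁ := by
      rw [map_div₀, div_lt_iff₀ hv1p]
      calc v b < v x₁ * v x₂ := h12
        _ < v x₁ * v x₁ := mul_lt_mul_of_pos_left hlt hv1p
    have f1 : v (g₁ - e) = v x₁ := by rw [e1, v.map_add_eq_of_lt_left hb1]
    have hb2 : v (b / x₂) < v x₁ := by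
      rw [map_div₀, div_lt_iff₀ hv2p]
      exact h12
    have f2 : v (g₂ + e) < v x₁ := by
      rw [e2]
      exact v.map_add_lt hlt hb2
    have hGv : v (g₁ + g₂) = v x₁ := by
      rw [hG', v.map_add_eq_of_lt_left (by rw [f1]; exact f2), f1]
    have hx3 : v x₃ = v x₂ / v x₁ := by
      rw [hGv] at hval
      rw [eq_div_iff hv1]
      have h3 : v x₃ * v x₁ * (v x₁ ^ 2 * v x₂) = v x₂ * (v x₁ ^ 2 * v x₂) := by
        calc v x₃ * v x₁ * (v x₁ ^ 2 * v x₂) = v x₃ * (v x₁ * v x₂) * v x₁ ^ 2 := by ac_rfl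
          _ = (v x₁ * v x₂) ^ 2 := hval
          _ = v x₂ * (v x₁ ^ 2 * v x₂) := by rw [mul_pow, sq (v x₂)]; ac_rfl
      have hne0 : v x₁ ^ 2 * v x₂ ≠ 0 := mul_ne_zero (pow_ne_zero 2 hv1) hv2
      exact mul_right_cancel₀ hne0 h3
    refine ⟨hx3, ?_⟩
    intro hg₃
    have hκlt : v (b / (x₁ * x₂)) < 1 := by
      rw [map_div₀, map_mul]
      exact (div_lt_one₀ (mul_pos hv1p hv2p)).mpr h12
    have hκ : v (1 - b / (x₁ * x₂)) = 1 := by
      rw [v.map_sub_eq_of_lt_left (by rw [map_one]; exact hκlt), map_one]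
    have hrew : g₃ + e = (g₁ + g₂) / (1 - b / (x₁ * x₂)) - (g₁ - e)
        - x₂ * (1 - b / (x₁ * x₂)) / (g₁ + g₂) := by
      rw [hg₃]; ring
    rw [hrew]
    apply v.map_sub_lt (v.map_sub_lt _ hc₁)
    · rw [map_div₀, map_mul, hκ, mul_one, hGv]
      exact (div_lt_one₀ hv1p).mpr hlt
    · rw [map_div₀, hκ, div_one, hGv]
      exact h1u

end Fermat.Agent.S05
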