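import Mathlib
import Fermat.Agent.S05.ValD

/-! # S05 chunk F (part C): valuation estimates for the master formula, same-sign case.
Statement verbatim from the plan-v1 skeleton `ValLemmas.lean` (`val_C`). -/

set_option autoImplicit false
set_option linter.unusedVariables false

namespace Fermat.Agent.S05

variable {K : Type*} [Field K] {Γ₀ : Type*} [LinearOrderedCommGroupWithZero Γ₀]
variable {v : Valuation K Γ₀} {a b e x₁ x₂ g₁ g₂ x₃ g₃ : K}

/-- (C) same sign, labels do not wrap: the sum has `v x₃ = v x₁ * v x₂` and the same sign. -/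
theorem val_C (hE : NodeEnv v a b) (he : e ^ 2 = a) (hx₁ : x₁ ≠ 0) (hx₂ : x₂ ≠ 0)
    (hg₁ : g₁ ^ 2 = x₁ + a + b / x₁) (hg₂ : g₂ ^ 2 = x₂ + a + b / x₂)
    (h1l : v b < v x₁) (h1u : v x₁ < 1) (h2l : v b < v x₂) (h2u : v x₂ < 1)
    (hc₁ : v (g₁ - e) < 1) (hc₂ : v (g₂ - e) < 1) :
    g₁ + g₂ ≠ 0 ∧
    (v b < v x₁ * v x₂ → x₁ * x₂ ≠ b ∧
      (x₃ * (x₁ * x₂) * (g₁ + g₂) ^ 2 = (x₁ * x₂ - b) ^ 2 → v x₃ = v x₁ * v x₂) ∧
      (g₃ = (g₁ + g₂) / (1 - b / (x₁ * x₂)) - g₁ - x₂ * (1 - b / (x₁ * x₂)) / (g₁ + g₂) →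
        v (g₃ - e) < 1)) ∧
    (v x₁ * v x₂ = v b →
      x₃ * (x₁ * x₂) * (g₁ + g₂) ^ 2 = (x₁ * x₂ - b) ^ 2 → v x₃ ≤ v b) := by
  have hv1 : v x₁ ≠ 0 := (v.ne_zero_iff).mpr hx₁
  have hv2 : v x₂ ≠ 0 := (v.ne_zero_iff).mpr hx₂
  have hv1p : 0 < v x₁ := zero_lt_iff.mpr hv1
  have hv2p : 0 < v x₂ := zero_lt_iff.mpr hv2
  have hvb : v b ≠ 0 := (v.ne_zero_iff).mpr hE.b_ne
  have h2e := valD_v2e hE he
  -- v G = 1
  have hGv : v (g₁ + g₂) = 1 := by
    have h3 : g₁ + g₂ = 2 * e + ((g₁ - e) + (g₂ - e)) := by ring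
    rw [h3, v.map_add_eq_of_lt_left (by rw [h2e]; exact v.map_add_lt hc₁ hc₂), h2e]
  have hG : g₁ + g₂ ≠ 0 := by
    intro h
    rw [h, map_zero] at hGv
    exact zero_ne_one hGv
  have hg1e : v (g₁ + e) = 1 := by
    have h3 : g₁ + e = 2 * e + (g₁ - e) := by ring
    rw [h3, v.map_add_eq_of_lt_left (by rw [h2e]; exact hc₁), h2e]
  refine ⟨hG, ?_, ?_⟩
  · intro h12
    have hne : x₁ * x₂ ≠ b := by
      intro h
      rw [← h, map_mul] at h12
      exact lt_irrefl _ h12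
    have hnum : v (x₁ * x₂ - b) = v x₁ * v x₂ := by
      rw [v.map_sub_eq_of_lt_left (by rw [map_mul]; exact h12), map_mul]
    refine ⟨hne, ?_, ?_⟩
    · intro hx₃
      have hval : v x₃ * (v x₁ * v x₂) = (v x₁ * v x₂) * (v x₁ * v x₂) := by
        have := congrArg v hx₃
        simpa only [map_mul, map_pow, hnum, hGv, one_pow, mul_one, sq] using this
      exact mul_right_cancel₀ (mul_ne_zero hv1 hv2) hval
    · intro hg₃
      have hκlt : v (b / (x₁ * x₂)) < 1 := by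
        rw [map_div₀, map_mul]
        exact (div_lt_one₀ (mul_pos hv1p hv2p)).mpr h12
      have hκ : v (1 - b / (x₁ * x₂)) = 1 := by
        rw [v.map_sub_eq_of_lt_left (by rw [map_one]; exact hκlt), map_one]
      have hκne : 1 - b / (x₁ * x₂) ≠ 0 := by
        intro h
        rw [h, map_zero] at hκ
        exact zero_ne_one hκ
      have hrew : g₃ - e = ((g₂ - e) + (b / (x₁ * x₂)) * (g₁ + e)) / (1 - b / (x₁ * x₂))
          - x₂ * (1 - b / (x₁ * x₂)) / (g₁ + g₂) := by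
        rw [hg₃]
        field_simp
        ring
      rw [hrew]
      apply v.map_sub_lt
      · rw [map_div₀, hκ, div_one]
        apply v.map_add_lt hc₂
        rw [map_mul, hg1e, mul_one]
        exact hκlt
      · rw [map_div₀, map_mul, hκ, mul_one, hGv, div_one]
        exact h2u
  · intro h12 hx₃
    have hnum : v (x₁ * x₂ - b) ≤ v b := by
      apply v.map_sub_le
      · rw [map_mul, h12]
      · exact le_refl _
    have hval : v x₃ * v b = v (x₁ * x₂ - b) * v (x₁ * x₂ - b) := by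
      have := congrArg v hx₃
      simpa only [map_mul, map_pow, hGv, one_pow, mul_one, sq, h12] using this
    have hle : v x₃ * v b ≤ v b * v b := by
      rw [hval]
      exact mul_le_mul' hnum hnum
    exact le_of_mul_le_mul_right hle (zero_lt_iff.mpr hvb)

end Fermat.Agent.S05
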