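import Mathlib
import Fermat.Agent.S05.NodeEnv
import Fermat.Agent.S05.ValAB
import Fermat.Agent.S05.ValC
import Fermat.Agent.S05.ValD

/-! # S05 chunk F: valuation estimates for the master formula (plan-v1 skeleton statements).

`val_C` is in `ValC.lean`, `val_D`, `val_D_G`, `class_dichotomy` in `ValD.lean`; here `val_A_G`,
`val_A`, `val_B` are restated with `NodeEnv` from the explicit-hypothesis versions of `ValAB.lean`. -/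

set_option autoImplicit false
set_option linter.unusedVariables false

namespace Fermat.Agent.S05

variable {K : Type*} [Field K] {Γ₀ : Type*} [LinearOrderedCommGroupWithZero Γ₀]

variable {v : Valuation K Γ₀} {a b e x₁ x₂ g₁ g₂ x₃ g₃ : K}

/-- (A) both points away from the node: `G ≠ 0` unless `x₁ = x₂`. -/
theorem val_A_G (hE : NodeEnv v a b) (hx₁ : x₁ ≠ 0) (hx₂ : x₂ ≠ 0)
    (hg₁ : g₁ ^ 2 = x₁ + a + b / x₁) (hg₂ : g₂ ^ 2 = x₂ + a + b / x₂)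
    (h1 : 1 ≤ v x₁) (h2 : 1 ≤ v x₂) (hG : g₁ + g₂ = 0) : x₁ = x₂ :=
  ValAB.val_A_G hE.vb hx₁ hx₂ hg₁ hg₂ h1 h2 hG

/-- (A) both points away from the node: so is the sum. -/
theorem val_A (hE : NodeEnv v a b) (hx₁ : x₁ ≠ 0) (hx₂ : x₂ ≠ 0)
    (hg₁ : g₁ ^ 2 = x₁ + a + b / x₁) (hg₂ : g₂ ^ 2 = x₂ + a + b / x₂)
    (h1 : 1 ≤ v x₁) (h2 : 1 ≤ v x₂) (hG : g₁ + g₂ ≠ 0)
    (hx₃ : x₃ * (x₁ * x₂) * (g₁ + g₂) ^ 2 = (x₁ * x₂ - b) ^ 2) : 1 ≤ v x₃ :=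
  ValAB.val_A hE.va hE.vb hx₁ hx₂ hg₁ hg₂ h1 h2 hG hx₃

/-- (B) `P₁` away from the node, `P₂` in the class `(v x₂, e)`: the sum is in the same class. -/
theorem val_B (hE : NodeEnv v a b) (he : e ^ 2 = a) (hx₁ : x₁ ≠ 0) (hx₂ : x₂ ≠ 0)
    (hg₁ : g₁ ^ 2 = x₁ + a + b / x₁) (hg₂ : g₂ ^ 2 = x₂ + a + b / x₂)
    (h1 : 1 ≤ v x₁) (h2l : v b < v x₂) (h2u : v x₂ < 1) (hc : v (g₂ - e) < 1) :
    g₁ + g₂ ≠ 0 ∧ x₁ * x₂ ≠ b ∧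
    (x₃ * (x₁ * x₂) * (g₁ + g₂) ^ 2 = (x₁ * x₂ - b) ^ 2 → v x₃ = v x₂) ∧
    (g₃ = (g₁ + g₂) / (1 - b / (x₁ * x₂)) - g₁ - x₂ * (1 - b / (x₁ * x₂)) / (g₁ + g₂) →
      v (g₃ - e) < 1) :=
  ValAB.val_B hE.va hE.vb he hx₁ hx₂ hg₁ h1 h2l h2u hc

end Fermat.Agent.S05
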