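import Mathlib
import Fermat.Agent.S05.Defs
import Fermat.Agent.S05.ClassesDefs
import Fermat.Agent.S05.Master
import Fermat.Agent.S05.ValLemmas
/-! # S05 class calculus, part ClsAB (see ClassesDefs.lean for the classes).
Statements are fixed (skeleton by helper4); proved by `add_master` (Master.lean) plus the valuation
lemmas `val_A_G/val_A/val_B` (ValLemmas.lean).  Note `NodeEnv v W.a₂ W.a₄` follows from
`NodeModel v W s` (fields va, vb, b_ne, v2). -/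

set_option autoImplicit false

namespace Fermat.Agent.S05

open WeierstrassCurve WeierstrassCurve.Affine

variable {K : Type*} [Field K] [DecidableEq K] {Γ₀ : Type*} [LinearOrderedCommGroupWithZero Γ₀]
variable {v : Valuation K Γ₀} {W : Affine K} {s : K}

omit [DecidableEq K] in
theorem clsAB_nodeEnv (hN : NodeModel v W s) : NodeEnv v W.a₂ W.a₄ :=
  ⟨hN.va, hN.vb, hN.b_ne, hN.v2⟩

omit [DecidableEq K] in
theorem clsAB_ne_zero_of_one_le {x : K} (h : 1 ≤ v x) : x ≠ 0 := by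
  intro h0; rw [h0, map_zero] at h; exact absurd h (not_le.2 zero_lt_one)

/-- (A) -/
theorem nearE0_add (hN : NodeModel v W s) {P Q : W.Point} (hP : NearE0 v P) (hQ : NearE0 v Q) :
    NearE0 v (P + Q) := by
  have hE := clsAB_nodeEnv hN
  rcases P with _ | ⟨x₁, y₁, h₁⟩
  · have : (Point.zero : W.Point) + Q = Q := zero_add Q
    rw [this]; exact hQ
  rcases Q with _ | ⟨x₂, y₂, h₂⟩
  · have : Point.some x₁ y₁ h₁ + (Point.zero : W.Point) = Point.some x₁ y₁ h₁ := add_zero _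
    rw [this]; exact hP
  have h1 : 1 ≤ v x₁ := hP
  have h2 : 1 ≤ v x₂ := hQ
  have hx₁ : x₁ ≠ 0 := clsAB_ne_zero_of_one_le h1
  have hx₂ : x₂ ≠ 0 := clsAB_ne_zero_of_one_le h2
  have hg₁ := g_sq hN.a₁ hN.a₃ hN.a₆ h₁.1 hx₁
  have hg₂ := g_sq hN.a₁ hN.a₃ hN.a₆ h₂.1 hx₂
  by_cases hG : y₁ / x₁ + y₂ / x₂ = 0
  · have hx : x₁ = x₂ := val_A_G hE hx₁ hx₂ hg₁ hg₂ h1 h2 hG
    subst hx
    have hy : y₁ + y₂ = 0 := by
      have : (y₁ + y₂) / x₁ = 0 := by rw [add_div]; exact hG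
      rcases div_eq_zero_iff.1 this with h | h
      · exact h
      · exact absurd h hx₁
    rw [add_eq_zero_of_neg hN.a₁ hN.a₃ h₁ h₂ hy]
    trivial
  · obtain ⟨x₃, y₃, h₃, hsum, hx₃, -⟩ := add_master hN.a₁ hN.a₃ hN.a₆ h₁ h₂ hx₁ hx₂ hG
    rw [hsum]
    exact val_A hE hx₁ hx₂ hg₁ hg₂ h1 h2 hG hx₃

/-- (B) -/
theorem isCls_add_nearE0 (hN : NodeModel v W s) {P Q : W.Point} {e : K} {t : Γ₀}
    (he : e ^ 2 = W.a₂) (ht : v W.a₄ < t) (ht1 : t < 1) (hP : NearE0 v P) (hQ : IsCls v e t Q) :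
    IsCls v e t (P + Q) := by
  have hE := clsAB_nodeEnv hN
  rcases P with _ | ⟨x₁, y₁, h₁⟩
  · have : (Point.zero : W.Point) + Q = Q := zero_add Q
    rw [this]; exact hQ
  obtain ⟨x₂, y₂, h₂, rfl, hvx₂, hc⟩ := hQ
  have h1 : 1 ≤ v x₁ := hP
  have hx₁ : x₁ ≠ 0 := clsAB_ne_zero_of_one_le h1
  have hx₂ : x₂ ≠ 0 := by
    intro h0
    rw [h0, map_zero] at hvx₂
    rw [← hvx₂] at ht
    exact absurd ht (not_lt.2 zero_le)
  have hg₁ := g_sq hN.a₁ hN.a₃ hN.a₆ h₁.1 hx₁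
  have hg₂ := g_sq hN.a₁ hN.a₃ hN.a₆ h₂.1 hx₂
  have h2l : v W.a₄ < v x₂ := by rw [hvx₂]; exact ht
  have h2u : v x₂ < 1 := by rw [hvx₂]; exact ht1
  have hB := fun x₃ g₃ => val_B (x₃ := x₃) (g₃ := g₃) hE he hx₁ hx₂ hg₁ hg₂ h1 h2l h2u hc
  have hG : y₁ / x₁ + y₂ / x₂ ≠ 0 := (hB 0 0).1
  have hxb : x₁ * x₂ ≠ W.a₄ := (hB 0 0).2.1
  obtain ⟨x₃, y₃, h₃, hsum, hx₃, hg₃⟩ := add_master hN.a₁ hN.a₃ hN.a₆ h₁ h₂ hx₁ hx₂ hG
  refine ⟨x₃, y₃, h₃, hsum, ?_, ?_⟩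
  · rw [← hvx₂]; exact (hB x₃ (y₃ / x₃)).2.2.1 hx₃
  · exact (hB x₃ (y₃ / x₃)).2.2.2 (hg₃ hxb)

end Fermat.Agent.S05
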