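import Mathlib
import Fermat.Agent.S05.Defs
import Fermat.Agent.S05.ClassesDefs
import Fermat.Agent.S05.Master
import Fermat.Agent.S05.ValD
/-! # S05 class calculus, part ClsD (see ClassesDefs.lean for the classes).
Statements are fixed (skeleton by helper4); proved by `add_master`/`add_eq_zero_of_neg`
(Master.lean) plus the valuation lemmas `val_D/val_D_G` (ValD.lean).  Note `NodeEnv v W.a₂ W.a₄`
follows from `NodeModel v W s` (fields va, vb, b_ne, v2). -/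

set_option autoImplicit false
set_option linter.unusedVariables false

namespace Fermat.Agent.S05

open WeierstrassCurve WeierstrassCurve.Affine

variable {K : Type*} [Field K] [DecidableEq K] {Γ₀ : Type*} [LinearOrderedCommGroupWithZero Γ₀]
variable {v : Valuation K Γ₀} {W : Affine K} {s : K}

theorem clsD_nodeEnv (hN : NodeModel v W s) : NodeEnv v W.a₂ W.a₄ :=
  ⟨hN.va, hN.vb, hN.b_ne, hN.v2⟩

theorem clsD_ne_zero {x : K} (h : v W.a₄ < v x) : x ≠ 0 := by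
  intro h0
  rw [h0, map_zero] at h
  exact not_lt_zero h

/-- (D), `t₂ < t₁` -/
theorem isCls_add_opp (hN : NodeModel v W s) {P Q : W.Point} {e : K} {t₁ t₂ : Γ₀}
    (he : e ^ 2 = W.a₂) (h1 : v W.a₄ < t₁) (h1' : t₁ < 1) (h2 : v W.a₄ < t₂) (h2' : t₂ < 1)
    (h12 : v W.a₄ < t₁ * t₂) (hlt : t₂ < t₁) (hP : IsCls v e t₁ P) (hQ : IsCls v (-e) t₂ Q) :
    IsCls v (-e) (t₂ / t₁) (P + Q) := by
  obtain ⟨x₁, y₁, hP₁, rfl, hvx₁, hc₁⟩ := hP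
  obtain ⟨x₂, y₂, hP₂, rfl, hvx₂, hc₂⟩ := hQ
  subst hvx₁ hvx₂
  have hE := clsD_nodeEnv hN
  have hx₁ : x₁ ≠ 0 := clsD_ne_zero h1
  have hx₂ : x₂ ≠ 0 := clsD_ne_zero h2
  have hg₁ := g_sq hN.a₁ hN.a₃ hN.a₆ hP₁.1 hx₁
  have hg₂ := g_sq hN.a₁ hN.a₃ hN.a₆ hP₂.1 hx₂
  rw [sub_neg_eq_add] at hc₂
  have hG : y₁ / x₁ + y₂ / x₂ ≠ 0 := by
    intro hG
    have := val_D_G hE hx₁ hx₂ hg₁ hg₂ h12 hG
    rw [this] at hlt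
    exact lt_irrefl _ hlt
  obtain ⟨x₃, y₃, hP₃, hadd, hx₃, hg₃⟩ := add_master hN.a₁ hN.a₃ hN.a₆ hP₁ hP₂ hx₁ hx₂ hG
  obtain ⟨hne, -, hD⟩ := val_D (g₃ := y₃ / x₃) hE he hx₁ hx₂ hg₁ hg₂ h1 h1' h2 h2' hc₁ hc₂ h12 hG hx₃
  obtain ⟨hv₃, hc₃⟩ := hD hlt
  refine ⟨x₃, y₃, hP₃, hadd, hv₃, ?_⟩
  rw [sub_neg_eq_add]
  exact hc₃ (hg₃ hne)

/-- (D), `t₁ = t₂` -/
theorem nearE0_add_opp (hN : NodeModel v W s) {P Q : W.Point} {e : K} {t : Γ₀}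
    (he : e ^ 2 = W.a₂) (h1 : v W.a₄ < t) (h1' : t < 1) (h12 : v W.a₄ < t * t)
    (hP : IsCls v e t P) (hQ : IsCls v (-e) t Q) : NearE0 v (P + Q) := by
  obtain ⟨x₁, y₁, hP₁, rfl, hvx₁, hc₁⟩ := hP
  obtain ⟨x₂, y₂, hP₂, rfl, hvx₂, hc₂⟩ := hQ
  have hE := clsD_nodeEnv hN
  have h1a : v W.a₄ < v x₁ := by rw [hvx₁]; exact h1
  have h2a : v W.a₄ < v x₂ := by rw [hvx₂]; exact h1
  have h1b : v x₁ < 1 := by rw [hvx₁]; exact h1'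
  have h2b : v x₂ < 1 := by rw [hvx₂]; exact h1'
  have h12' : v W.a₄ < v x₁ * v x₂ := by rw [hvx₁, hvx₂]; exact h12
  have hx₁ : x₁ ≠ 0 := clsD_ne_zero h1a
  have hx₂ : x₂ ≠ 0 := clsD_ne_zero h2a
  have hg₁ := g_sq hN.a₁ hN.a₃ hN.a₆ hP₁.1 hx₁
  have hg₂ := g_sq hN.a₁ hN.a₃ hN.a₆ hP₂.1 hx₂
  rw [sub_neg_eq_add] at hc₂
  by_cases hG : y₁ / x₁ + y₂ / x₂ = 0
  · have hxx := val_D_G hE hx₁ hx₂ hg₁ hg₂ h12' hG
    subst hxx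
    have hy : y₁ + y₂ = 0 := by
      have : y₁ / x₁ + y₂ / x₁ = (y₁ + y₂) / x₁ := by ring
      rw [this, div_eq_zero_iff] at hG
      exact hG.resolve_right hx₁
    rw [add_eq_zero_of_neg hN.a₁ hN.a₃ hP₁ hP₂ hy]
    trivial
  · obtain ⟨x₃, y₃, hP₃, hadd, hx₃, hg₃⟩ := add_master hN.a₁ hN.a₃ hN.a₆ hP₁ hP₂ hx₁ hx₂ hG
    obtain ⟨hne, hD, -⟩ := val_D (g₃ := y₃ / x₃) hE he hx₁ hx₂ hg₁ hg₂ h1a h1b h2a h2b hc₁ hc₂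
      h12' hG hx₃
    rw [hadd]
    exact hD (by rw [hvx₁, hvx₂])

end Fermat.Agent.S05
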