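import Mathlib

/-!
# S05 helper: the congruence (slope) lemma for the kernel of reduction

`K` a field, `A` a valuation subring, `W` a Weierstrass curve over `K` with coefficients in `A`.
`InE1 A P` says that `P` is the point at infinity or has `x`-coordinate outside `A`.

Main results:
* `sub_mem_E1_of_congr`: two points with coordinates in `A`, congruent modulo the maximal ideal,
  whose common reduction is a nonsingular point, differ by an element of `E1`.
* `unit_Wx_or_Wy_of_Δ_unit`: if `Δ` is a unit of `A`, every integral point has nonsingular reduction.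
-/

set_option autoImplicit false

namespace Fermat.Agent.S05

open WeierstrassCurve WeierstrassCurve.Affine

variable {K : Type*} [Field K] [DecidableEq K]

/-- `P` is in the kernel of reduction: it is `0` or its `x`-coordinate is not in `A`. -/
def InE1 (A : ValuationSubring K) {W : WeierstrassCurve.Affine K} : W.Point → Prop
  | .zero => True
  | .some x _ _ => x ∉ A

section valuation

variable {Γ₀ : Type*} [LinearOrderedCommGroupWithZero Γ₀] (v : Valuation K Γ₀)

omit [DecidableEq K] in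
/-- If the slope is not integral, the `x`-coordinate of the sum is not integral. -/
theorem one_lt_val_addX {a₁ a₂ x₁ x₂ ℓ : K} (ha₁ : v a₁ ≤ 1) (ha₂ : v a₂ ≤ 1)
    (hx₁ : v x₁ ≤ 1) (hx₂ : v x₂ ≤ 1) (hℓ : 1 < v ℓ) :
    1 < v (ℓ ^ 2 + a₁ * ℓ - a₂ - x₁ - x₂) := by
  have hℓ0 : (0 : Γ₀) < v ℓ := lt_trans zero_lt_one hℓ
  have hℓ2 : v ℓ < v (ℓ ^ 2) := by
    rw [map_pow, pow_two]
    calc v ℓ = v ℓ * 1 := (mul_one _).symm
      _ < v ℓ * v ℓ := by
        exact (mul_lt_mul_iff_right₀ hℓ0).mpr hℓ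
  have h1 : v (a₁ * ℓ) ≤ v ℓ := by
    rw [map_mul]
    calc v a₁ * v ℓ ≤ 1 * v ℓ := by gcongr
      _ = v ℓ := one_mul _
  have hrest : v (a₁ * ℓ - a₂ - x₁ - x₂) ≤ v ℓ := by
    refine le_trans (Valuation.map_sub _ _ _) (max_le ?_ (le_trans hx₂ hℓ.le))
    refine le_trans (Valuation.map_sub _ _ _) (max_le ?_ (le_trans hx₁ hℓ.le))
    exact le_trans (Valuation.map_sub _ _ _) (max_le h1 (le_trans ha₂ hℓ.le))
  have heq : ℓ ^ 2 + a₁ * ℓ - a₂ - x₁ - x₂ = ℓ ^ 2 + (a₁ * ℓ - a₂ - x₁ - x₂) := by ring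
  rw [heq, Valuation.map_add_eq_of_lt_left v (lt_of_le_of_lt hrest hℓ2)]
  exact lt_trans hℓ hℓ2

omit [DecidableEq K] in
/-- The chord identity obtained by subtracting two Weierstrass equations. -/
theorem chord_identity (W : Affine K) {x y x' y' : K} (h : W.Equation x y)
    (h' : W.Equation x' y') :
    (y' - W.negY x y) * ((y' - y) + W.a₁ * (x' - x)) =
      (x' - x) * (x' ^ 2 + x' * x + x ^ 2 + W.a₂ * (x' + x) + W.a₄ - W.a₁ * W.negY x y) := by
  rw [equation_iff] at h h'
  rw [negY]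
  linear_combination h' - h

/-- The key estimate: the slope of the chord through `P'` and `-P` is not integral when
`P' ≡ P` reduce to the same nonsingular point and `P' ≠ P`. -/
theorem one_lt_val_slope_of_congr (W : Affine K)
    (ha₁ : v W.a₁ ≤ 1) (ha₂ : v W.a₂ ≤ 1)
    {x y x' y' : K} (h : W.Equation x y) (h' : W.Equation x' y')
    (hx : v x ≤ 1) (hxx : v (x' - x) < 1) (hyy : v (y' - y) < 1)
    (hns : v (W.a₁ * y - (3 * x ^ 2 + 2 * W.a₂ * x + W.a₄)) = 1 ∨
      v (2 * y + W.a₁ * x + W.a₃) = 1)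
    (hWy : v (2 * y + W.a₁ * x + W.a₃) ≤ 1)
    (hne : ¬ (x' = x ∧ y' = y)) :
    1 < v (W.slope x' x y' (W.negY x y)) := by
  set Wx := W.a₁ * y - (3 * x ^ 2 + 2 * W.a₂ * x + W.a₄) with hWx
  set Wy := 2 * y + W.a₁ * x + W.a₃ with hWydef
  -- the value of `3x²+2a₂x+a₄-a₁ȳ`
  have hnum : 3 * x ^ 2 + 2 * W.a₂ * x + W.a₄ - W.a₁ * W.negY x y = -Wx + W.a₁ * Wy := by
    rw [negY, hWx, hWydef]; ring
  have hnum_val : v Wy < 1 → v (-Wx + W.a₁ * Wy) = 1 := by
    intro hlt
    have hWx1 : v Wx = 1 := by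
      rcases hns with h1 | h1
      · exact h1
      · exact absurd h1 (ne_of_lt hlt)
    have h2 : v (W.a₁ * Wy) < v (-Wx) := by
      rw [Valuation.map_neg, hWx1, map_mul]
      calc v W.a₁ * v Wy ≤ 1 * v Wy := by gcongr
        _ = v Wy := one_mul _
        _ < 1 := hlt
    rw [Valuation.map_add_eq_of_lt_left v h2, Valuation.map_neg, hWx1]
  by_cases hxeq : x' = x
  · -- tangent case
    have hyne : y' ≠ y := fun hy => hne ⟨hxeq, hy⟩
    have hy' : y' = W.negY x y := by
      subst hxeq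
      rcases Y_eq_of_X_eq h' h rfl with h1 | h1
      · exact absurd h1 hyne
      · exact h1
    have hyne' : y' ≠ W.negY x (W.negY x y) := by rwa [negY_negY]
    rw [slope_of_Y_ne hxeq hyne', hxeq, hy', hnum, negY_negY]
    have hden : W.negY x y - y = -Wy := by rw [negY, hWydef]; ring
    have hden' : y' - y = -Wy := by rw [hy', hden]
    have hWylt : v Wy < 1 := by
      rw [← Valuation.map_neg, ← hden']; exact hyy
    have hWy0 : Wy ≠ 0 := by
      intro h0
      apply hyne
      have : y' - y = 0 := by rw [hden', h0, neg_zero]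
      exact sub_eq_zero.mp this
    have hvWy0 : (0 : Γ₀) < v Wy := by
      rw [Valuation.pos_iff]; exact hWy0
    rw [hden, map_div₀, hnum_val hWylt, Valuation.map_neg, one_div]
    exact (one_lt_inv₀ hvWy0).mpr hWylt
  · -- chord case
    rw [slope_of_X_ne hxeq]
    have hx0 : x' - x ≠ 0 := sub_ne_zero.mpr hxeq
    have hvx0 : (0 : Γ₀) < v (x' - x) := by rw [Valuation.pos_iff]; exact hx0
    have hnumeq : y' - W.negY x y = (y' - y) + Wy := by rw [negY, hWydef]; ring
    rcases lt_or_eq_of_le hWy with hlt | heq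
    · -- `W_y` is not a unit: use the other expression of the slope
      have hid := chord_identity W h h'
      set D := (y' - y) + W.a₁ * (x' - x) with hD
      set N := x' ^ 2 + x' * x + x ^ 2 + W.a₂ * (x' + x) + W.a₄ - W.a₁ * W.negY x y with hN
      have hvD : v D < 1 := by
        refine lt_of_le_of_lt (Valuation.map_add _ _ _) (max_lt hyy ?_)
        rw [map_mul]
        calc v W.a₁ * v (x' - x) ≤ 1 * v (x' - x) := by gcongr
          _ = v (x' - x) := one_mul _
          _ < 1 := hxx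
      have hx' : v x' ≤ 1 := by
        have : x' = (x' - x) + x := by ring
        rw [this]
        exact le_trans (Valuation.map_add _ _ _) (max_le hxx.le hx)
      have hNeq : N = (-Wx + W.a₁ * Wy) + (x' - x) * (x' + 2 * x + W.a₂) := by
        rw [← hnum, hN]; ring
      have hvN : v N = 1 := by
        rw [hNeq]
        have h3 : v ((x' - x) * (x' + 2 * x + W.a₂)) < v (-Wx + W.a₁ * Wy) := by
          rw [hnum_val hlt, map_mul]
          have h4 : v (x' + 2 * x + W.a₂) ≤ 1 := by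
            refine le_trans (Valuation.map_add _ _ _) (max_le ?_ ha₂)
            refine le_trans (Valuation.map_add _ _ _) (max_le hx' ?_)
            rw [map_mul]
            have h2 : v (2 : K) ≤ 1 := by
              have : (2 : K) = 1 + 1 := by norm_num
              rw [this]
              exact le_trans (Valuation.map_add _ _ _) (by simp)
            calc v 2 * v x ≤ 1 * 1 := by gcongr
              _ = 1 := one_mul _
          calc v (x' - x) * v (x' + 2 * x + W.a₂) ≤ v (x' - x) * 1 := by gcongr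
            _ = v (x' - x) := mul_one _
            _ < 1 := hxx
        rw [Valuation.map_add_eq_of_lt_left v h3, hnum_val hlt]
      have hD0 : D ≠ 0 := by
        intro h0
        rw [h0, mul_zero] at hid
        have hN0 : N = 0 := by
          rcases mul_eq_zero.mp hid.symm with h5 | h5
          · exact absurd h5 hx0
          · exact h5
        rw [hN0, map_zero] at hvN
        exact zero_ne_one hvN
      have hvD0 : (0 : Γ₀) < v D := by rw [Valuation.pos_iff]; exact hD0
      have hslope : (y' - W.negY x y) / (x' - x) = N / D := by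
        rw [div_eq_div_iff hx0 hD0, hid]; ring
      rw [hslope, map_div₀, hvN, one_div]
      exact (one_lt_inv₀ hvD0).mpr hvD
    · -- `W_y` is a unit
      have hvnum : v (y' - W.negY x y) = 1 := by
        rw [hnumeq, add_comm, Valuation.map_add_eq_of_lt_left v (by rw [heq]; exact hyy), heq]
      rw [map_div₀, hvnum, one_div]
      exact (one_lt_inv₀ hvx0).mpr hxx

end valuation

section subring

variable (A : ValuationSubring K)

/-- **Congruence lemma.** Two points of `W` with integral coordinates which are congruent modulo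
the maximal ideal and reduce to a nonsingular point differ by an element of the kernel of
reduction. -/
theorem sub_mem_E1_of_congr {W : Affine K}
    (ha₁ : W.a₁ ∈ A) (ha₂ : W.a₂ ∈ A) (ha₃ : W.a₃ ∈ A) (ha₄ : W.a₄ ∈ A)
    {x y x' y' : K} (h : W.Nonsingular x y) (h' : W.Nonsingular x' y')
    (hx : x ∈ A) (hy : y ∈ A) (hxx : x' - x ∈ A.nonunits) (hyy : y' - y ∈ A.nonunits)
    (hns : ¬ (W.a₁ * y - (3 * x ^ 2 + 2 * W.a₂ * x + W.a₄) ∈ A.nonunits ∧
      2 * y + W.a₁ * x + W.a₃ ∈ A.nonunits)) :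
    InE1 A (Point.some x' y' h' - Point.some x y h) := by
  rw [sub_eq_add_neg, Point.neg_some]
  by_cases hxy : x' = x ∧ y' = W.negY x (W.negY x y)
  · rw [Point.add_of_Y_eq hxy.1 hxy.2]
    exact trivial
  · rw [Point.add_some hxy]
    show W.addX x' x (W.slope x' x y' (W.negY x y)) ∉ A
    rw [← A.valuation_le_one_iff, not_le]
    have h2A : (2 : K) ∈ A := by exact_mod_cast natCast_mem A 2
    have h3A : (3 : K) ∈ A := by exact_mod_cast natCast_mem A 3
    have hWx : W.a₁ * y - (3 * x ^ 2 + 2 * W.a₂ * x + W.a₄) ∈ A :=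
      sub_mem (mul_mem ha₁ hy)
        (add_mem (add_mem (mul_mem h3A (pow_mem hx 2)) (mul_mem (mul_mem h2A ha₂) hx)) ha₄)
    have hWy : 2 * y + W.a₁ * x + W.a₃ ∈ A :=
      add_mem (add_mem (mul_mem h2A hy) (mul_mem ha₁ hx)) ha₃
    have hns' : A.valuation (W.a₁ * y - (3 * x ^ 2 + 2 * W.a₂ * x + W.a₄)) = 1 ∨
        A.valuation (2 * y + W.a₁ * x + W.a₃) = 1 := by
      by_contra hcon
      push Not at hcon
      apply hns
      rw [A.mem_nonunits_iff, A.mem_nonunits_iff]
      exact ⟨lt_of_le_of_ne ((A.valuation_le_one_iff _).mpr hWx) hcon.1,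
        lt_of_le_of_ne ((A.valuation_le_one_iff _).mpr hWy) hcon.2⟩
    have hx'A : x' ∈ A := by
      have : x' = (x' - x) + x := by ring
      rw [this]
      exact add_mem (A.nonunits_subset hxx) hx
    have hne : ¬ (x' = x ∧ y' = y) := by
      intro hc
      apply hxy
      refine ⟨hc.1, ?_⟩
      rw [negY_negY]; exact hc.2
    have hslope := one_lt_val_slope_of_congr A.valuation W
      ((A.valuation_le_one_iff _).mpr ha₁) ((A.valuation_le_one_iff _).mpr ha₂)
      h.1 h'.1 ((A.valuation_le_one_iff _).mpr hx) (A.mem_nonunits_iff.mp hxx)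
      (A.mem_nonunits_iff.mp hyy) hns' ((A.valuation_le_one_iff _).mpr hWy) hne
    exact one_lt_val_addX A.valuation ((A.valuation_le_one_iff _).mpr ha₁)
      ((A.valuation_le_one_iff _).mpr ha₂) ((A.valuation_le_one_iff _).mpr hx'A)
      ((A.valuation_le_one_iff _).mpr hx) hslope

/-! ### Integral points have nonsingular reduction when `Δ` is a unit -/

/-- auxiliary cofactor polynomial -/
def discG {R : Type*} [CommRing R] (a₁ a₂ a₃ a₄ : R) : R :=
  (a₁ ^ 2 + 4 * a₂) ^ 2 * (a₁ * a₄ - a₂ * a₃) - 8 * a₁ ^ 3 * a₃ ^ 2 - 27 * a₃ ^ 3 +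
    9 * (a₁ ^ 2 + 4 * a₂) * (2 * a₄ + a₁ * a₃) * a₃

/-- auxiliary cofactor polynomial -/
def discH {R : Type*} [CommRing R] (a₁ a₂ a₃ a₄ : R) : R :=
  (a₁ ^ 2 + 4 * a₂) ^ 2 * a₄ - 64 * a₄ ^ 2 - 96 * a₁ * a₃ * a₄ - 48 * a₁ ^ 2 * a₃ ^ 2

omit [DecidableEq K] in
theorem discG_mem {a₁ a₂ a₃ a₄ : K} (h₁ : a₁ ∈ A) (h₂ : a₂ ∈ A) (h₃ : a₃ ∈ A) (h₄ : a₄ ∈ A) :
    discG a₁ a₂ a₃ a₄ ∈ A := by
  lift a₁ to A using h₁
  lift a₂ to A using h₂
  lift a₃ to A using h₃
  lift a₄ to A using h₄
  have : discG (a₁ : K) (a₂ : K) (a₃ : K) (a₄ : K) = A.subtype (discG a₁ a₂ a₃ a₄) := by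
    simp only [discG, map_add, map_sub, map_mul, map_pow, map_ofNat,
      ValuationSubring.subtype_apply]
  rw [this]
  exact Subtype.property _

omit [DecidableEq K] in
theorem discH_mem {a₁ a₂ a₃ a₄ : K} (h₁ : a₁ ∈ A) (h₂ : a₂ ∈ A) (h₃ : a₃ ∈ A) (h₄ : a₄ ∈ A) :
    discH a₁ a₂ a₃ a₄ ∈ A := by
  lift a₁ to A using h₁
  lift a₂ to A using h₂
  lift a₃ to A using h₃
  lift a₄ to A using h₄
  have : discH (a₁ : K) (a₂ : K) (a₃ : K) (a₄ : K) = A.subtype (discH a₁ a₂ a₃ a₄) := by
    simp only [discH, map_add, map_sub, map_mul, map_pow, map_ofNat,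
      ValuationSubring.subtype_apply]
  rw [this]
  exact Subtype.property _

omit [DecidableEq K] in
/-- The discriminant lies in the ideal generated by the two partial derivatives at a point of
the curve. -/
theorem Δ_eq_of_equation (W : Affine K) {x y : K} (h : W.Equation x y) :
    W.Δ = (2 * y + W.a₁ * x + W.a₃) *
        discG W.a₁ (W.a₂ + 3 * x) (2 * y + W.a₁ * x + W.a₃)
          (-(W.a₁ * y - (3 * x ^ 2 + 2 * W.a₂ * x + W.a₄))) +
      (-(W.a₁ * y - (3 * x ^ 2 + 2 * W.a₂ * x + W.a₄))) *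
        discH W.a₁ (W.a₂ + 3 * x) (2 * y + W.a₁ * x + W.a₃)
          (-(W.a₁ * y - (3 * x ^ 2 + 2 * W.a₂ * x + W.a₄))) := by
  rw [equation_iff] at h
  have h6 : W.a₆ = y ^ 2 + W.a₁ * x * y + W.a₃ * y - (x ^ 3 + W.a₂ * x ^ 2 + W.a₄ * x) := by
    linear_combination -h
  simp only [WeierstrassCurve.Δ, WeierstrassCurve.b₂, WeierstrassCurve.b₄, WeierstrassCurve.b₆,
    WeierstrassCurve.b₈, discG, discH]
  rw [h6]
  ring

omit [DecidableEq K] in
/-- If `Δ` is a unit of `A`, every point of `W` with integral coordinates has nonsingular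
reduction. -/
theorem unit_Wx_or_Wy_of_Δ_unit {W : Affine K}
    (ha₁ : W.a₁ ∈ A) (ha₂ : W.a₂ ∈ A)
    (hΔ : W.Δ ∉ A.nonunits) {x y : K} (h : W.Equation x y) (hx : x ∈ A) :
    ¬ (W.a₁ * y - (3 * x ^ 2 + 2 * W.a₂ * x + W.a₄) ∈ A.nonunits ∧
      2 * y + W.a₁ * x + W.a₃ ∈ A.nonunits) := by
  rintro ⟨hWx, hWy⟩
  apply hΔ
  have h2A : (2 : K) ∈ A := by exact_mod_cast natCast_mem A 2
  have h3A : (3 : K) ∈ A := by exact_mod_cast natCast_mem A 3
  have hWx' : -(W.a₁ * y - (3 * x ^ 2 + 2 * W.a₂ * x + W.a₄)) ∈ A.nonunits :=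
    A.nonunits.neg_mem hWx
  have ha₂' : W.a₂ + 3 * x ∈ A := add_mem ha₂ (mul_mem h3A hx)
  have hG := discG_mem A ha₁ ha₂' (A.nonunits_subset hWy) (A.nonunits_subset hWx')
  have hH := discH_mem A ha₁ ha₂' (A.nonunits_subset hWy) (A.nonunits_subset hWx')
  rw [Δ_eq_of_equation W h, A.mem_nonunits_iff]
  rw [A.mem_nonunits_iff] at hWy hWx'
  rw [← A.valuation_le_one_iff] at hG hH
  refine lt_of_le_of_lt (Valuation.map_add _ _ _) (max_lt ?_ ?_)
  · rw [map_mul]
    exact lt_of_le_of_lt (mul_le_of_le_one_right zero_le hG) hWy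
  · rw [map_mul]
    exact lt_of_le_of_lt (mul_le_of_le_one_right zero_le hH) hWx'

omit [DecidableEq K] in
/-- Integrality of the `y`-coordinate of a point with integral `x`-coordinate. -/
theorem y_mem_of_x_mem {W : Affine K}
    (ha₁ : W.a₁ ∈ A) (ha₂ : W.a₂ ∈ A) (ha₃ : W.a₃ ∈ A) (ha₄ : W.a₄ ∈ A) (ha₆ : W.a₆ ∈ A)
    {x y : K} (h : W.Equation x y) (hx : x ∈ A) : y ∈ A := by
  by_contra hy
  rw [← A.valuation_le_one_iff, not_le] at hy
  rw [equation_iff] at h
  have hrhs : x ^ 3 + W.a₂ * x ^ 2 + W.a₄ * x + W.a₆ ∈ A :=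
    add_mem (add_mem (add_mem (pow_mem hx 3) (mul_mem ha₂ (pow_mem hx 2))) (mul_mem ha₄ hx)) ha₆
  rw [← A.valuation_le_one_iff, ← h] at hrhs
  have hc : W.a₁ * x + W.a₃ ∈ A := add_mem (mul_mem ha₁ hx) ha₃
  rw [← A.valuation_le_one_iff] at hc
  have hy0 : (0 : A.ValueGroup) < A.valuation y := lt_trans zero_lt_one hy
  have h1 : A.valuation ((W.a₁ * x + W.a₃) * y) < A.valuation (y ^ 2) := by
    rw [map_mul, map_pow, pow_two]
    calc A.valuation (W.a₁ * x + W.a₃) * A.valuation y ≤ 1 * A.valuation y := by gcongr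
      _ = A.valuation y := one_mul _
      _ = A.valuation y * 1 := (mul_one _).symm
      _ < A.valuation y * A.valuation y := (mul_lt_mul_iff_right₀ hy0).mpr hy
  have heq : y ^ 2 + W.a₁ * x * y + W.a₃ * y = y ^ 2 + (W.a₁ * x + W.a₃) * y := by ring
  rw [heq, Valuation.map_add_eq_of_lt_left _ h1, map_pow] at hrhs
  have : (1 : A.ValueGroup) < A.valuation y ^ 2 := by
    calc (1 : A.ValueGroup) < A.valuation y := hy
      _ = A.valuation y * 1 := (mul_one _).symm
      _ < A.valuation y * A.valuation y := (mul_lt_mul_iff_right₀ hy0).mpr hy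
      _ = A.valuation y ^ 2 := (pow_two _).symm
  exact absurd hrhs (not_le.mpr this)

/-! ### The endgame in the case of good reduction -/

/-- If `τ` is an additive endomorphism of the group of points which acts on coordinates through a
map `s` with `s x ≡ x` modulo the maximal ideal of `A`, then `τ P - P` lies in the kernel of
reduction for every point `P` with integral coordinates and nonsingular reduction. -/
theorem map_sub_mem_E1 {W : Affine K}
    (ha₁ : W.a₁ ∈ A) (ha₂ : W.a₂ ∈ A) (ha₃ : W.a₃ ∈ A) (ha₄ : W.a₄ ∈ A)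
    (τ : W.Point → W.Point) (s : K → K) (hs : ∀ x ∈ A, s x - x ∈ A.nonunits)
    (hτ : ∀ (x y : K) (h : W.Nonsingular x y), ∃ h', τ (.some x y h) = .some (s x) (s y) h')
    {x y : K} (h : W.Nonsingular x y) (hx : x ∈ A) (hy : y ∈ A)
    (hns : ¬ (W.a₁ * y - (3 * x ^ 2 + 2 * W.a₂ * x + W.a₄) ∈ A.nonunits ∧
      2 * y + W.a₁ * x + W.a₃ ∈ A.nonunits)) :
    InE1 A (τ (.some x y h) - .some x y h) := by
  obtain ⟨h', hh'⟩ := hτ x y h
  rw [hh']
  exact sub_mem_E1_of_congr A ha₁ ha₂ ha₃ ha₄ h h' hx hy (hs x hx) (hs y hy) hns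

/-- **Good reduction.** If `Δ` is a unit of `A`, the kernel of reduction has no `n`-torsion, and
`τ` is an additive endomorphism of the points acting on coordinates through a map `s` which is
trivial modulo the maximal ideal of `A`, then `τ` fixes every `n`-torsion point. -/
theorem fixed_of_good_reduction {W : Affine K}
    (ha₁ : W.a₁ ∈ A) (ha₂ : W.a₂ ∈ A) (ha₃ : W.a₃ ∈ A) (ha₄ : W.a₄ ∈ A) (ha₆ : W.a₆ ∈ A)
    (hΔ : W.Δ ∉ A.nonunits) (n : ℤ)
    (hL1 : ∀ P : W.Point, InE1 A P → n • P = 0 → P = 0)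
    (τ : W.Point →+ W.Point) (s : K → K) (hs : ∀ x ∈ A, s x - x ∈ A.nonunits)
    (hτ : ∀ (x y : K) (h : W.Nonsingular x y), ∃ h', τ (.some x y h) = .some (s x) (s y) h')
    (P : W.Point) (hP : n • P = 0) : τ P = P := by
  rcases P with _ | ⟨x, y, h⟩
  · exact map_zero τ
  · by_cases hx : x ∈ A
    · have hy : y ∈ A := y_mem_of_x_mem A ha₁ ha₂ ha₃ ha₄ ha₆ h.1 hx
      have hE1 := map_sub_mem_E1 A ha₁ ha₂ ha₃ ha₄ τ s hs hτ h hx hy
        (unit_Wx_or_Wy_of_Δ_unit A ha₁ ha₂ hΔ h.1 hx)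
      have hn : n • (τ (.some x y h) - .some x y h) = 0 := by
        rw [smul_sub, ← map_zsmul, hP, map_zero, sub_zero]
      exact sub_eq_zero.mp (hL1 _ hE1 hn)
    · have h0 : Point.some x y h = 0 := hL1 _ (show x ∉ A from hx) hP
      rw [h0]
      exact map_zero τ

end subring

end Fermat.Agent.S05
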