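import Fermat.Agent.S05.XIdent

/-!
# The kernel of reduction has no prime-to-residue-characteristic torsion (x-only proof)

`W` a Weierstrass curve over a valued field `(K, v)` with `v b₂, v b₄, v b₆, v b₈ ≤ 1`
and `v 2 = 1`.  `E1 := {O} ∪ {P | 1 < v (x P)}` is a subgroup of `W.Point`, and
`n • P ≠ 0` for `P ∈ E1`, `P ≠ 0`, `v n = 1`.

Proof: for `1 < v X0` put `q P := X0 / x P`.  On `{P | P = O ∨ v X0 ≤ v (x P)}` the function
`q` takes integral values and satisfies the parallelogram law modulo the maximal ideal;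
hence `q (n • P) ≡ n² q P`.
-/

set_option autoImplicit false
set_option linter.unusedSectionVars false
set_option linter.unusedVariables false

namespace Fermat.Agent.S05

open WeierstrassCurve WeierstrassCurve.Affine
open Fermat.Agent.S51 (xc f2 phi2)

section val

variable {K : Type*} [Field K] {Γ : Type*} [LinearOrderedCommGroupWithZero Γ] (v : Valuation K Γ)

/-- If the sum and the product of `a`, `b` are integral then so are `a` and `b`. -/
lemma le_one_of_add_mul {a b : K} (hs : v (a + b) ≤ 1) (hp : v (a * b) ≤ 1) :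
    v a ≤ 1 ∧ v b ≤ 1 := by
  have key : ∀ a b : K, v (a + b) ≤ 1 → v (a * b) ≤ 1 → v a ≤ 1 := by
    intro a b hs hp
    by_contra ha
    have ha : 1 < v a := not_le.mp ha
    have hb : v b < 1 := by
      rw [map_mul] at hp
      by_contra hb
      have hb : 1 ≤ v b := not_lt.mp hb
      exact absurd hp (not_le.mpr (one_lt_mul_of_lt_of_le' ha hb))
    have : v (a + b) = v a := v.map_add_eq_of_lt_left (hb.trans ha)
    rw [this] at hs
    exact absurd hs (not_le.mpr ha)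
  exact ⟨key a b hs hp, key b a (by rwa [add_comm]) (by rwa [mul_comm])⟩

lemma sm_mul_left {a b : K} (ha : v a ≤ 1) (hb : v b < 1) : v (a * b) < 1 := by
  rw [map_mul]; exact Right.mul_lt_one_of_le_of_lt ha hb

lemma sm_mul_right {a b : K} (ha : v a < 1) (hb : v b ≤ 1) : v (a * b) < 1 := by
  rw [map_mul]; exact mul_lt_one_of_lt_of_le ha hb

lemma le_mul {a b : K} (ha : v a ≤ 1) (hb : v b ≤ 1) : v (a * b) ≤ 1 := by
  rw [map_mul]; exact Left.mul_le_one ha hb

lemma inv_sm {x : K} (hx : 1 < v x) : v x⁻¹ < 1 := by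
  rw [map_inv₀]
  exact inv_lt_one_of_one_lt₀ hx

lemma ne_zero_of_one_lt {x : K} (hx : 1 < v x) : x ≠ 0 := by
  rintro rfl
  rw [map_zero] at hx
  exact absurd hx (not_lt.mpr zero_le_one)

lemma div_le_one_of_le {X0 x : K} (hx : x ≠ 0) (h : v X0 ≤ v x) : v (X0 * x⁻¹) ≤ 1 := by
  rw [map_mul, map_inv₀]
  have : 0 < v x := by
    rw [Valuation.pos_iff]; exact hx
  rw [← div_eq_mul_inv]
  exact (div_le_one₀ this).mpr h

lemma le_of_div_le_one {X0 x : K} (hx : x ≠ 0) (h : v (X0 * x⁻¹) ≤ 1) : v X0 ≤ v x := by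
  rw [map_mul, map_inv₀, ← div_eq_mul_inv] at h
  have : 0 < v x := by
    rw [Valuation.pos_iff]; exact hx
  exact (div_le_one₀ this).mp h

end val

section generic

variable {K : Type*} [Field K] [DecidableEq K] {Γ : Type*} [LinearOrderedCommGroupWithZero Γ]
  (v : Valuation K Γ) {W : WeierstrassCurve.Affine K}

/-- Integrality of the `b`-invariants, and `2` is a unit. -/
structure IntegralB (v : Valuation K Γ) (W : WeierstrassCurve.Affine K) : Prop where
  b2 : v W.b₂ ≤ 1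
  b4 : v W.b₄ ≤ 1
  b6 : v W.b₆ ≤ 1
  b8 : v W.b₈ ≤ 1
  two : v 2 = 1

variable {v}

/-- Field-level core: from the sum and product identities for `x(P±Q)`. -/
lemma core_generic (hW : IntegralB v W) {X0 x1 x2 xp xm : K} (hX0 : 1 < v X0)
    (h1 : v X0 ≤ v x1) (h2 : v X0 ≤ v x2)
    (hS : (xp + xm) * (x1 - x2) ^ 2 = addT W x1 x2)
    (hP : xp * xm * (x1 - x2) ^ 2 = addPi W x1 x2) :
    v X0 ≤ v xp ∧ v X0 ≤ v xm ∧
      v (X0 / xp + X0 / xm - 2 * (X0 / x1) - 2 * (X0 / x2)) < 1 := by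
  have hx1 : x1 ≠ 0 := ne_zero_of_one_lt v (hX0.trans_le h1)
  have hx2 : x2 ≠ 0 := ne_zero_of_one_lt v (hX0.trans_le h2)
  have hX00 : X0 ≠ 0 := ne_zero_of_one_lt v hX0
  set w1 := x1⁻¹ with hw1
  set w2 := x2⁻¹ with hw2
  have hw1s : v w1 < 1 := inv_sm v (hX0.trans_le h1)
  have hw2s : v w2 < 1 := inv_sm v (hX0.trans_le h2)
  have hw1i : v w1 ≤ 1 := hw1s.le
  have hw2i : v w2 ≤ 1 := hw2s.le
  set u1 := X0 * w1 with hu1
  set u2 := X0 * w2 with hu2
  have hu1i : v u1 ≤ 1 := div_le_one_of_le v hx1 h1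
  have hu2i : v u2 ≤ 1 := div_le_one_of_le v hx2 h2
  have h2i : v (2 : K) ≤ 1 := hW.two.le
  have hw12 : v (w1 * w2) < 1 := sm_mul_left v hw1i hw2s
  have hwsum : v (w1 + w2) ≤ 1 := v.map_add_le hw1i hw2i
  -- ε and τ
  set ε := -(W.b₄ * (w1 * w2)) - W.b₆ * ((w1 + w2) * (w1 * w2)) - W.b₈ * ((w1 * w2) * (w1 * w2))
    with hε
  set τ := 2 * (w1 + w2) + W.b₂ * (w1 * w2) + W.b₄ * ((w1 + w2) * (w1 * w2))
    + W.b₆ * ((w1 * w2) * (w1 * w2)) with hτ
  have hεs : v ε < 1 := by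
    refine v.map_sub_lt (v.map_sub_lt ?_ ?_) ?_
    · rw [Valuation.map_neg]; exact sm_mul_left v hW.b4 hw12
    · exact sm_mul_left v hW.b6 (sm_mul_left v hwsum hw12)
    · exact sm_mul_left v hW.b8 (sm_mul_left v hw12.le hw12)
  have h1ε : v (1 + ε) = 1 := v.map_one_add_of_lt hεs
  have h1ε0 : 1 + ε ≠ 0 := by
    intro h; rw [h, map_zero] at h1ε; exact zero_ne_one h1ε
  have hPi : addPi W x1 x2 = x1 ^ 2 * x2 ^ 2 * (1 + ε) := by
    simp only [addPi, hε, hw1, hw2]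
    field_simp
    ring
  have hT : addT W x1 x2 = x1 ^ 2 * x2 ^ 2 * τ := by
    simp only [addT, hτ, hw1, hw2]
    field_simp
    ring
  have hd : (x1 - x2) ^ 2 = x1 ^ 2 * x2 ^ 2 * (w2 - w1) ^ 2 := by
    simp only [hw1, hw2]
    field_simp
  have hxx : x1 ^ 2 * x2 ^ 2 ≠ 0 := mul_ne_zero (pow_ne_zero 2 hx1) (pow_ne_zero 2 hx2)
  have hP' : xp * xm * (w2 - w1) ^ 2 = 1 + ε := by
    apply mul_left_cancel₀ hxx
    rw [← hPi, ← hP, hd]; ring
  have hS' : (xp + xm) * (w2 - w1) ^ 2 = τ := by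
    apply mul_left_cancel₀ hxx
    rw [← hT, ← hS, hd]; ring
  have hxp : xp ≠ 0 := by
    rintro rfl; rw [zero_mul, zero_mul] at hP'; exact h1ε0 hP'.symm
  have hxm : xm ≠ 0 := by
    rintro rfl; rw [mul_zero, zero_mul] at hP'; exact h1ε0 hP'.symm
  set up := X0 * xp⁻¹ with hup
  set um := X0 * xm⁻¹ with hum
  -- product and sum of up, um
  have hprod : up * um * (1 + ε) = (u2 - u1) ^ 2 := by
    have : up * um * (xp * xm * (w2 - w1) ^ 2) = (u2 - u1) ^ 2 := by
      simp only [hup, hum, hu1, hu2]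
      field_simp
    rw [hP'] at this
    exact this
  have hsum : (up + um) * (1 + ε) = X0 * τ := by
    have : (up + um) * (xp * xm * (w2 - w1) ^ 2) = X0 * ((xp + xm) * (w2 - w1) ^ 2) := by
      simp only [hup, hum]
      field_simp
      ring
    rw [hP', hS'] at this
    exact this
  have hX0τ : X0 * τ = 2 * (u1 + u2) + W.b₂ * (u1 * w2) + W.b₄ * ((u1 + u2) * (w1 * w2))
      + W.b₆ * ((u1 * w2) * (w1 * w2)) := by
    simp only [hτ, hu1, hu2]; ring
  have hu12 : v (u1 + u2) ≤ 1 := v.map_add_le hu1i hu2i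
  have hX0τi : v (X0 * τ) ≤ 1 := by
    rw [hX0τ]
    refine v.map_add_le (v.map_add_le (v.map_add_le ?_ ?_) ?_) ?_
    · exact le_mul v h2i hu12
    · exact le_mul v hW.b2 (le_mul v hu1i hw2i)
    · exact le_mul v hW.b4 (le_mul v hu12 hw12.le)
    · exact le_mul v hW.b6 (le_mul v (le_mul v hu1i hw2i) hw12.le)
  have hprodi : v (up * um) ≤ 1 := by
    have : v (up * um) * v (1 + ε) = v ((u2 - u1) ^ 2) := by rw [← map_mul, hprod]
    rw [h1ε, mul_one] at this
    rw [this, map_pow]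
    exact pow_le_one₀ zero_le (v.map_sub_le hu2i hu1i)
  have hsumi : v (up + um) ≤ 1 := by
    have : v (up + um) * v (1 + ε) = v (X0 * τ) := by rw [← map_mul, hsum]
    rw [h1ε, mul_one] at this
    rw [this]; exact hX0τi
  obtain ⟨hupi, humi⟩ := le_one_of_add_mul v hsumi hprodi
  refine ⟨le_of_div_le_one v hxp hupi, le_of_div_le_one v hxm humi, ?_⟩
  have hgoal : X0 / xp + X0 / xm - 2 * (X0 / x1) - 2 * (X0 / x2) = up + um - 2 * u1 - 2 * u2 := by
    simp only [hup, hum, hu1, hu2, hw1, hw2, div_eq_mul_inv]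
  rw [hgoal]
  have hnum : (up + um - 2 * u1 - 2 * u2) * (1 + ε) =
      W.b₂ * (u1 * w2) + W.b₄ * ((u1 + u2) * (w1 * w2)) + W.b₆ * ((u1 * w2) * (w1 * w2))
        - 2 * (u1 + u2) * ε := by
    have : (up + um - 2 * u1 - 2 * u2) * (1 + ε) = (up + um) * (1 + ε) - 2 * (u1 + u2) * (1 + ε) := by
      ring
    rw [this, hsum, hX0τ]; ring
  have : v (up + um - 2 * u1 - 2 * u2) * v (1 + ε) = v (W.b₂ * (u1 * w2)
      + W.b₄ * ((u1 + u2) * (w1 * w2)) + W.b₆ * ((u1 * w2) * (w1 * w2)) - 2 * (u1 + u2) * ε) := by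
    rw [← map_mul, hnum]
  rw [h1ε, mul_one] at this
  rw [this]
  refine v.map_sub_lt (v.map_add_lt (v.map_add_lt ?_ ?_) ?_) ?_
  · exact sm_mul_left v hW.b2 (sm_mul_left v hu1i hw2s)
  · exact sm_mul_left v hW.b4 (sm_mul_left v hu12 hw12)
  · exact sm_mul_left v hW.b6 (sm_mul_left v (le_mul v hu1i hw2i) hw12)
  · exact sm_mul_left v (le_mul v h2i hu12) hεs

/-- Field-level duplication. -/
lemma core_dup (hW : IntegralB v W) {X0 x xd : K} (hX0 : 1 < v X0) (h1 : v X0 ≤ v x) :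
    f2 W x ≠ 0 ∧ (xd * f2 W x = phi2 W x →
      v X0 ≤ v xd ∧ v (X0 / xd - 4 * (X0 / x)) < 1) := by
  have hx : x ≠ 0 := ne_zero_of_one_lt v (hX0.trans_le h1)
  have hX00 : X0 ≠ 0 := ne_zero_of_one_lt v hX0
  set w := x⁻¹ with hw
  have hws : v w < 1 := inv_sm v (hX0.trans_le h1)
  have hwi : v w ≤ 1 := hws.le
  set u := X0 * w with hu
  have hui : v u ≤ 1 := div_le_one_of_le v hx h1
  have h2i : v (2 : K) ≤ 1 := hW.two.le
  have h4 : v (4 : K) = 1 := by
    have : (4 : K) = 2 * 2 := by norm_num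
    rw [this, map_mul, hW.two, one_mul]
  set ρ := W.b₂ * w + 2 * W.b₄ * (w * w) + W.b₆ * (w * (w * w)) with hρ
  set ε := -(W.b₄ * (w * w)) - 2 * W.b₆ * (w * (w * w)) - W.b₈ * ((w * w) * (w * w)) with hε
  have hww : v (w * w) < 1 := sm_mul_left v hwi hws
  have hwww : v (w * (w * w)) < 1 := sm_mul_left v hwi hww
  have hρs : v ρ < 1 := by
    refine v.map_add_lt (v.map_add_lt ?_ ?_) ?_
    · exact sm_mul_left v hW.b2 hws
    · exact sm_mul_left v (le_mul v h2i hW.b4) hww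
    · exact sm_mul_left v hW.b6 hwww
  have hεs : v ε < 1 := by
    refine v.map_sub_lt (v.map_sub_lt ?_ ?_) ?_
    · rw [Valuation.map_neg]; exact sm_mul_left v hW.b4 hww
    · exact sm_mul_left v (le_mul v h2i hW.b6) hwww
    · exact sm_mul_left v hW.b8 (sm_mul_left v hww.le hww)
  have hφ : v (4 + ρ) = 1 := by
    rw [v.map_add_eq_of_lt_left (by rw [h4]; exact hρs), h4]
  have hφ0 : 4 + ρ ≠ 0 := by
    intro h; rw [h, map_zero] at hφ; exact zero_ne_one hφ
  have h1ε : v (1 + ε) = 1 := v.map_one_add_of_lt hεs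
  have h1ε0 : 1 + ε ≠ 0 := by
    intro h; rw [h, map_zero] at h1ε; exact zero_ne_one h1ε
  have hf2 : f2 W x = x ^ 3 * (4 + ρ) := by
    simp only [f2, hρ, hw]
    field_simp
    ring
  have hphi2 : phi2 W x = x ^ 4 * (1 + ε) := by
    simp only [phi2, hε, hw]
    field_simp
    ring
  refine ⟨by rw [hf2]; exact mul_ne_zero (pow_ne_zero 3 hx) hφ0, fun hd => ?_⟩
  rw [hf2, hphi2] at hd
  have hd' : xd * (4 + ρ) = x * (1 + ε) := by
    apply mul_left_cancel₀ (pow_ne_zero 3 hx)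
    linear_combination hd
  have hxd : xd ≠ 0 := by
    rintro rfl; rw [zero_mul] at hd'; exact (mul_ne_zero hx h1ε0) hd'.symm
  have hvxd : v xd = v x := by
    have := congrArg v hd'
    rwa [map_mul, map_mul, hφ, h1ε, mul_one, mul_one] at this
  refine ⟨by rw [hvxd]; exact h1, ?_⟩
  have hq : (X0 / xd - 4 * (X0 / x)) * (1 + ε) = u * (ρ - 4 * ε) := by
    have hxd' : xd = x * (1 + ε) / (4 + ρ) := by
      field_simp; exact hd'
    rw [hxd']
    simp only [hu, hw]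
    field_simp
    ring
  have : v (X0 / xd - 4 * (X0 / x)) * v (1 + ε) = v (u * (ρ - 4 * ε)) := by
    rw [← map_mul, hq]
  rw [h1ε, mul_one] at this
  rw [this]
  exact sm_mul_left v hui (v.map_sub_lt hρs (sm_mul_left v h4.le hεs))

end generic

section points

variable {K : Type*} [Field K] [DecidableEq K] {Γ : Type*} [LinearOrderedCommGroupWithZero Γ]
  {v : Valuation K Γ} {W : WeierstrassCurve.Affine K} {X0 : K} {P Q : W.Point}

/-- `P = O` or `v X0 ≤ v (x P)`. -/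
def Good (v : Valuation K Γ) (X0 : K) (P : W.Point) : Prop := P = 0 ∨ v X0 ≤ v (xc P)

/-- `X0 / x(P)` (`0` at infinity). -/
def qf (X0 : K) (P : W.Point) : K := X0 / xc P

@[simp] lemma qf_zero : qf X0 (0 : W.Point) = 0 := by simp [qf]

lemma good_zero : Good v X0 (0 : W.Point) := Or.inl rfl

lemma good_neg (h : Good v X0 P) : Good v X0 (-P) := by
  rcases h with h | h
  · left; rw [h, neg_zero]
  · right; rwa [Fermat.Agent.S51.xc_neg]

@[simp] lemma qf_neg : qf X0 (-P) = qf X0 P := by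
  simp [qf, Fermat.Agent.S51.xc_neg]

lemma two_nsmul_ne_zero_of_f2 (hP : P ≠ 0) (hf : f2 W (xc P) ≠ 0) : 2 • P ≠ 0 := by
  cases P with
  | zero => exact absurd rfl hP
  | some x y h =>
    intro h2
    exact hf ((Fermat.Agent.S51.two_nsmul_eq_zero_iff h).mp h2)

/-- duplication, point level -/
lemma good_two_nsmul (hW : IntegralB v W) (hX0 : 1 < v X0) (hP : P ≠ 0)
    (hx : v X0 ≤ v (xc P)) :
    2 • P ≠ 0 ∧ v X0 ≤ v (xc (2 • P)) ∧ v (qf X0 (2 • P) - 4 * qf X0 P) < 1 := by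
  obtain ⟨hf, hd⟩ := core_dup (xd := xc (2 • P)) hW hX0 hx
  have h2 : 2 • P ≠ 0 := two_nsmul_ne_zero_of_f2 hP hf
  obtain ⟨-, hdup⟩ := Fermat.Agent.S51.xc_two_nsmul hP h2
  obtain ⟨h3, h4⟩ := hd hdup
  exact ⟨h2, h3, h4⟩

theorem good_add_sub (hW : IntegralB v W) (hX0 : 1 < v X0) (hP : Good v X0 P)
    (hQ : Good v X0 Q) :
    Good v X0 (P + Q) ∧ Good v X0 (P - Q) ∧
      v (qf X0 (P + Q) + qf X0 (P - Q) - 2 * qf X0 P - 2 * qf X0 Q) < 1 := by
  by_cases hP0 : P = 0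
  · subst hP0
    refine ⟨by rwa [zero_add], by rw [zero_sub]; exact good_neg hQ, ?_⟩
    rw [zero_add, zero_sub, qf_neg, qf_zero]
    have : qf X0 Q + qf X0 Q - 2 * 0 - 2 * qf X0 Q = 0 := by ring
    rw [this, map_zero]; exact zero_lt_one
  by_cases hQ0 : Q = 0
  · subst hQ0
    refine ⟨by rwa [add_zero], by rwa [sub_zero], ?_⟩
    rw [add_zero, sub_zero, qf_zero]
    have : qf X0 P + qf X0 P - 2 * qf X0 P - 2 * 0 = 0 := by ring
    rw [this, map_zero]; exact zero_lt_one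
  have hxP : v X0 ≤ v (xc P) := hP.resolve_left hP0
  have hxQ : v X0 ≤ v (xc Q) := hQ.resolve_left hQ0
  by_cases hx : xc P = xc Q
  · rcases Fermat.Agent.S51.eq_or_eq_neg_of_xc_eq hP0 hQ0 hx with h | h
    · subst h
      obtain ⟨h2, h3, h4⟩ := good_two_nsmul hW hX0 hP0 hxP
      rw [← two_nsmul, sub_self]
      refine ⟨Or.inr h3, good_zero, ?_⟩
      rw [qf_zero]
      have : qf X0 (2 • P) + 0 - 2 * qf X0 P - 2 * qf X0 P = qf X0 (2 • P) - 4 * qf X0 P := by
        ring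
      rw [this]; exact h4
    · subst h
      obtain ⟨h2, h3, h4⟩ := good_two_nsmul hW hX0 hQ0 hxQ
      have e1 : -Q + Q = 0 := neg_add_cancel Q
      have e2 : -Q - Q = -(2 • Q) := by rw [two_nsmul]; abel
      rw [e1, e2]
      refine ⟨good_zero, good_neg (Or.inr h3), ?_⟩
      rw [qf_zero, qf_neg, qf_neg]
      have : 0 + qf X0 (2 • Q) - 2 * qf X0 Q - 2 * qf X0 Q = qf X0 (2 • Q) - 4 * qf X0 Q := by
        ring
      rw [this]; exact h4
  · obtain ⟨h1, h2, h3⟩ := core_generic hW hX0 hxP hxQ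
      (xc_add_add_xc_sub hP0 hQ0 hx) (xc_add_mul_xc_sub hP0 hQ0 hx)
    exact ⟨Or.inr h1, Or.inr h2, h3⟩

theorem good_nsmul (hW : IntegralB v W) (hX0 : 1 < v X0) (hP : Good v X0 P) (n : ℕ) :
    (Good v X0 (n • P) ∧ v (qf X0 (n • P) - (n : K) ^ 2 * qf X0 P) < 1) ∧
    (Good v X0 ((n + 1) • P) ∧ v (qf X0 ((n + 1) • P) - ((n + 1 : ℕ) : K) ^ 2 * qf X0 P) < 1) := by
  induction n with
  | zero =>
    refine ⟨⟨by rw [zero_smul]; exact good_zero, ?_⟩, ⟨by rwa [zero_add, one_smul], ?_⟩⟩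
    · rw [zero_smul, qf_zero]
      simp
    · rw [zero_add, one_smul]
      simp
  | succ n ih =>
    obtain ⟨⟨g0, q0⟩, ⟨g1, q1⟩⟩ := ih
    refine ⟨⟨g1, q1⟩, ?_⟩
    obtain ⟨ga, gs, hpar⟩ := good_add_sub hW hX0 g1 hP
    have e1 : (n + 1) • P + P = (n + 1 + 1) • P := by rw [succ_nsmul P (n + 1)]
    have e2 : (n + 1) • P - P = n • P := by rw [succ_nsmul P n]; abel
    rw [e1, e2] at hpar
    rw [e1] at ga
    refine ⟨ga, ?_⟩
    have key : qf X0 ((n + 1 + 1) • P) - ((n + 1 + 1 : ℕ) : K) ^ 2 * qf X0 P =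
        (qf X0 ((n + 1 + 1) • P) + qf X0 (n • P) - 2 * qf X0 ((n + 1) • P) - 2 * qf X0 P)
        - (qf X0 (n • P) - (n : K) ^ 2 * qf X0 P)
        + 2 * (qf X0 ((n + 1) • P) - ((n + 1 : ℕ) : K) ^ 2 * qf X0 P) := by
      push_cast
      ring
    rw [key]
    refine v.map_add_lt (v.map_sub_lt hpar q0) ?_
    exact sm_mul_left v hW.two.le q1

/-- Main theorem: no torsion of order prime to the residue characteristic in the kernel of
reduction. -/
theorem nsmul_ne_zero_of_one_lt (hW : IntegralB v W) (hP : P ≠ 0) (hx : 1 < v (xc P)) {n : ℕ}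
    (hn : v (n : K) = 1) : n • P ≠ 0 := by
  intro h0
  have hg : Good v (xc P) P := Or.inr le_rfl
  obtain ⟨⟨-, hq⟩, -⟩ := good_nsmul hW hx hg n
  have hx0 : xc P ≠ 0 := ne_zero_of_one_lt v hx
  have h1 : qf (xc P) P = 1 := by simp [qf, hx0]
  rw [h0, qf_zero, h1, mul_one, zero_sub, Valuation.map_neg, map_pow, hn, one_pow] at hq
  exact lt_irrefl _ hq

variable (v W) in
/-- The kernel of reduction `{O} ∪ {P | 1 < v (x P)}` as a set. -/
def E1set : Set W.Point := {P | P = 0 ∨ 1 < v (xc P)}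

lemma mem_E1set_iff : P ∈ E1set v W ↔ P = 0 ∨ 1 < v (xc P) := Iff.rfl

theorem E1_add_mem (hW : IntegralB v W) (hP : P ∈ E1set v W) (hQ : Q ∈ E1set v W) :
    P + Q ∈ E1set v W := by
  rcases hP with rfl | hP
  · rwa [zero_add]
  rcases hQ with rfl | hQ
  · rw [add_zero]; exact Or.inr hP
  rcases le_total (v (xc P)) (v (xc Q)) with hle | hle
  · have := (good_add_sub hW hP (Or.inr le_rfl) (Or.inr hle)).1
    rcases this with h | h
    · exact Or.inl h
    · exact Or.inr (hP.trans_le h)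
  · have := (good_add_sub hW hQ (Or.inr hle) (Or.inr le_rfl)).1
    rcases this with h | h
    · exact Or.inl h
    · exact Or.inr (hQ.trans_le h)

/-- The kernel of reduction as an additive subgroup. -/
def E1 (hW : IntegralB v W) : AddSubgroup W.Point where
  carrier := E1set v W
  zero_mem' := Or.inl rfl
  add_mem' := fun hP hQ => E1_add_mem hW hP hQ
  neg_mem' := by
    intro P hP
    rcases hP with rfl | hP
    · left; exact neg_zero
    · right; rwa [Fermat.Agent.S51.xc_neg]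

lemma mem_E1_iff (hW : IntegralB v W) : P ∈ E1 hW ↔ P = 0 ∨ 1 < v (xc P) := Iff.rfl

/-- `E1` has no `n`-torsion for `n` a unit. -/
theorem E1_torsion_free (hW : IntegralB v W) {n : ℕ} (hn : v (n : K) = 1) (hP : P ∈ E1 hW)
    (h : n • P = 0) : P = 0 := by
  rcases hP with h0 | hx
  · exact h0
  · by_contra hP0
    exact nsmul_ne_zero_of_one_lt hW hP0 hx hn h

end points

section subring

variable {K : Type*} [Field K] [DecidableEq K] (A : ValuationSubring K)
  {W : WeierstrassCurve.Affine K}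

lemma one_lt_valuation_iff (x : K) : 1 < A.valuation x ↔ x ∉ A := by
  rw [← not_le, A.valuation_le_one_iff]

/-- Integral `a`-coefficients and `2` a unit give `IntegralB`. -/
theorem IntegralB.of_coeffs (h1 : W.a₁ ∈ A) (h2 : W.a₂ ∈ A) (h3 : W.a₃ ∈ A) (h4 : W.a₄ ∈ A)
    (h6 : W.a₆ ∈ A) (htwo : A.valuation 2 = 1) : IntegralB A.valuation W := by
  have two_mem : (2 : K) ∈ A := (A.valuation_le_one_iff _).mp htwo.le
  have four_mem : (4 : K) ∈ A := by
    have : (4 : K) = 2 * 2 := by norm_num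
    rw [this]; exact A.mul_mem _ _ two_mem two_mem
  refine ⟨?_, ?_, ?_, ?_, htwo⟩
  · rw [A.valuation_le_one_iff, WeierstrassCurve.b₂]
    exact A.add_mem _ _ (pow_mem h1 2) (A.mul_mem _ _ four_mem h2)
  · rw [A.valuation_le_one_iff, WeierstrassCurve.b₄]
    exact A.add_mem _ _ (A.mul_mem _ _ two_mem h4) (A.mul_mem _ _ h1 h3)
  · rw [A.valuation_le_one_iff, WeierstrassCurve.b₆]
    exact A.add_mem _ _ (pow_mem h3 2) (A.mul_mem _ _ four_mem h6)
  · rw [A.valuation_le_one_iff, WeierstrassCurve.b₈]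
    refine sub_mem (add_mem (sub_mem (add_mem ?_ ?_) ?_) ?_) ?_
    · exact A.mul_mem _ _ (pow_mem h1 2) h6
    · exact A.mul_mem _ _ (A.mul_mem _ _ four_mem h2) h6
    · exact A.mul_mem _ _ (A.mul_mem _ _ h1 h3) h4
    · exact A.mul_mem _ _ h2 (pow_mem h3 2)
    · exact pow_mem h4 2

/-- `P ∈ E1` iff `P = O` or `x(P) ∉ A`. -/
lemma mem_E1_iff' (hW : IntegralB A.valuation W) {P : W.Point} :
    P ∈ E1 hW ↔ P = 0 ∨ xc P ∉ A := by
  rw [mem_E1_iff, one_lt_valuation_iff]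

end subring

end Fermat.Agent.S05
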