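import Mathlib
import Fermat.Prelude.Def_FLTPrelim_FreyPackage
import Fermat.Prelude.Def_FLTPrelim_Ramification

/-!
# S05, piece N: number theory of the Frey curve

Design-independent facts about `P.freyCurve` (`y^2 + x y = x^3 + a₂ x^2 + a₄ x` with
`a₂ = (b^p - 1 - a^p)/4`, `a₄ = -a^p b^p/16`):

* explicit `b`-invariants, `c₄`, `Δ` over `ℚ` and after base change to any field `K ⊇ ℚ`;
* factorisation of the 2-division cubic;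
* pairwise coprimality of `a, b, c`: a prime divides at most one of them;
* `q`-integrality statements (numerators/denominators prime to `q`).
-/

set_option autoImplicit false
open WeierstrassCurve

namespace Fermat.Agent.S05.FreyNT

variable (P : FreyPackage)

/-! ### Invariants over `ℚ` -/

theorem a₁_eq : P.freyCurve.a₁ = 1 := rfl
theorem a₂_eq : P.freyCurve.a₂ = ((P.b:ℚ) ^ P.p - 1 - (P.a:ℚ) ^ P.p) / 4 := rfl
theorem a₃_eq : P.freyCurve.a₃ = 0 := rfl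
theorem a₄_eq : P.freyCurve.a₄ = -((P.a:ℚ) ^ P.p) * ((P.b:ℚ) ^ P.p) / 16 := rfl
theorem a₆_eq : P.freyCurve.a₆ = 0 := rfl

theorem b₂_eq : P.freyCurve.b₂ = (P.b:ℚ) ^ P.p - (P.a:ℚ) ^ P.p := by
  simp only [WeierstrassCurve.b₂, FreyPackage.freyCurve]; ring

theorem b₄_eq : P.freyCurve.b₄ = -((P.a:ℚ) ^ P.p * (P.b:ℚ) ^ P.p) / 8 := by
  simp only [WeierstrassCurve.b₄, FreyPackage.freyCurve]; ring

theorem b₆_eq : P.freyCurve.b₆ = 0 := by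
  simp only [WeierstrassCurve.b₆, FreyPackage.freyCurve]; ring

theorem b₈_eq : P.freyCurve.b₈ = -((P.a:ℚ) ^ P.p * (P.b:ℚ) ^ P.p) ^ 2 / 256 := by
  simp only [WeierstrassCurve.b₈, FreyPackage.freyCurve]; ring

theorem hFLTq : (P.a:ℚ) ^ P.p + (P.b:ℚ) ^ P.p = (P.c:ℚ) ^ P.p := by
  exact_mod_cast P.hFLT

theorem c₄_eq :
    P.freyCurve.c₄ = (P.c:ℚ) ^ (2 * P.p) - (P.a:ℚ) ^ P.p * (P.b:ℚ) ^ P.p := by
  rw [WeierstrassCurve.c₄, b₂_eq, b₄_eq, pow_mul', ← hFLTq]; ring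

theorem c₄_eq' :
    P.freyCurve.c₄ = ((P.a:ℚ) ^ P.p) ^ 2 + (P.a:ℚ) ^ P.p * (P.b:ℚ) ^ P.p + ((P.b:ℚ) ^ P.p) ^ 2 := by
  rw [WeierstrassCurve.c₄, b₂_eq, b₄_eq]; ring

theorem Δ_eq :
    P.freyCurve.Δ = ((P.a:ℚ) ^ P.p * (P.b:ℚ) ^ P.p * (P.c:ℚ) ^ P.p) ^ 2 / 2 ^ 8 := by
  rw [WeierstrassCurve.Δ, b₂_eq, b₄_eq, b₆_eq, b₈_eq, ← hFLTq]; ring

theorem Δ_ne_zero : P.freyCurve.Δ ≠ 0 := by
  rw [Δ_eq]
  have ha : (P.a:ℚ) ≠ 0 := by exact_mod_cast P.ha0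
  have hb : (P.b:ℚ) ≠ 0 := by exact_mod_cast P.hb0
  have hc : (P.c:ℚ) ≠ 0 := by exact_mod_cast P.hc0
  positivity

/-- The 2-division cubic `Ψ₂² = 4x^3 + b₂x^2 + 2b₄x + b₆` of the Frey curve. -/
theorem twoDiv_factor (x : ℚ) :
    4 * x ^ 3 + P.freyCurve.b₂ * x ^ 2 + 2 * P.freyCurve.b₄ * x + P.freyCurve.b₆
      = 4 * x * (x - (P.a:ℚ) ^ P.p / 4) * (x + (P.b:ℚ) ^ P.p / 4) := by
  rw [b₂_eq, b₄_eq, b₆_eq]; ring

/-! ### Invariants after base change -/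

section BaseChange

variable (K : Type*) [Field K] [Algebra ℚ K] [CharZero K]

omit [CharZero K] in
theorem bc_a₁ : (P.freyCurve⁄K).a₁ = 1 := by
  show (P.freyCurve.map (algebraMap ℚ K)).a₁ = _
  simp [WeierstrassCurve.map, a₁_eq]

theorem bc_a₂ :
    (P.freyCurve⁄K).a₂ = ((P.b:K) ^ P.p - 1 - (P.a:K) ^ P.p) / 4 := by
  show (P.freyCurve.map (algebraMap ℚ K)).a₂ = _
  simp [WeierstrassCurve.map, a₂_eq]

omit [CharZero K] in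
theorem bc_a₃ : (P.freyCurve⁄K).a₃ = 0 := by
  show (P.freyCurve.map (algebraMap ℚ K)).a₃ = _
  simp [WeierstrassCurve.map, a₃_eq]

theorem bc_a₄ :
    (P.freyCurve⁄K).a₄ = -((P.a:K) ^ P.p) * ((P.b:K) ^ P.p) / 16 := by
  show (P.freyCurve.map (algebraMap ℚ K)).a₄ = _
  simp [WeierstrassCurve.map, a₄_eq]

omit [CharZero K] in
theorem bc_a₆ : (P.freyCurve⁄K).a₆ = 0 := by
  show (P.freyCurve.map (algebraMap ℚ K)).a₆ = _
  simp [WeierstrassCurve.map, a₆_eq]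

theorem bc_b₂ : (P.freyCurve⁄K).b₂ = (P.b:K) ^ P.p - (P.a:K) ^ P.p := by
  show (P.freyCurve.map (algebraMap ℚ K)).b₂ = _
  rw [map_b₂, b₂_eq]; simp

theorem bc_b₄ : (P.freyCurve⁄K).b₄ = -((P.a:K) ^ P.p * (P.b:K) ^ P.p) / 8 := by
  show (P.freyCurve.map (algebraMap ℚ K)).b₄ = _
  rw [map_b₄, b₄_eq]; simp

omit [CharZero K] in
theorem bc_b₆ : (P.freyCurve⁄K).b₆ = 0 := by
  show (P.freyCurve.map (algebraMap ℚ K)).b₆ = _
  rw [map_b₆, b₆_eq]; simp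

theorem bc_b₈ : (P.freyCurve⁄K).b₈ = -((P.a:K) ^ P.p * (P.b:K) ^ P.p) ^ 2 / 256 := by
  show (P.freyCurve.map (algebraMap ℚ K)).b₈ = _
  rw [map_b₈, b₈_eq]; simp

omit [Algebra ℚ K] [CharZero K] in
theorem hFLTK : (P.a:K) ^ P.p + (P.b:K) ^ P.p = (P.c:K) ^ P.p := by
  exact_mod_cast congrArg (Int.cast : ℤ → K) P.hFLT

theorem bc_c₄ :
    (P.freyCurve⁄K).c₄ = (P.c:K) ^ (2 * P.p) - (P.a:K) ^ P.p * (P.b:K) ^ P.p := by
  show (P.freyCurve.map (algebraMap ℚ K)).c₄ = _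
  rw [map_c₄, c₄_eq]; simp

theorem bc_Δ :
    (P.freyCurve⁄K).Δ = ((P.a:K) ^ P.p * (P.b:K) ^ P.p * (P.c:K) ^ P.p) ^ 2 / 2 ^ 8 := by
  show (P.freyCurve.map (algebraMap ℚ K)).Δ = _
  rw [map_Δ, Δ_eq]; simp

theorem bc_Δ_ne_zero : (P.freyCurve⁄K).Δ ≠ 0 := by
  rw [bc_Δ]
  have ha : (P.a:K) ≠ 0 := by exact_mod_cast P.ha0
  have hb : (P.b:K) ≠ 0 := by exact_mod_cast P.hb0
  have hc : (P.c:K) ≠ 0 := by exact_mod_cast P.hc0
  have h2 : (2:K) ≠ 0 := two_ne_zero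
  exact div_ne_zero (pow_ne_zero _ (mul_ne_zero (mul_ne_zero (pow_ne_zero _ ha)
    (pow_ne_zero _ hb)) (pow_ne_zero _ hc))) (pow_ne_zero _ h2)

/-- The 2-division cubic of the base-changed Frey curve. -/
theorem bc_twoDiv_factor (x : K) :
    4 * x ^ 3 + (P.freyCurve⁄K).b₂ * x ^ 2 + 2 * (P.freyCurve⁄K).b₄ * x + (P.freyCurve⁄K).b₆
      = 4 * x * (x - (P.a:K) ^ P.p / 4) * (x + (P.b:K) ^ P.p / 4) := by
  rw [bc_b₂, bc_b₄, bc_b₆]; ring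

/-- Weierstrass equation of the base-changed Frey curve in completed-square form:
with `η = 2y + x` one has `η^2 = 4x(x - a^p/4)(x + b^p/4)`. -/
theorem bc_equation_iff (x y : K) :
    (P.freyCurve⁄K).toAffine.Equation x y ↔
      (2 * y + x) ^ 2 = 4 * x * (x - (P.a:K) ^ P.p / 4) * (x + (P.b:K) ^ P.p / 4) := by
  rw [WeierstrassCurve.Affine.equation_iff]
  show y ^ 2 + (P.freyCurve⁄K).a₁ * x * y + (P.freyCurve⁄K).a₃ * y
      = x ^ 3 + (P.freyCurve⁄K).a₂ * x ^ 2 + (P.freyCurve⁄K).a₄ * x + (P.freyCurve⁄K).a₆ ↔ _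
  rw [bc_a₁, bc_a₂, bc_a₃, bc_a₄, bc_a₆]
  constructor
  · intro h; linear_combination 4 * h
  · intro h; linear_combination (1/4 : K) * h

end BaseChange

/-! ### Coprimality -/

theorem isCoprime_ab : IsCoprime P.a P.b := by
  rw [← gcd_isUnit_iff, P.hgcdab]; exact isUnit_one

theorem isCoprime_ac : IsCoprime P.a P.c := by
  rw [← gcd_isUnit_iff, P.hgcdac]; exact isUnit_one

theorem isCoprime_bc : IsCoprime P.b P.c := by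
  rw [← gcd_isUnit_iff, P.hgcdbc]; exact isUnit_one

variable {P}

theorem not_dvd_of_isCoprime {x y : ℤ} (h : IsCoprime x y) {q : ℕ} (hq : q.Prime)
    (hx : (q:ℤ) ∣ x) : ¬ (q:ℤ) ∣ y := by
  intro hy
  have := h.isUnit_of_dvd' hx hy
  exact (Nat.prime_iff_prime_int.mp hq).not_isUnit this

/-- A prime divides at most one of `a, b, c`; if it divides `abc` it divides exactly one. -/
theorem dvd_cases {q : ℕ} (hq : q.Prime) (h : (q:ℤ) ∣ P.a * P.b * P.c) :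
    ((q:ℤ) ∣ P.a ∧ ¬ (q:ℤ) ∣ P.b ∧ ¬ (q:ℤ) ∣ P.c) ∨
    (¬ (q:ℤ) ∣ P.a ∧ (q:ℤ) ∣ P.b ∧ ¬ (q:ℤ) ∣ P.c) ∨
    (¬ (q:ℤ) ∣ P.a ∧ ¬ (q:ℤ) ∣ P.b ∧ (q:ℤ) ∣ P.c) := by
  have hqi := Nat.prime_iff_prime_int.mp hq
  rcases hqi.dvd_or_dvd h with h1 | h1
  · rcases hqi.dvd_or_dvd h1 with h2 | h2
    · exact Or.inl ⟨h2, not_dvd_of_isCoprime (isCoprime_ab P) hq h2,
        not_dvd_of_isCoprime (isCoprime_ac P) hq h2⟩
    · exact Or.inr (Or.inl ⟨not_dvd_of_isCoprime (isCoprime_ab P).symm hq h2, h2,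
        not_dvd_of_isCoprime (isCoprime_bc P) hq h2⟩)
  · exact Or.inr (Or.inr ⟨not_dvd_of_isCoprime (isCoprime_ac P).symm hq h1,
      not_dvd_of_isCoprime (isCoprime_bc P).symm hq h1, h1⟩)

theorem not_dvd_pow {q : ℕ} (hq : q.Prime) {x : ℤ} (hx : ¬ (q:ℤ) ∣ x) (n : ℕ) :
    ¬ (q:ℤ) ∣ x ^ n := fun h => hx ((Nat.prime_iff_prime_int.mp hq).dvd_of_dvd_pow h)

end Fermat.Agent.S05.FreyNT
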