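import Mathlib
import Fermat.Prelude.Def_FLTPrelim_Ramification

/-!
# Transport of points along an admissible change of variables

For a field `F`, Weierstrass curves `W W'` over `F` and a variable change `C` with
`W' = C • W`, the map `(x, y) ↦ (u² x + r, u³ y + u² s x + t)` is an additive equivalence
`W'.Point ≃+ W.Point`.  It commutes with field automorphisms fixing `u, r, s, t`.
-/

set_option autoImplicit false

namespace Fermat.Agent.S05.Transport

open WeierstrassCurve WeierstrassCurve.Affine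

section Generic

variable {F : Type*} [Field F]

/-- The `X`-coordinate of the image of `(x, y)` under the variable change `C`. -/
def vcX (C : VariableChange F) (x : F) : F := (C.u : F) ^ 2 * x + C.r

/-- The `Y`-coordinate of the image of `(x, y)` under the variable change `C`. -/
def vcY (C : VariableChange F) (x y : F) : F := (C.u : F) ^ 3 * y + (C.u : F) ^ 2 * C.s * x + C.t

variable (W : WeierstrassCurve F) (C : VariableChange F)

lemma u_ne_zero : (C.u : F) ≠ 0 := C.u.ne_zero

lemma vcX_injective : Function.Injective (vcX C) := by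
  intro x x' h
  have hu := u_ne_zero C
  unfold vcX at h
  have : (C.u : F) ^ 2 * x = (C.u : F) ^ 2 * x' := by linear_combination h
  exact mul_left_cancel₀ (pow_ne_zero 2 hu) this

lemma vcY_injective (x : F) : Function.Injective (vcY C x) := by
  intro y y' h
  have hu := u_ne_zero C
  unfold vcY at h
  have : (C.u : F) ^ 3 * y = (C.u : F) ^ 3 * y' := by linear_combination h
  exact mul_left_cancel₀ (pow_ne_zero 3 hu) this

lemma equation_sub (x y : F) :
    (vcY C x y ^ 2 + W.a₁ * vcX C x * vcY C x y + W.a₃ * vcY C x y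
      - (vcX C x ^ 3 + W.a₂ * vcX C x ^ 2 + W.a₄ * vcX C x + W.a₆)) =
    (C.u : F) ^ 6 * (y ^ 2 + (C • W).a₁ * x * y + (C • W).a₃ * y
      - (x ^ 3 + (C • W).a₂ * x ^ 2 + (C • W).a₄ * x + (C • W).a₆)) := by
  have hu := u_ne_zero C
  simp only [variableChange_a₁, variableChange_a₂, variableChange_a₃, variableChange_a₄,
    variableChange_a₆, Units.val_inv_eq_inv_val, vcX, vcY]
  field_simp
  ring

lemma equation_iff (x y : F) :
    (C • W).toAffine.Equation x y ↔ W.toAffine.Equation (vcX C x) (vcY C x y) := by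
  have hu := u_ne_zero C
  rw [Affine.equation_iff, Affine.equation_iff, ← sub_eq_zero, ← sub_eq_zero (b := _ + W.a₆),
    equation_sub, mul_eq_zero, or_iff_right (pow_ne_zero 6 hu)]

lemma polyY_eq (x y : F) :
    2 * vcY C x y + W.a₁ * vcX C x + W.a₃ =
      (C.u : F) ^ 3 * (2 * y + (C • W).a₁ * x + (C • W).a₃) := by
  have hu := u_ne_zero C
  simp only [variableChange_a₁, variableChange_a₃, Units.val_inv_eq_inv_val, vcX, vcY]
  field_simp
  ring

lemma polyX_eq (x y : F) :
    W.a₁ * vcY C x y - (3 * vcX C x ^ 2 + 2 * W.a₂ * vcX C x + W.a₄) =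
      (C.u : F) ^ 4 * ((C • W).a₁ * y - (3 * x ^ 2 + 2 * (C • W).a₂ * x + (C • W).a₄))
        - C.s * ((C.u : F) ^ 3 * (2 * y + (C • W).a₁ * x + (C • W).a₃)) := by
  have hu := u_ne_zero C
  simp only [variableChange_a₁, variableChange_a₂, variableChange_a₃, variableChange_a₄,
    Units.val_inv_eq_inv_val, vcX, vcY]
  field_simp
  ring

lemma nonsingular_iff (x y : F) :
    (C • W).toAffine.Nonsingular x y ↔ W.toAffine.Nonsingular (vcX C x) (vcY C x y) := by
  have hu := u_ne_zero C
  rw [Affine.nonsingular_iff', Affine.nonsingular_iff', equation_iff]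
  refine and_congr_right fun _ => ?_
  rw [polyX_eq, polyY_eq]
  set A := (C • W).a₁ * y - (3 * x ^ 2 + 2 * (C • W).a₂ * x + (C • W).a₄) with hA
  set B := 2 * y + (C • W).a₁ * x + (C • W).a₃ with hB
  have h3 : (C.u : F) ^ 3 ≠ 0 := pow_ne_zero 3 hu
  have h4 : (C.u : F) ^ 4 ≠ 0 := pow_ne_zero 4 hu
  constructor
  · rintro (h | h)
    · by_cases hB0 : B = 0
      · left
        rw [hB0]
        simpa using mul_ne_zero h4 h
      · right
        exact mul_ne_zero h3 hB0
    · right
      exact mul_ne_zero h3 h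
  · rintro (h | h)
    · by_cases hB0 : B = 0
      · left
        rw [hB0] at h
        intro hA0
        apply h
        rw [hA0]
        ring
      · right
        exact hB0
    · right
      intro hB0
      apply h
      rw [hB0]
      ring

lemma negY_eq (x y : F) :
    W.toAffine.negY (vcX C x) (vcY C x y) = vcY C x ((C • W).toAffine.negY x y) := by
  have hu := u_ne_zero C
  simp only [Affine.negY, variableChange_a₁, variableChange_a₃, Units.val_inv_eq_inv_val, vcX, vcY]
  field_simp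
  ring

section
variable [DecidableEq F]

lemma slope_eq {x₁ x₂ y₁ y₂ : F} (h₁ : (C • W).toAffine.Equation x₁ y₁)
    (h₂ : (C • W).toAffine.Equation x₂ y₂)
    (hxy : ¬(x₁ = x₂ ∧ y₁ = (C • W).toAffine.negY x₂ y₂)) :
    W.toAffine.slope (vcX C x₁) (vcX C x₂) (vcY C x₁ y₁) (vcY C x₂ y₂) =
      (C.u : F) * (C • W).toAffine.slope x₁ x₂ y₁ y₂ + C.s := by
  have hu := u_ne_zero C
  by_cases hx : x₁ = x₂
  · subst hx
    have hy : y₁ ≠ (C • W).toAffine.negY x₁ y₂ := fun h => hxy ⟨rfl, h⟩
    have hyy : y₁ = y₂ := Affine.Y_eq_of_Y_ne h₁ h₂ rfl hy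
    subst hyy
    have hy' : vcY C x₁ y₁ ≠ W.toAffine.negY (vcX C x₁) (vcY C x₁ y₁) := by
      rw [negY_eq]
      exact fun h => hy (vcY_injective C x₁ h)
    rw [Affine.slope_of_Y_ne rfl hy, Affine.slope_of_Y_ne rfl hy']
    have hd : y₁ - (C • W).toAffine.negY x₁ y₁ ≠ 0 := sub_ne_zero.mpr hy
    have hd' : vcY C x₁ y₁ - W.toAffine.negY (vcX C x₁) (vcY C x₁ y₁) ≠ 0 := sub_ne_zero.mpr hy'
    have e1 : vcY C x₁ y₁ - W.toAffine.negY (vcX C x₁) (vcY C x₁ y₁) =
        (C.u : F) ^ 3 * (y₁ - (C • W).toAffine.negY x₁ y₁) := by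
      have := polyY_eq W C x₁ y₁
      simp only [Affine.negY] at this ⊢
      linear_combination this
    have e2 : 3 * vcX C x₁ ^ 2 + 2 * W.a₂ * vcX C x₁ + W.a₄ - W.a₁ * vcY C x₁ y₁ =
        (C.u : F) ^ 4 * (3 * x₁ ^ 2 + 2 * (C • W).a₂ * x₁ + (C • W).a₄ - (C • W).a₁ * y₁)
          + C.s * ((C.u : F) ^ 3 * (y₁ - (C • W).toAffine.negY x₁ y₁)) := by
      have := polyX_eq W C x₁ y₁
      simp only [Affine.negY] at this ⊢
      linear_combination -this
    rw [div_eq_iff hd', e1]
    change 3 * vcX C x₁ ^ 2 + 2 * W.a₂ * vcX C x₁ + W.a₄ - W.a₁ * vcY C x₁ y₁ = _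
    rw [e2]
    field_simp
  · have hx' : vcX C x₁ ≠ vcX C x₂ := fun h => hx (vcX_injective C h)
    rw [Affine.slope_of_X_ne hx, Affine.slope_of_X_ne hx']
    have h1 : x₁ - x₂ ≠ 0 := sub_ne_zero.mpr hx
    have h2 : vcX C x₁ - vcX C x₂ ≠ 0 := sub_ne_zero.mpr hx'
    rw [div_eq_iff h2]
    unfold vcX vcY
    field_simp
    ring

end

lemma addX_eq (x₁ x₂ ℓ : F) :
    W.toAffine.addX (vcX C x₁) (vcX C x₂) ((C.u : F) * ℓ + C.s) =
      vcX C ((C • W).toAffine.addX x₁ x₂ ℓ) := by
  have hu := u_ne_zero C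
  simp only [Affine.addX, variableChange_a₁, variableChange_a₂, Units.val_inv_eq_inv_val, vcX]
  field_simp
  ring

lemma negAddY_eq (x₁ x₂ y₁ ℓ : F) :
    W.toAffine.negAddY (vcX C x₁) (vcX C x₂) (vcY C x₁ y₁) ((C.u : F) * ℓ + C.s) =
      vcY C ((C • W).toAffine.addX x₁ x₂ ℓ) ((C • W).toAffine.negAddY x₁ x₂ y₁ ℓ) := by
  have hu := u_ne_zero C
  rw [Affine.negAddY, addX_eq, Affine.negAddY]
  simp only [vcX, vcY]
  ring

lemma addY_eq (x₁ x₂ y₁ ℓ : F) :
    W.toAffine.addY (vcX C x₁) (vcX C x₂) (vcY C x₁ y₁) ((C.u : F) * ℓ + C.s) =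
      vcY C ((C • W).toAffine.addX x₁ x₂ ℓ) ((C • W).toAffine.addY x₁ x₂ y₁ ℓ) := by
  rw [Affine.addY, negAddY_eq, addX_eq, negY_eq, Affine.addY]

/-- The map on points induced by a variable change. -/
def pointFun : (C • W).toAffine.Point → W.toAffine.Point
  | .zero => 0
  | .some x y h => .some (vcX C x) (vcY C x y) ((nonsingular_iff W C x y).mp h)

@[simp] lemma pointFun_zero : pointFun W C 0 = 0 := rfl

@[simp] lemma pointFun_some {x y : F} (h : (C • W).toAffine.Nonsingular x y) :
    pointFun W C (.some x y h) = .some (vcX C x) (vcY C x y) ((nonsingular_iff W C x y).mp h) :=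
  rfl

variable [DecidableEq F]

lemma pointFun_add (P Q : (C • W).toAffine.Point) :
    pointFun W C (P + Q) = pointFun W C P + pointFun W C Q := by
  rcases P with _ | ⟨x₁, y₁, h₁⟩
  · simp [← Affine.Point.zero_def]
  rcases Q with _ | ⟨x₂, y₂, h₂⟩
  · simp [← Affine.Point.zero_def]
  by_cases hxy : x₁ = x₂ ∧ y₁ = (C • W).toAffine.negY x₂ y₂
  · obtain ⟨hx, hy⟩ := hxy
    subst hx
    rw [Affine.Point.add_of_Y_eq rfl hy, pointFun_zero, pointFun_some, pointFun_some,
      Affine.Point.add_of_Y_eq rfl (by rw [negY_eq, hy])]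
  · have hxy' : ¬(vcX C x₁ = vcX C x₂ ∧
        vcY C x₁ y₁ = W.toAffine.negY (vcX C x₂) (vcY C x₂ y₂)) := by
      rintro ⟨hx, hy⟩
      have hx' := vcX_injective C hx
      subst hx'
      rw [negY_eq] at hy
      exact hxy ⟨rfl, vcY_injective C _ hy⟩
    rw [Affine.Point.add_some hxy, pointFun_some, pointFun_some, pointFun_some,
      Affine.Point.add_some hxy']
    simp only [slope_eq W C h₁.1 h₂.1 hxy, addX_eq, addY_eq]

/-- The additive homomorphism on points induced by a variable change. -/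
def pointHom : (C • W).toAffine.Point →+ W.toAffine.Point where
  toFun := pointFun W C
  map_zero' := rfl
  map_add' := pointFun_add W C

omit [DecidableEq F] in
lemma pointFun_injective : Function.Injective (pointFun W C) := by
  rintro (_ | ⟨x₁, y₁, h₁⟩) (_ | ⟨x₂, y₂, h₂⟩) h
  · rfl
  · exact absurd h.symm (Affine.Point.some_ne_zero _)
  · exact absurd h (Affine.Point.some_ne_zero _)
  · rw [pointFun_some, pointFun_some, Affine.Point.some.injEq] at h
    obtain ⟨hx, hy⟩ := h
    have hx' := vcX_injective C hx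
    subst hx'
    have hy' := vcY_injective C _ hy
    subst hy'
    rfl

omit [DecidableEq F] in
lemma pointFun_surjective : Function.Surjective (pointFun W C) := by
  have hu := u_ne_zero C
  rintro (_ | ⟨X, Y, h⟩)
  · exact ⟨0, rfl⟩
  · set x : F := (X - C.r) / (C.u : F) ^ 2 with hx
    set y : F := (Y - (C.u : F) ^ 2 * C.s * x - C.t) / (C.u : F) ^ 3 with hy
    have hX : vcX C x = X := by
      rw [hx]; unfold vcX; field_simp; ring
    have hY : vcY C x y = Y := by
      rw [hy]; unfold vcY; field_simp; ring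
    have hns : (C • W).toAffine.Nonsingular x y := by
      rw [nonsingular_iff, hX, hY]; exact h
    refine ⟨.some x y hns, ?_⟩
    rw [pointFun_some]
    congr 1

/-- The additive equivalence on points induced by a variable change. -/
noncomputable def pointEquiv : (C • W).toAffine.Point ≃+ W.toAffine.Point :=
  AddEquiv.ofBijective (pointHom W C) ⟨pointFun_injective W C, pointFun_surjective W C⟩

@[simp] lemma pointEquiv_zero' : pointEquiv W C .zero = 0 := rfl

@[simp] lemma pointEquiv_some {x y : F} (h : (C • W).toAffine.Nonsingular x y) :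
    pointEquiv W C (.some x y h) =
      .some (vcX C x) (vcY C x y) ((nonsingular_iff W C x y).mp h) :=
  rfl

end Generic

section Congr

variable {F : Type*} [Field F] [DecidableEq F]

/-- Transport of points along an equality of curves. -/
def pointCongr {W₁ W₂ : WeierstrassCurve F} (h : W₁ = W₂) :
    W₁.toAffine.Point ≃+ W₂.toAffine.Point := by
  subst h
  exact AddEquiv.refl _

lemma pointCongr_zero {W₁ W₂ : WeierstrassCurve F} (h : W₁ = W₂) :
    pointCongr h (.zero : W₁.toAffine.Point) = .zero := by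
  subst h
  rfl

lemma pointCongr_some {W₁ W₂ : WeierstrassCurve F} (h : W₁ = W₂) {x y : F}
    (hns : W₁.toAffine.Nonsingular x y) :
    pointCongr h (.some x y hns) = .some x y (h ▸ hns) := by
  subst h
  rfl

end Congr

section BaseChange

variable {R : Type*} {S : Type*} {K : Type*} [CommRing R] [Field S] [Field K] [DecidableEq K]
  [Algebra R S] [Algebra R K] [Algebra S K] [IsScalarTower R S K]

variable (W₀ : WeierstrassCurve R) (C₀ : VariableChange R)

omit [DecidableEq K] in
variable (K) in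
lemma baseChange_smul :
    (C₀ • W₀).baseChange K = (C₀.baseChange K) • (W₀.baseChange K) :=
  (map_variableChange W₀ C₀ (algebraMap R K)).symm

variable (K) in
/-- The additive equivalence between the `K`-points of `C₀ • W₀` and of `W₀`. -/
noncomputable def baseChangeEquiv :
    ((C₀ • W₀).toAffine⁄K).Point ≃+ (W₀.toAffine⁄K).Point :=
  (pointCongr (baseChange_smul K W₀ C₀)).trans (pointEquiv (W₀.baseChange K) (C₀.baseChange K))

lemma baseChangeEquiv_zero : baseChangeEquiv K W₀ C₀ .zero = .zero := by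
  unfold baseChangeEquiv
  rw [AddEquiv.trans_apply, pointCongr_zero]
  rfl

lemma baseChangeEquiv_some {x y : K} (h : ((C₀ • W₀).toAffine⁄K).Nonsingular x y) :
    ∃ h', baseChangeEquiv K W₀ C₀ (.some x y h) =
      .some (vcX (C₀.baseChange K) x) (vcY (C₀.baseChange K) x y) h' := by
  unfold baseChangeEquiv
  rw [AddEquiv.trans_apply, pointCongr_some, pointEquiv_some]
  exact ⟨_, rfl⟩

omit [DecidableEq K] in
lemma algEquiv_vcX (σ : K ≃ₐ[S] K) (x : K) :
    σ (vcX (C₀.baseChange K) x) = vcX (C₀.baseChange K) (σ x) := by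
  have h : ∀ c : R, σ (algebraMap R K c) = algebraMap R K c := fun c => by
    rw [IsScalarTower.algebraMap_apply R S K, σ.commutes]
  simp only [vcX, VariableChange.baseChange, VariableChange.map, Units.coe_map, MonoidHom.coe_coe,
    map_add, map_mul, map_pow, h]

omit [DecidableEq K] in
lemma algEquiv_vcY (σ : K ≃ₐ[S] K) (x y : K) :
    σ (vcY (C₀.baseChange K) x y) = vcY (C₀.baseChange K) (σ x) (σ y) := by
  have h : ∀ c : R, σ (algebraMap R K c) = algebraMap R K c := fun c => by
    rw [IsScalarTower.algebraMap_apply R S K, σ.commutes]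
  simp only [vcY, VariableChange.baseChange, VariableChange.map, Units.coe_map, MonoidHom.coe_coe,
    map_add, map_mul, map_pow, h]

/-- The transport equivalence commutes with the Galois action. -/
lemma baseChangeEquiv_smul (σ : K ≃ₐ[S] K) (P : ((C₀ • W₀).toAffine⁄K).Point) :
    baseChangeEquiv K W₀ C₀ (σ • P) = σ • baseChangeEquiv K W₀ C₀ P := by
  rcases P with _ | ⟨x, y, h⟩
  · have h0 : σ • (Affine.Point.zero : ((C₀ • W₀).toAffine⁄K).Point) = .zero := rfl
    rw [h0, baseChangeEquiv_zero]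
    rfl
  · obtain ⟨h', e⟩ := baseChangeEquiv_some W₀ C₀ h
    rw [e, WeierstrassCurve.Affine.Point.algEquiv_smul_def,
      WeierstrassCurve.Affine.Point.algEquiv_smul_def, Affine.Point.map_some, Affine.Point.map_some]
    obtain ⟨h'', e'⟩ := baseChangeEquiv_some W₀ C₀
      ((Affine.baseChange_nonsingular (W := (C₀ • W₀).toAffine) σ.toAlgHom.injective x y).mpr h)
    rw [e']
    simp only [Affine.Point.some.injEq]
    exact ⟨(algEquiv_vcX C₀ σ x).symm, (algEquiv_vcY C₀ σ x y).symm⟩

/-- Unramifiedness transfers along a variable change defined over the base ring. -/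
theorem galoisRepUnramifiedAt_of_smul (n q : ℕ)
    (h : WeierstrassCurve.Affine.Point.GaloisRepUnramifiedAt S K (C₀ • W₀).toAffine n q) :
    WeierstrassCurve.Affine.Point.GaloisRepUnramifiedAt S K W₀.toAffine n q := by
  intro A hA σ hσ x
  set e := baseChangeEquiv K W₀ C₀ with he
  have hmem : e.symm (x : (W₀.toAffine⁄K).Point) ∈
      Submodule.torsionBy ℤ ((C₀ • W₀).toAffine⁄K).Point n := by
    rw [Submodule.mem_torsionBy_iff]
    have hx := x.property
    rw [Submodule.mem_torsionBy_iff] at hx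
    rw [← map_zsmul, hx, map_zero]
  have key := h A hA σ hσ ⟨e.symm x, hmem⟩
  have key' : σ • e.symm (x : (W₀.toAffine⁄K).Point) = e.symm x := congrArg Subtype.val key
  apply Subtype.ext
  change σ • (x : (W₀.toAffine⁄K).Point) = x
  have := congrArg e key'
  rw [he, baseChangeEquiv_smul, ← he, AddEquiv.apply_symm_apply] at this
  exact this

/-- Convenient form: if `W₁ = C₀ • W₀` then unramifiedness of `W₁` gives that of `W₀`. -/
theorem galoisRepUnramifiedAt_of_eq_smul {W₁ : WeierstrassCurve R} (hW : W₁ = C₀ • W₀) (n q : ℕ)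
    (h : WeierstrassCurve.Affine.Point.GaloisRepUnramifiedAt S K W₁.toAffine n q) :
    WeierstrassCurve.Affine.Point.GaloisRepUnramifiedAt S K W₀.toAffine n q := by
  subst hW
  exact galoisRepUnramifiedAt_of_smul W₀ C₀ n q h

end BaseChange

section Frey

/-- The Legendre-type model `y² = x (x - α) (x + β)` over `ℚ`. -/
def legendre (α β : ℚ) : WeierstrassCurve ℚ where
  a₁ := 0
  a₂ := β - α
  a₃ := 0
  a₄ := -(α * β)
  a₆ := 0

/-- The variable change `x = (X + t₀) / 4`, `y = (Y - X - t₀) / 8`. -/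
def freyChange (t₀ : ℚ) : VariableChange ℚ where
  u := Units.mk0 (1 / 2) (by norm_num)
  r := t₀ / 4
  s := -1 / 2
  t := -t₀ / 8

/-- The Frey curve becomes `Y² = (X + t₀)(X + t₀ - aᵖ)(X + t₀ + bᵖ)` after `freyChange t₀`. -/
lemma freyChange_smul (P : FreyPackage) (t₀ : ℚ) :
    freyChange t₀ • P.freyCurve =
      { a₁ := 0
        a₂ := (P.b : ℚ) ^ P.p - (P.a : ℚ) ^ P.p + 3 * t₀
        a₃ := 0
        a₄ := -((P.a : ℚ) ^ P.p * (P.b : ℚ) ^ P.p) + 2 * t₀ * ((P.b : ℚ) ^ P.p - (P.a : ℚ) ^ P.p)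
          + 3 * t₀ ^ 2
        a₆ := t₀ * (t₀ - (P.a : ℚ) ^ P.p) * (t₀ + (P.b : ℚ) ^ P.p) } := by
  simp only [variableChange_def, freyChange, FreyPackage.freyCurve, Units.val_inv_eq_inv_val,
    Units.val_mk0]
  ext <;> simp only <;> ring

/-- Case `t₀ = 0`: `(α, β) = (aᵖ, bᵖ)`. -/
lemma freyChange_zero (P : FreyPackage) :
    legendre ((P.a : ℚ) ^ P.p) ((P.b : ℚ) ^ P.p) = freyChange 0 • P.freyCurve := by
  rw [freyChange_smul, legendre]
  ext <;> simp only <;> ring

/-- Case `t₀ = aᵖ`: `(α, β) = (-cᵖ, aᵖ)`. -/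
lemma freyChange_a (P : FreyPackage) :
    legendre (-(P.c : ℚ) ^ P.p) ((P.a : ℚ) ^ P.p) = freyChange ((P.a : ℚ) ^ P.p) • P.freyCurve := by
  have hFLT : (P.a : ℚ) ^ P.p + (P.b : ℚ) ^ P.p = (P.c : ℚ) ^ P.p := by
    exact_mod_cast congrArg (Int.cast : ℤ → ℚ) P.hFLT
  rw [freyChange_smul, legendre, ← hFLT]
  ext <;> simp only <;> ring

/-- Case `t₀ = -bᵖ`: `(α, β) = (bᵖ, -cᵖ)`. -/
lemma freyChange_b (P : FreyPackage) :
    legendre ((P.b : ℚ) ^ P.p) (-(P.c : ℚ) ^ P.p) = freyChange (-(P.b : ℚ) ^ P.p) • P.freyCurve := by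
  have hFLT : (P.a : ℚ) ^ P.p + (P.b : ℚ) ^ P.p = (P.c : ℚ) ^ P.p := by
    exact_mod_cast congrArg (Int.cast : ℤ → ℚ) P.hFLT
  rw [freyChange_smul, legendre, ← hFLT]
  ext <;> simp only <;> ring

end Frey

end Fermat.Agent.S05.Transport
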