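import Mathlib
import Fermat.Prelude.Def_FLTPrelim_Ramification
import Fermat.Agent.S05.Transport

/-!
# Reduction of S05 to a local statement about Legendre-type curves

`P.GaloisRepUnramifiedAt q` follows from the statement that for integers `α β` with
`q ∤ α`, `q ∤ α + β`, `β ≠ 0` and `p ∣ v_q(β)`, the mod-`p` representation of
`y² = x (x - α) (x + β)` is unramified at `q`.
-/

set_option autoImplicit false

namespace Fermat.Agent.S05.FreyReduce

open WeierstrassCurve Fermat.Agent.S05.Transport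

/-- The local target statement on the Legendre-type curve `y² = x (x - α) (x + β)`. -/
def LegendreUnramified (p q : ℕ) : Prop :=
  ∀ α β : ℤ, β ≠ 0 → ¬ (q : ℤ) ∣ α → ¬ (q : ℤ) ∣ α + β → p ∣ padicValInt q β →
    WeierstrassCurve.Affine.Point.GaloisRepUnramifiedAt (K := AlgebraicClosure ℚ) ℚ
      (legendre (α : ℚ) (β : ℚ)).toAffine p q

lemma padicValInt_pow (q : ℕ) [Fact q.Prime] (z : ℤ) (n : ℕ) :
    padicValInt q (z ^ n) = n * padicValInt q z := by
  unfold padicValInt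
  rw [Int.natAbs_pow, padicValNat.pow]

lemma padicValInt_neg (q : ℕ) (z : ℤ) : padicValInt q (-z) = padicValInt q z := by
  unfold padicValInt
  rw [Int.natAbs_neg]

lemma not_dvd_of_gcd_eq_one {q : ℕ} (hq : q.Prime) {x y : ℤ} (h : gcd x y = 1)
    (hx : (q : ℤ) ∣ x) : ¬ (q : ℤ) ∣ y := by
  intro hy
  have hd : (q : ℤ) ∣ gcd x y := dvd_gcd hx hy
  rw [h] at hd
  have := Int.eq_one_of_dvd_one (by positivity) hd
  have h1 : q = 1 := by exact_mod_cast this
  exact hq.one_lt.ne' h1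

lemma prime_dvd_of_dvd_pow {q : ℕ} (hq : q.Prime) {x : ℤ} {n : ℕ} (h : (q : ℤ) ∣ x ^ n) :
    (q : ℤ) ∣ x :=
  (Nat.prime_iff_prime_int.mp hq).dvd_of_dvd_pow h

theorem freyUnramified_of_legendre (P : FreyPackage) {q : ℕ} (hq : q.Prime)
    (H : LegendreUnramified P.p q) : P.GaloisRepUnramifiedAt q := by
  have : Fact q.Prime := ⟨hq⟩
  unfold FreyPackage.GaloisRepUnramifiedAt
  have hap : P.a ^ P.p ≠ 0 := pow_ne_zero _ P.ha0
  have hbp : P.b ^ P.p ≠ 0 := pow_ne_zero _ P.hb0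
  have hcp : P.c ^ P.p ≠ 0 := pow_ne_zero _ P.hc0
  have hab := P.hgcdab
  have hac := P.hgcdac
  have hbc := P.hgcdbc
  have hba : gcd P.b P.a = 1 := by rw [gcd_comm]; exact hab
  have hca : gcd P.c P.a = 1 := by rw [gcd_comm]; exact hac
  have hcb : gcd P.c P.b = 1 := by rw [gcd_comm]; exact hbc
  by_cases hqa : (q : ℤ) ∣ P.a
  · -- case q ∣ a : (α, β) = (-c^p, a^p)
    have hqb : ¬ (q : ℤ) ∣ P.b := not_dvd_of_gcd_eq_one hq hab hqa
    have hqc : ¬ (q : ℤ) ∣ P.c := not_dvd_of_gcd_eq_one hq hac hqa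
    have h := H (-(P.c ^ P.p)) (P.a ^ P.p) hap
      (by rw [dvd_neg]; exact fun h => hqc (prime_dvd_of_dvd_pow hq h))
      (by
        have : -(P.c ^ P.p) + P.a ^ P.p = -(P.b ^ P.p) := by linear_combination P.hFLT
        rw [this, dvd_neg]
        exact fun h => hqb (prime_dvd_of_dvd_pow hq h))
      (by rw [padicValInt_pow]; exact dvd_mul_right _ _)
    refine galoisRepUnramifiedAt_of_eq_smul (S := ℚ) (K := AlgebraicClosure ℚ) P.freyCurve
      (freyChange ((P.a : ℚ) ^ P.p)) (W₁ := legendre (-(P.c : ℚ) ^ P.p) ((P.a : ℚ) ^ P.p))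
      (freyChange_a P) P.p q ?_
    have e1 : ((-(P.c ^ P.p) : ℤ) : ℚ) = -(P.c : ℚ) ^ P.p := by push_cast; ring
    have e2 : ((P.a ^ P.p : ℤ) : ℚ) = (P.a : ℚ) ^ P.p := by push_cast; ring
    rw [e1, e2] at h
    exact h
  by_cases hqc : (q : ℤ) ∣ P.c
  · -- case q ∣ c : (α, β) = (b^p, -c^p)
    have hqb : ¬ (q : ℤ) ∣ P.b := not_dvd_of_gcd_eq_one hq hcb hqc
    have h := H (P.b ^ P.p) (-(P.c ^ P.p)) (neg_ne_zero.mpr hcp)
      (fun h => hqb (prime_dvd_of_dvd_pow hq h))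
      (by
        have : P.b ^ P.p + -(P.c ^ P.p) = -(P.a ^ P.p) := by linear_combination P.hFLT
        rw [this, dvd_neg]
        exact fun h => hqa (prime_dvd_of_dvd_pow hq h))
      (by rw [padicValInt_neg, padicValInt_pow]; exact dvd_mul_right _ _)
    refine galoisRepUnramifiedAt_of_eq_smul (S := ℚ) (K := AlgebraicClosure ℚ) P.freyCurve
      (freyChange (-(P.b : ℚ) ^ P.p)) (W₁ := legendre ((P.b : ℚ) ^ P.p) (-(P.c : ℚ) ^ P.p))
      (freyChange_b P) P.p q ?_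
    have e1 : ((-(P.c ^ P.p) : ℤ) : ℚ) = -(P.c : ℚ) ^ P.p := by push_cast; ring
    have e2 : ((P.b ^ P.p : ℤ) : ℚ) = (P.b : ℚ) ^ P.p := by push_cast; ring
    rw [e1, e2] at h
    exact h
  · -- case q ∤ a, q ∤ c : (α, β) = (a^p, b^p)
    have h := H (P.a ^ P.p) (P.b ^ P.p) hbp
      (fun h => hqa (prime_dvd_of_dvd_pow hq h))
      (by
        rw [P.hFLT]
        exact fun h => hqc (prime_dvd_of_dvd_pow hq h))
      (by rw [padicValInt_pow]; exact dvd_mul_right _ _)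
    refine galoisRepUnramifiedAt_of_eq_smul (S := ℚ) (K := AlgebraicClosure ℚ) P.freyCurve
      (freyChange 0) (W₁ := legendre ((P.a : ℚ) ^ P.p) ((P.b : ℚ) ^ P.p))
      (freyChange_zero P) P.p q ?_
    have e1 : ((P.a ^ P.p : ℤ) : ℚ) = (P.a : ℚ) ^ P.p := by push_cast; ring
    have e2 : ((P.b ^ P.p : ℤ) : ℚ) = (P.b : ℚ) ^ P.p := by push_cast; ring
    rw [e1, e2] at h
    exact h

end Fermat.Agent.S05.FreyReduce
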