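import Fermat.Agent.S05.Congruence
import Fermat.Agent.S05.Formal

/-!
# S05 (G1): the kernel of reduction `InE1 A` is a subgroup without `n`-torsion (`n` a unit)

Wrapper around `Formal.lean` for the predicate `InE1 A` of `Congruence.lean`.
-/

set_option autoImplicit false
set_option linter.unusedSectionVars false

namespace Fermat.Agent.S05.KernelE1

open Fermat.Agent.S05

open WeierstrassCurve WeierstrassCurve.Affine
open Fermat.Agent.S51 (xc)

variable {K : Type*} [Field K] [DecidableEq K] (A : ValuationSubring K)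
  {W : WeierstrassCurve.Affine K}

/-- `InE1 A P` iff `P` lies in the subgroup `E1` of `Formal.lean`. -/
theorem inE1_iff_mem_E1 (hW : IntegralB A.valuation W) (P : W.Point) :
    InE1 A P ↔ P ∈ E1 hW := by
  rw [mem_E1_iff' A hW]
  cases P with
  | zero => exact ⟨fun _ => Or.inl rfl, fun _ => trivial⟩
  | some x y h =>
    constructor
    · intro hx
      exact Or.inr hx
    · rintro (h0 | hx)
      · exact absurd h0 (Point.some_ne_zero h)
      · exact hx

theorem inE1_zero : InE1 A (0 : W.Point) := trivial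

theorem inE1_neg_of_integralB (hW : IntegralB A.valuation W) {P : W.Point} (hP : InE1 A P) :
    InE1 A (-P) := by
  rw [inE1_iff_mem_E1 A hW] at hP ⊢
  exact neg_mem hP

theorem inE1_add_of_integralB (hW : IntegralB A.valuation W) {P Q : W.Point} (hP : InE1 A P)
    (hQ : InE1 A Q) : InE1 A (P + Q) := by
  rw [inE1_iff_mem_E1 A hW] at hP hQ ⊢
  exact add_mem hP hQ

theorem inE1_sub_of_integralB (hW : IntegralB A.valuation W) {P Q : W.Point} (hP : InE1 A P)
    (hQ : InE1 A Q) : InE1 A (P - Q) := by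
  rw [inE1_iff_mem_E1 A hW] at hP hQ ⊢
  exact sub_mem hP hQ

theorem eq_zero_of_inE1_of_nsmul_of_integralB (hW : IntegralB A.valuation W) (n : ℕ)
    (hn : A.valuation (n : K) = 1) {P : W.Point} (hP : InE1 A P) (h : n • P = 0) : P = 0 := by
  rw [inE1_iff_mem_E1 A hW] at hP
  exact E1_torsion_free hW hn hP h

/-- integer-multiple version -/
theorem eq_zero_of_inE1_of_zsmul_of_integralB (hW : IntegralB A.valuation W) (n : ℕ)
    (hn : A.valuation (n : K) = 1) {P : W.Point} (hP : InE1 A P) (h : (n : ℤ) • P = 0) :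
    P = 0 := by
  rw [natCast_zsmul] at h
  exact eq_zero_of_inE1_of_nsmul_of_integralB A hW n hn hP h

/-! ### Versions with integral `a`-coefficients -/

section coeffs

variable (ha₁ : W.a₁ ∈ A) (ha₂ : W.a₂ ∈ A) (ha₃ : W.a₃ ∈ A) (ha₄ : W.a₄ ∈ A) (ha₆ : W.a₆ ∈ A)
  (h2 : A.valuation (2 : K) = 1)

include ha₁ ha₂ ha₃ ha₄ ha₆ h2

/-- (G1a) `E1` is closed under subtraction. -/
theorem inE1_sub {P Q : W.Point} (hP : InE1 A P) (hQ : InE1 A Q) : InE1 A (P - Q) :=
  inE1_sub_of_integralB A (IntegralB.of_coeffs A ha₁ ha₂ ha₃ ha₄ ha₆ h2) hP hQ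

theorem inE1_add {P Q : W.Point} (hP : InE1 A P) (hQ : InE1 A Q) : InE1 A (P + Q) :=
  inE1_add_of_integralB A (IntegralB.of_coeffs A ha₁ ha₂ ha₃ ha₄ ha₆ h2) hP hQ

theorem inE1_neg {P : W.Point} (hP : InE1 A P) : InE1 A (-P) :=
  inE1_neg_of_integralB A (IntegralB.of_coeffs A ha₁ ha₂ ha₃ ha₄ ha₆ h2) hP

/-- (G1b) `E1` has no `n`-torsion for `n` a unit of `A`. -/
theorem eq_zero_of_inE1_of_nsmul (n : ℕ) (hn : A.valuation (n : K) = 1) {P : W.Point}
    (hP : InE1 A P) (h : n • P = 0) : P = 0 :=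
  eq_zero_of_inE1_of_nsmul_of_integralB A (IntegralB.of_coeffs A ha₁ ha₂ ha₃ ha₄ ha₆ h2) n hn hP h

theorem eq_zero_of_inE1_of_zsmul (n : ℕ) (hn : A.valuation (n : K) = 1) {P : W.Point}
    (hP : InE1 A P) (h : (n : ℤ) • P = 0) : P = 0 :=
  eq_zero_of_inE1_of_zsmul_of_integralB A (IntegralB.of_coeffs A ha₁ ha₂ ha₃ ha₄ ha₆ h2) n hn hP h

end coeffs

end Fermat.Agent.S05.KernelE1
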