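import Fermat.Agent.S05.Interface
import Fermat.Agent.S05.Wiring

/-!
# S05: glue between the local "core" theorems and `LegendreLocalHyp`

`Wiring.lean` reduces S05 to `LegendreLocalHyp`.  The analytic heart is stated (plan v1, chunk H,
`Core.lean`) as two pointwise theorems `core_good` and `core_mult` on a Legendre-type curve over
`ℚ`, base changed to a valued field.  This file derives `LegendreLocalHyp` from the *statements* of
those two theorems (specialised to `K = AlgebraicClosure ℚ`), taken as hypotheses, so that it is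
independent of the proofs of the core.
-/

set_option autoImplicit false

namespace Fermat.Agent.S05

open WeierstrassCurve WeierstrassCurve.Affine WeierstrassCurve.Affine.Point Transport

/-- A ring endomorphism acting trivially on the residue field of `A` (local copy of the plan-v1
notion `IsInertialFor`, so that this file does not depend on `Defs.lean`). -/
def LegLocalInertial (A : ValuationSubring Qbar) (τ : Qbar →+* Qbar) : Prop :=
  ∀ x, A.valuation x ≤ 1 → A.valuation (τ x - x) < 1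

/-- An element of the inertia subgroup is inertial in the above sense. -/
theorem legLocal_isInertialFor {A : ValuationSubring Qbar} {σ : GalQ}
    (hσ : σ ∈ A.inertiaSubgroupIn ℚ) :
    LegLocalInertial A ((σ : Qbar ≃ₐ[ℚ] Qbar) : Qbar →+* Qbar) := by
  intro x hx
  have hxA : x ∈ A := (A.valuation_le_one_iff x).mp hx
  have h := inertia_sub_mem_nonunits hσ hxA
  exact (A.mem_nonunits_iff).mp h

/-- The statement of `core_good` (plan v1) for `K = Qbar`. -/
def CoreGoodStmt : Prop :=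
  ∀ (A : ValuationSubring Qbar) (σ : GalQ),
    LegLocalInertial A ((σ : Qbar ≃ₐ[ℚ] Qbar) : Qbar →+* Qbar) →
    ∀ (W' : WeierstrassCurve ℚ), W'.a₁ = 0 → W'.a₃ = 0 → W'.a₆ = 0 →
    A.valuation (2 : Qbar) = 1 →
    A.valuation (algebraMap ℚ Qbar W'.a₂) ≤ 1 → A.valuation (algebraMap ℚ Qbar W'.a₄) ≤ 1 →
    A.valuation (algebraMap ℚ Qbar (W'.a₄ ^ 2 * (W'.a₂ ^ 2 - 4 * W'.a₄))) = 1 →
    ∀ (p : ℕ), A.valuation (p : Qbar) = 1 →
    ∀ (T : (W'⁄Qbar).Point), p • T = 0 → σ • T = T

/-- The statement of `core_mult` (plan v1) for `K = Qbar`. -/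
def CoreMultStmt : Prop :=
  ∀ (A : ValuationSubring Qbar) (σ : GalQ),
    LegLocalInertial A ((σ : Qbar ≃ₐ[ℚ] Qbar) : Qbar →+* Qbar) →
    ∀ (W' : WeierstrassCurve ℚ), W'.a₁ = 0 → W'.a₃ = 0 → W'.a₆ = 0 →
    A.valuation (2 : Qbar) = 1 →
    A.valuation (algebraMap ℚ Qbar W'.a₂) = 1 →
    ∀ (u d : ℚ) (p : ℕ), 3 ≤ p → A.valuation (p : Qbar) = 1 →
    W'.a₄ = u * d ^ p → A.valuation (algebraMap ℚ Qbar u) = 1 →
    A.valuation (algebraMap ℚ Qbar d) < 1 → d ≠ 0 →
    ∀ (T : (W'⁄Qbar).Point), p • T = 0 → σ • T = T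

theorem legLocal_algebraMap_intCast (n : ℤ) :
    algebraMap ℚ Qbar ((n : ℤ) : ℚ) = ((n : ℤ) : Qbar) := by
  simp

theorem legendreLocalHyp_of_core (hgood : CoreGoodStmt) (hmult : CoreMultStmt) :
    LegendreLocalHyp := by
  intro p q α β t hp hp5 hq hq2 hqp hα hαβ hα0 hβ0 hαβ0 hβt
  unfold LegendreLocal
  refine unramifiedAt_of_pointwise (legendre (α : ℚ) (β : ℚ)) p q ?_
  intro A hA s hs T hT
  have hT' : p • T = 0 := by
    rw [← hT]; exact (natCast_zsmul T p).symm
  have hσ := legLocal_isInertialFor hs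
  have hqi : Prime (q : ℤ) := Nat.prime_iff_prime_int.mp hq
  have h2 : A.valuation (2 : Qbar) = 1 := valuation_two_eq_one hq hA hq2
  have hpA : A.valuation (p : Qbar) = 1 := valuation_prime_eq_one hq hA hp hqp
  have ha₂ : algebraMap ℚ Qbar (legendre (α : ℚ) (β : ℚ)).a₂ = ((β - α : ℤ) : Qbar) := by
    simp [legendre]
  have ha₄ : algebraMap ℚ Qbar (legendre (α : ℚ) (β : ℚ)).a₄ = ((-(α * β) : ℤ) : Qbar) := by
    simp [legendre]
  by_cases hqβ : (q : ℤ) ∣ β
  · -- multiplicative reduction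
    have hqt : (q : ℤ) ∣ t := by
      rcases hβt with h | h
      · rw [h] at hqβ; exact hqi.dvd_of_dvd_pow hqβ
      · rw [h, dvd_neg] at hqβ; exact hqi.dvd_of_dvd_pow hqβ
    have ht0 : t ≠ 0 := by
      rintro rfl
      have hp0 : p ≠ 0 := hp.ne_zero
      rcases hβt with h | h <;> simp [hp0] at h <;> exact hβ0 h
    have hβα : ¬ (q : ℤ) ∣ (β - α) := fun h => hα (by
      have := dvd_sub hqβ h
      simpa using this)
    have ha : A.valuation (algebraMap ℚ Qbar (legendre (α : ℚ) (β : ℚ)).a₂) = 1 := by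
      rw [ha₂]; exact (valuation_intCast_eq_one_iff hq hA _).mpr hβα
    have hd : A.valuation (algebraMap ℚ Qbar ((t : ℤ) : ℚ)) < 1 := by
      rw [legLocal_algebraMap_intCast]
      exact (A.mem_nonunits_iff).mp ((intCast_mem_nonunits_iff hq hA t).mpr hqt)
    have hd0 : ((t : ℤ) : ℚ) ≠ 0 := by exact_mod_cast ht0
    rcases hβt with h | h
    · -- β = t ^ p, u = -α
      have hu : A.valuation (algebraMap ℚ Qbar ((-α : ℤ) : ℚ)) = 1 := by
        rw [legLocal_algebraMap_intCast]
        exact (valuation_intCast_eq_one_iff hq hA _).mpr (by rwa [dvd_neg])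
      have hb : (legendre (α : ℚ) (β : ℚ)).a₄ = ((-α : ℤ) : ℚ) * ((t : ℤ) : ℚ) ^ p := by
        simp only [legendre, h]; push_cast; ring
      exact hmult A s hσ _ rfl rfl rfl h2 ha _ _ p (by omega) hpA hb hu hd hd0 T hT'
    · -- β = -t ^ p, u = α
      have hu : A.valuation (algebraMap ℚ Qbar ((α : ℤ) : ℚ)) = 1 := by
        rw [legLocal_algebraMap_intCast]
        exact (valuation_intCast_eq_one_iff hq hA _).mpr hα
      have hb : (legendre (α : ℚ) (β : ℚ)).a₄ = ((α : ℤ) : ℚ) * ((t : ℤ) : ℚ) ^ p := by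
        simp only [legendre, h]; push_cast; ring
      exact hmult A s hσ _ rfl rfl rfl h2 ha _ _ p (by omega) hpA hb hu hd hd0 T hT'
  · -- good reduction
    have ha : A.valuation (algebraMap ℚ Qbar (legendre (α : ℚ) (β : ℚ)).a₂) ≤ 1 := by
      rw [ha₂]; exact (A.valuation_le_one_iff _).mpr (intCast_mem A _)
    have hb : A.valuation (algebraMap ℚ Qbar (legendre (α : ℚ) (β : ℚ)).a₄) ≤ 1 := by
      rw [ha₄]; exact (A.valuation_le_one_iff _).mpr (intCast_mem A _)
    have hdisc : A.valuation (algebraMap ℚ Qbar ((legendre (α : ℚ) (β : ℚ)).a₄ ^ 2 *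
        ((legendre (α : ℚ) (β : ℚ)).a₂ ^ 2 - 4 * (legendre (α : ℚ) (β : ℚ)).a₄))) = 1 := by
      have he : algebraMap ℚ Qbar ((legendre (α : ℚ) (β : ℚ)).a₄ ^ 2 *
          ((legendre (α : ℚ) (β : ℚ)).a₂ ^ 2 - 4 * (legendre (α : ℚ) (β : ℚ)).a₄)) =
          (((α * β) ^ 2 * (α + β) ^ 2 : ℤ) : Qbar) := by
        simp only [legendre, map_mul, map_pow, map_sub, map_neg, eq_ratCast, Rat.cast_intCast,
          Rat.cast_ofNat]
        push_cast; ring
      rw [he]
      refine (valuation_intCast_eq_one_iff hq hA _).mpr ?_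
      intro hdvd
      rcases hqi.dvd_or_dvd hdvd with h | h
      · rcases hqi.dvd_or_dvd (hqi.dvd_of_dvd_pow h) with h' | h'
        · exact hα h'
        · exact hqβ h'
      · exact hαβ (hqi.dvd_of_dvd_pow h)
    exact hgood A s hσ _ rfl rfl rfl h2 ha hb hdisc p hpA T hT'

end Fermat.Agent.S05
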