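import Fermat.Agent.S05.Congruence

set_option autoImplicit false

/-!
Endgame for the multiplicative case on a curve `y² = x³ + a₂ x² + a₄ x` with `a₂` a unit and
`a₄` in the maximal ideal: a torsion point is fixed by every automorphism acting trivially on the
residue field, given (G1) the kernel of reduction is closed under addition and has no `n`-torsion,
and (TL) the valuation of the `x`-coordinate of a torsion point near the node is the valuation of
a fixed element.
-/

namespace Fermat.Agent.S05

open WeierstrassCurve WeierstrassCurve.Affine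

section val

variable {K : Type*} [Field K] {A : ValuationSubring K}

lemma val_lt_one_of_mem_nonunits {x : K} (h : x ∈ A.nonunits) : A.valuation x < 1 :=
  A.mem_nonunits_iff.mp h

lemma mem_nonunits_of_val_lt_one {x : K} (h : A.valuation x < 1) : x ∈ A.nonunits :=
  A.mem_nonunits_iff.mpr h

lemma mem_of_val_le_one {x : K} (h : A.valuation x ≤ 1) : x ∈ A :=
  (A.valuation_le_one_iff x).mp h

lemma val_le_one_of_mem {x : K} (h : x ∈ A) : A.valuation x ≤ 1 :=
  (A.valuation_le_one_iff x).mpr h

/-- A sum of a unit and an element of the maximal ideal is a unit. -/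
lemma val_add_eq_one_of_lt {u z : K} (hu : A.valuation u = 1) (hz : A.valuation z < 1) :
    A.valuation (u + z) = 1 := by
  rw [Valuation.map_add_eq_of_lt_left _ (by rw [hu]; exact hz), hu]

lemma val_add_lt_one {u z : K} (hu : A.valuation u < 1) (hz : A.valuation z < 1) :
    A.valuation (u + z) < 1 :=
  lt_of_le_of_lt (Valuation.map_add _ _ _) (max_lt hu hz)

lemma val_sub_lt_one {u z : K} (hu : A.valuation u < 1) (hz : A.valuation z < 1) :
    A.valuation (u - z) < 1 :=
  lt_of_le_of_lt (Valuation.map_sub _ _ _) (max_lt hu hz)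

lemma val_mul_lt_one_left {u z : K} (hu : A.valuation u < 1) (hz : A.valuation z ≤ 1) :
    A.valuation (u * z) < 1 := by
  rw [map_mul]
  calc A.valuation u * A.valuation z ≤ A.valuation u * 1 := by gcongr
    _ = A.valuation u := mul_one _
    _ < 1 := hu

lemma val_mul_lt_one_right {u z : K} (hu : A.valuation u ≤ 1) (hz : A.valuation z < 1) :
    A.valuation (u * z) < 1 := by
  rw [mul_comm]
  exact val_mul_lt_one_left hz hu

lemma val_eq_one_of_sq {u : K} (h : A.valuation (u ^ 2) = 1) : A.valuation u = 1 := by
  rw [map_pow] at h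
  exact (pow_eq_one_iff_of_nonneg zero_le two_ne_zero).mp h

end val

section curve

variable {K : Type*} [Field K] [DecidableEq K] (A : ValuationSubring K)

omit [DecidableEq K] in
/-- On `y² = x³ + a₂ x² + a₄ x` with `a₄` in the maximal ideal, an integral point whose
`x`-coordinate is a unit has nonsingular reduction. -/
lemma not_singular_of_unit_x {W : Affine K} (ha₁ : W.a₁ = 0) (ha₃ : W.a₃ = 0) (ha₆ : W.a₆ = 0)
    (ha₄ : A.valuation W.a₄ < 1) (h2 : A.valuation (2 : K) = 1)
    {x y : K} (h : W.Equation x y) (hx : A.valuation x = 1) :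
    ¬ (W.a₁ * y - (3 * x ^ 2 + 2 * W.a₂ * x + W.a₄) ∈ A.nonunits ∧
      2 * y + W.a₁ * x + W.a₃ ∈ A.nonunits) := by
  rintro ⟨h1, h3⟩
  rw [ha₁, ha₃] at h3
  rw [ha₁] at h1
  rw [equation_iff, ha₁, ha₃, ha₆] at h
  have h1' : A.valuation (3 * x ^ 2 + 2 * W.a₂ * x + W.a₄) < 1 := by
    have := val_lt_one_of_mem_nonunits h1
    rwa [zero_mul, zero_sub, Valuation.map_neg] at this
  have hy : A.valuation y < 1 := by
    have := val_lt_one_of_mem_nonunits h3
    rw [zero_mul, add_zero, add_zero, map_mul, h2, one_mul] at this
    exact this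
  -- `x² (x + a₂) = y² - a₄ x`
  have hz : A.valuation (x + W.a₂) < 1 := by
    have e : x ^ 2 * (x + W.a₂) = y * y - W.a₄ * x := by linear_combination -h
    have h4 : A.valuation (x ^ 2 * (x + W.a₂)) < 1 := by
      rw [e]
      exact val_sub_lt_one (val_mul_lt_one_left hy hy.le) (val_mul_lt_one_left ha₄ hx.le)
    rwa [map_mul, map_pow, hx, one_pow, one_mul] at h4
  have e2 : 3 * x ^ 2 + 2 * W.a₂ * x + W.a₄ = x ^ 2 + (2 * x * (x + W.a₂) + W.a₄) := by ring
  have hunit : A.valuation (3 * x ^ 2 + 2 * W.a₂ * x + W.a₄) = 1 := by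
    rw [e2]
    apply val_add_eq_one_of_lt
    · rw [map_pow, hx, one_pow]
    · refine val_add_lt_one (val_mul_lt_one_right ?_ hz) ha₄
      rw [map_mul, h2, hx, one_mul]
  rw [hunit] at h1'
  exact lt_irrefl _ h1'

omit [DecidableEq K] in
/-- The `x`-coordinate of a sum of two points with distinct `x`-coordinates. -/
lemma addX_mul_eq {W : Affine K} (ha₁ : W.a₁ = 0) (ha₃ : W.a₃ = 0) (ha₆ : W.a₆ = 0)
    {x₁ y₁ x₂ y₂ : K} (h₁ : W.Equation x₁ y₁) (h₂ : W.Equation x₂ y₂) (hx : x₁ ≠ x₂) :
    W.addX x₁ x₂ ((y₁ - y₂) / (x₁ - x₂)) * (x₁ * x₂ * (x₁ - x₂) ^ 2) =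
      (y₁ * x₂ - y₂ * x₁) ^ 2 := by
  rw [equation_iff, ha₁, ha₃, ha₆] at h₁ h₂
  have hd : x₁ - x₂ ≠ 0 := sub_ne_zero.mpr hx
  rw [addX, ha₁]
  field_simp
  linear_combination (x₁ * x₂ - x₂ ^ 2) * h₁ + (x₁ * x₂ - x₁ ^ 2) * h₂

omit [DecidableEq K] in
/-- Translation by the two-torsion point `(0, 0)`: the `x`-coordinate. -/
lemma addX_zero_eq {W : Affine K} (ha₁ : W.a₁ = 0) (ha₃ : W.a₃ = 0) (ha₆ : W.a₆ = 0)
    {x y : K} (h : W.Equation x y) (hx : x ≠ 0) :
    W.addX x 0 ((y - 0) / (x - 0)) = W.a₄ / x := by
  rw [equation_iff, ha₁, ha₃, ha₆] at h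
  rw [addX, ha₁, sub_zero, sub_zero, sub_zero, zero_mul, add_zero, div_pow]
  rw [eq_div_iff hx, sub_mul, sub_mul, div_mul_eq_mul_div, div_sub' (pow_ne_zero 2 hx),
    div_sub' (pow_ne_zero 2 hx), div_eq_iff (pow_ne_zero 2 hx)]
  linear_combination x * h

/-- Near the node: if the valuation of `x` is the valuation of a fixed element `g`, then the image
of the point under an automorphism acting trivially on the residue field differs from the point by
an element of the kernel of reduction. -/
lemma near_node {W : Affine K} (ha₁ : W.a₁ = 0) (ha₃ : W.a₃ = 0) (ha₆ : W.a₆ = 0)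
    (ha₂ : A.valuation W.a₂ = 1) (h2 : A.valuation (2 : K) = 1)
    (s : K →+* K) (hs : ∀ x ∈ A, s x - x ∈ A.nonunits)
    {x y : K} (h : W.Nonsingular x y) (h' : W.Nonsingular (s x) (s y))
    (hx1 : A.valuation x < 1) (hx4 : A.valuation W.a₄ < A.valuation x)
    (g : K) (hg : s g = g) (hgx : A.valuation g = A.valuation x) :
    InE1 A (Point.some (s x) (s y) h' - Point.some x y h) := by
  have hvx0 : A.valuation x ≠ 0 := (lt_of_le_of_lt zero_le hx4).ne'
  have hx0 : x ≠ 0 := (Valuation.ne_zero_iff _).mp hvx0
  have hg0 : g ≠ 0 := (Valuation.ne_zero_iff _).mp (by rw [hgx]; exact hvx0)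
  -- the unit `w = x / g`
  set w := x / g with hw
  have hvw : A.valuation w = 1 := by
    rw [hw, map_div₀, hgx, div_self hvx0]
  have hwA : w ∈ A := mem_of_val_le_one hvw.le
  have hxw : x = g * w := by rw [hw]; field_simp
  have hsx : s x = g * s w := by rw [hxw, map_mul, hg]
  have hsw : A.valuation (s w - w) < 1 := val_lt_one_of_mem_nonunits (hs w hwA)
  have hvsw : A.valuation (s w) = 1 := by
    have : s w = w + (s w - w) := by ring
    rw [this]
    exact val_add_eq_one_of_lt hvw hsw
  have hvsx : A.valuation (s x) = A.valuation x := by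
    rw [hsx, map_mul, hvsw, mul_one, hgx]
  have hdiff : A.valuation (s x - x) < A.valuation x := by
    have : s x - x = g * (s w - w) := by rw [hsx, hxw]; ring
    rw [this, map_mul, hgx]
    calc A.valuation x * A.valuation (s w - w) < A.valuation x * 1 := by
          exact mul_lt_mul_of_pos_left hsw (zero_lt_iff.mpr hvx0)
      _ = A.valuation x := mul_one _
  -- the unit `μ = y / x`
  have heq := h.1
  rw [equation_iff, ha₁, ha₃, ha₆] at heq
  set μ := y / x with hμ
  have hyμ : y = μ * x := by rw [hμ]; field_simp
  have hμ2 : μ ^ 2 = W.a₂ + (x + W.a₄ / x) := by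
    rw [hμ]
    field_simp
    linear_combination heq
  have hvμ : A.valuation μ = 1 := by
    apply val_eq_one_of_sq
    rw [hμ2]
    apply val_add_eq_one_of_lt ha₂
    apply val_add_lt_one hx1
    rw [map_div₀]
    exact (div_lt_one₀ (zero_lt_iff.mpr hvx0)).mpr hx4
  have hμA : μ ∈ A := mem_of_val_le_one hvμ.le
  have hsμ : A.valuation (s μ - μ) < 1 := val_lt_one_of_mem_nonunits (hs μ hμA)
  have hsum : A.valuation (s μ + μ) = 1 := by
    have : s μ + μ = 2 * μ + (s μ - μ) := by ring
    rw [this]
    apply val_add_eq_one_of_lt _ hsμ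
    rw [map_mul, h2, hvμ, one_mul]
  have hsy : s y = s μ * s x := by rw [hyμ, map_mul]
  by_cases hxx : s x = x
  · -- then `s y = y`
    have heq' := h'.1
    rw [equation_iff, ha₁, ha₃, ha₆, hxx] at heq'
    have hyy : (s y - y) * (s y + y) = 0 := by linear_combination heq' - heq
    have hsyy : s y = y := by
      rcases mul_eq_zero.mp hyy with h0 | h0
      · exact sub_eq_zero.mp h0
      · exfalso
        have : s μ + μ = 0 := by
          have h3 : (s μ + μ) * x = 0 := by
            rw [add_mul, ← hyμ]
            rw [hsy, hxx] at h0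
            exact h0
          exact (mul_eq_zero.mp h3).resolve_right hx0
        rw [this, map_zero] at hsum
        exact zero_ne_one hsum
    have : Point.some (s x) (s y) h' = Point.some x y h := by
      congr 1
    rw [this, sub_self]
    trivial
  · -- distinct `x`-coordinates
    have hsub : Point.some (s x) (s y) h' - Point.some x y h =
        Point.some (s x) (s y) h' + Point.some x (W.negY x y) ((nonsingular_neg ..).mpr h) := by
      rw [sub_eq_add_neg, Point.neg_some]
    rw [hsub, Point.add_of_X_ne hxx]
    show W.addX (s x) x (W.slope (s x) x (s y) (W.negY x y)) ∉ A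
    rw [slope_of_X_ne hxx]
    have hneg : W.negY x y = -y := by rw [negY, ha₁, ha₃]; ring
    have hformula := addX_mul_eq ha₁ ha₃ ha₆ h'.1 ((equation_neg ..).mpr h.1) hxx
    rw [hneg] at hformula ⊢
    have hrhs : (s y * x - -y * s x) ^ 2 = (x * s x * (s μ + μ)) ^ 2 := by
      rw [hsy, hyμ]; ring
    rw [hrhs] at hformula
    have hval := congrArg A.valuation hformula
    simp only [map_mul, map_pow, hsum, hvsx, mul_one] at hval
    -- `v(X) * (v x * v x * v(s x - x)^2) = (v x * v x)^2`
    intro hmem
    have hle : A.valuation (W.addX (s x) x ((s y - -y) / (s x - x))) ≤ 1 := val_le_one_of_mem hmem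
    have hd0 : A.valuation (s x - x) ≠ 0 :=
      (Valuation.ne_zero_iff _).mpr (sub_ne_zero.mpr hxx)
    have hpos : 0 < A.valuation x := zero_lt_iff.mpr hvx0
    have hdpos : 0 < A.valuation (s x - x) := zero_lt_iff.mpr hd0
    have h1 : (A.valuation x * A.valuation x) ^ 2 ≤
        A.valuation x * A.valuation x * A.valuation (s x - x) ^ 2 := by
      rw [← hval]
      calc A.valuation (W.addX (s x) x ((s y - -y) / (s x - x))) *
            (A.valuation x * A.valuation x * A.valuation (s x - x) ^ 2)
          ≤ 1 * (A.valuation x * A.valuation x * A.valuation (s x - x) ^ 2) := by gcongr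
        _ = _ := one_mul _
    have h2' : A.valuation x * A.valuation x * A.valuation (s x - x) ^ 2 <
        (A.valuation x * A.valuation x) ^ 2 := by
      have : A.valuation (s x - x) ^ 2 < A.valuation x ^ 2 := by
        exact pow_lt_pow_left₀ hdiff zero_le two_ne_zero
      calc A.valuation x * A.valuation x * A.valuation (s x - x) ^ 2
          < A.valuation x * A.valuation x * A.valuation x ^ 2 := by
            exact mul_lt_mul_of_pos_left this (mul_pos hpos hpos)
        _ = (A.valuation x * A.valuation x) ^ 2 := by simp only [pow_two]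
    exact absurd h1 (not_le.mpr h2')

/-- The multiplicative case: every `n`-torsion point (`n` odd) is fixed. -/
theorem fixed_of_mult_reduction {W : Affine K} (ha₁ : W.a₁ = 0) (ha₃ : W.a₃ = 0) (ha₆ : W.a₆ = 0)
    (ha₂ : A.valuation W.a₂ = 1) (ha₄ : A.valuation W.a₄ < 1) (ha₄0 : W.a₄ ≠ 0)
    (h2 : A.valuation (2 : K) = 1) (n : ℕ) (hn : Odd n)
    (hE1add : ∀ P Q : W.Point, InE1 A P → InE1 A Q → InE1 A (P + Q))
    (hL1 : ∀ P : W.Point, InE1 A P → (n : ℤ) • P = 0 → P = 0)
    (s : K →+* K) (hs : ∀ x ∈ A, s x - x ∈ A.nonunits)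
    (hTL : ∀ (x y : K) (h : W.Nonsingular x y), (n : ℤ) • Point.some x y h = 0 →
      A.valuation W.a₄ < A.valuation x → A.valuation x < 1 →
      ∃ g : K, s g = g ∧ A.valuation g = A.valuation x)
    (τ : W.Point →+ W.Point)
    (hτ : ∀ (x y : K) (h : W.Nonsingular x y), ∃ h', τ (.some x y h) = .some (s x) (s y) h')
    (P : W.Point) (hP : (n : ℤ) • P = 0) : τ P = P := by
  have hmem₁ : W.a₁ ∈ A := by rw [ha₁]; exact A.zero_mem
  have hmem₃ : W.a₃ ∈ A := by rw [ha₃]; exact A.zero_mem
  have hmem₆ : W.a₆ ∈ A := by rw [ha₆]; exact A.zero_mem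
  have hmem₂ : W.a₂ ∈ A := mem_of_val_le_one ha₂.le
  have hmem₄ : W.a₄ ∈ A := mem_of_val_le_one ha₄.le
  -- it suffices that `τ P - P` lies in the kernel of reduction
  have key : ∀ Q : W.Point, (n : ℤ) • Q = 0 → InE1 A (τ Q - Q) → τ Q = Q := by
    intro Q hQ hE
    have : (n : ℤ) • (τ Q - Q) = 0 := by
      rw [smul_sub, ← map_zsmul, hQ, map_zero, sub_zero]
    exact sub_eq_zero.mp (hL1 _ hE this)
  -- integral points with unit `x`-coordinate
  have unitCase : ∀ (x y : K) (h : W.Nonsingular x y), A.valuation x = 1 →
      InE1 A (τ (.some x y h) - .some x y h) := by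
    intro x y h hx
    have hxA : x ∈ A := mem_of_val_le_one hx.le
    have hyA : y ∈ A := y_mem_of_x_mem A hmem₁ hmem₂ hmem₃ hmem₄ hmem₆ h.1 hxA
    exact map_sub_mem_E1 A hmem₁ hmem₂ hmem₃ hmem₄ τ s hs hτ h hxA hyA
      (not_singular_of_unit_x A ha₁ ha₃ ha₆ ha₄ h2 h.1 hx)
  rcases P with _ | ⟨x, y, h⟩
  · exact map_zero τ
  · rcases lt_trichotomy (A.valuation x) 1 with hx | hx | hx
    · by_cases hx4 : A.valuation W.a₄ < A.valuation x
      · -- near the node
        obtain ⟨g, hg, hgx⟩ := hTL x y h hP hx4 hx
        obtain ⟨h', e⟩ := hτ x y h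
        apply key _ hP
        rw [e]
        exact near_node A ha₁ ha₃ ha₆ ha₂ h2 s hs h h' hx hx4 g hg hgx
      · -- far from the unit circle: translate by `(0, 0)`
        push Not at hx4
        by_cases hx0 : x = 0
        · -- the point `(0, 0)` itself
          subst hx0
          have heq := h.1
          rw [equation_iff, ha₁, ha₃, ha₆] at heq
          have hy0 : y = 0 := by
            have : y ^ 2 = 0 := by linear_combination heq
            exact pow_eq_zero_iff two_ne_zero |>.mp this
          subst hy0
          obtain ⟨h', e⟩ := hτ 0 0 h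
          rw [e]
          congr 1 <;> exact map_zero s
        · have h0 : W.Nonsingular 0 0 := by
            rw [nonsingular_iff', equation_iff, ha₁, ha₃, ha₆]
            refine ⟨by ring, Or.inl ?_⟩
            simpa using ha₄0
          set T0 : W.Point := Point.some 0 0 h0 with hT0
          have hτT0 : τ T0 = T0 := by
            obtain ⟨h', e⟩ := hτ 0 0 h0
            rw [hT0, e]
            congr 1 <;> exact map_zero s
          have hT0T0 : T0 + T0 = 0 := by
            rw [hT0]
            apply Point.add_self_of_Y_eq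
            rw [negY, ha₁, ha₃]
            ring
          -- the translated point
          have hsum : Point.some x y h + T0 =
              Point.some _ _ (nonsingular_add h h0 fun hxy => hx0 hxy.left) :=
            Point.add_of_X_ne hx0
          set P' : W.Point := Point.some x y h + T0 with hP'
          have hdiff : τ P' - P' = τ (Point.some x y h) - Point.some x y h := by
            rw [hP', map_add, hτT0]
            abel
          have hxval : A.valuation (W.addX x 0 (W.slope x 0 y 0)) =
              A.valuation W.a₄ / A.valuation x := by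
            rw [slope_of_X_ne hx0, addX_zero_eq ha₁ ha₃ ha₆ h.1 hx0, map_div₀]
          have hvx0 : A.valuation x ≠ 0 := (Valuation.ne_zero_iff _).mpr hx0
          have hge : 1 ≤ A.valuation (W.addX x 0 (W.slope x 0 y 0)) := by
            rw [hxval]
            exact (one_le_div₀ (zero_lt_iff.mpr hvx0)).mpr hx4
          rcases hge.lt_or_eq with hgt | heq1
          · -- the translate lies in the kernel of reduction: impossible
            exfalso
            have hP'E : InE1 A P' := by
              rw [hsum]
              show _ ∉ A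
              intro hmem
              exact absurd (val_le_one_of_mem hmem) (not_le.mpr hgt)
            have h2P : P' + P' = Point.some x y h + Point.some x y h := by
              rw [hP']
              calc Point.some x y h + T0 + (Point.some x y h + T0)
                  = Point.some x y h + Point.some x y h + (T0 + T0) := by abel
                _ = _ := by rw [hT0T0, add_zero]
            have hE2 : InE1 A (Point.some x y h + Point.some x y h) := by
              rw [← h2P]
              exact hE1add _ _ hP'E hP'E
            have hn2 : (n : ℤ) • (Point.some x y h + Point.some x y h) = 0 := by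
              rw [smul_add, hP, add_zero]
            have h2zero : Point.some x y h + Point.some x y h = 0 := hL1 _ hE2 hn2
            obtain ⟨m, hm⟩ := hn
            have : Point.some x y h = 0 := by
              have h3 : (n : ℤ) • Point.some x y h =
                  (m : ℤ) • (Point.some x y h + Point.some x y h) + Point.some x y h := by
                rw [hm]
                push_cast
                rw [add_smul, one_smul, mul_comm, mul_smul, two_smul]
              rw [hP, h2zero, smul_zero, zero_add] at h3
              exact h3.symm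
            exact Point.some_ne_zero h this
          · -- the translate is integral with unit `x`-coordinate
            apply key _ hP
            rw [← hdiff]
            have := unitCase _ _ (nonsingular_add h h0 fun hxy => hx0 hxy.left) heq1.symm
            rw [← hsum] at this
            exact this
    · exact key _ hP (unitCase x y h hx)
    · -- `x` not integral: the point is in the kernel of reduction, hence zero
      have hE : InE1 A (Point.some x y h) := by
        show x ∉ A
        intro hmem
        exact absurd (val_le_one_of_mem hmem) (not_le.mpr hx)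
      exact absurd (hL1 _ hE hP) (Point.some_ne_zero h)

end curve

end Fermat.Agent.S05
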