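import Fermat.Agent.S05.Interface
import Fermat.Agent.S05.Formal
import Fermat.Agent.S05.MultEnd
import Fermat.Agent.S05.Wiring

set_option autoImplicit false

/-!
Assembly of the local statement `LegendreLocalHyp` from the landed pieces and the torsion-label
statement `TLHyp` (valuation of the `x`-coordinate of a torsion point near the node).
-/

namespace Fermat.Agent.S05

open WeierstrassCurve WeierstrassCurve.Affine Transport

/-- The torsion-label statement: on `y² = x³ + a₂ x² + a₄ x` with `a₂` a unit and `a₄ ≠ 0` in the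
maximal ideal, the valuation of the `x`-coordinate of an `n`-torsion point lying strictly between
`v a₄` and `1` has its `n`-th power in the group generated by `v a₄`. -/
def TLHyp : Prop :=
  ∀ (A : ValuationSubring Qbar) (W : Affine Qbar), W.a₁ = 0 → W.a₃ = 0 → W.a₆ = 0 →
    A.valuation W.a₂ = 1 → A.valuation W.a₄ < 1 → W.a₄ ≠ 0 → A.valuation (2 : Qbar) = 1 →
    ∀ n : ℕ, n.Prime → n ≠ 2 → A.valuation (n : Qbar) = 1 →
    ∀ (x y : Qbar) (h : W.Nonsingular x y), n • Point.some x y h = 0 →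
      A.valuation W.a₄ < A.valuation x → A.valuation x < 1 →
      ∃ k : ℤ, A.valuation x ^ n = A.valuation W.a₄ ^ k

section bridge

variable {K : Type*} [Field K] [DecidableEq K] (A : ValuationSubring K) {W : Affine K}

lemma inE1_iff_mem_E1 (hW : IntegralB A.valuation W) (P : W.Point) :
    InE1 A P ↔ P ∈ E1 hW := by
  rw [mem_E1_iff']
  rcases P with _ | ⟨x, y, h⟩
  · exact ⟨fun _ => Or.inl rfl, fun _ => trivial⟩
  · constructor
    · intro hx
      exact Or.inr hx
    · rintro (h0 | hx)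
      · exact absurd h0 (Point.some_ne_zero h)
      · exact hx

lemma inE1_add (hW : IntegralB A.valuation W) (P Q : W.Point) (hP : InE1 A P) (hQ : InE1 A Q) :
    InE1 A (P + Q) := by
  rw [inE1_iff_mem_E1 A hW] at hP hQ ⊢
  exact (E1 hW).add_mem hP hQ

lemma inE1_torsion_free (hW : IntegralB A.valuation W) {n : ℕ} (hn : A.valuation (n : K) = 1)
    (P : W.Point) (hP : InE1 A P) (h : (n : ℤ) • P = 0) : P = 0 := by
  rw [inE1_iff_mem_E1 A hW] at hP
  rw [natCast_zsmul] at h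
  exact E1_torsion_free hW hn hP h

end bridge

section legendre

variable (α β : ℤ)

lemma legendre_bc_a₁ : ((legendre (α : ℚ) (β : ℚ))⁄Qbar).a₁ = 0 := by
  show algebraMap ℚ Qbar (legendre (α : ℚ) (β : ℚ)).a₁ = 0
  simp [legendre]

lemma legendre_bc_a₃ : ((legendre (α : ℚ) (β : ℚ))⁄Qbar).a₃ = 0 := by
  show algebraMap ℚ Qbar (legendre (α : ℚ) (β : ℚ)).a₃ = 0
  simp [legendre]

lemma legendre_bc_a₆ : ((legendre (α : ℚ) (β : ℚ))⁄Qbar).a₆ = 0 := by
  show algebraMap ℚ Qbar (legendre (α : ℚ) (β : ℚ)).a₆ = 0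
  simp [legendre]

lemma legendre_bc_a₂ : ((legendre (α : ℚ) (β : ℚ))⁄Qbar).a₂ = ((β - α : ℤ) : Qbar) := by
  show algebraMap ℚ Qbar (legendre (α : ℚ) (β : ℚ)).a₂ = _
  simp [legendre]

lemma legendre_bc_a₄ : ((legendre (α : ℚ) (β : ℚ))⁄Qbar).a₄ = ((-(α * β) : ℤ) : Qbar) := by
  show algebraMap ℚ Qbar (legendre (α : ℚ) (β : ℚ)).a₄ = _
  simp [legendre]

lemma legendre_bc_Δ :
    ((legendre (α : ℚ) (β : ℚ))⁄Qbar).Δ = ((16 * (α * β * (α + β)) ^ 2 : ℤ) : Qbar) := by
  show ((legendre (α : ℚ) (β : ℚ)).map (algebraMap ℚ Qbar)).Δ = _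
  rw [map_Δ]
  have : (legendre (α : ℚ) (β : ℚ)).Δ = ((16 * (α * β * (α + β)) ^ 2 : ℤ) : ℚ) := by
    simp only [Δ, b₂, b₄, b₆, b₈, legendre]
    push_cast
    ring
  rw [this]
  simp

end legendre

section main

/-- If `vx ^ p = (vt ^ p) ^ k` in a linearly ordered commutative group with zero then
`vx = vt ^ k`. -/
lemma eq_zpow_of_pow_eq {Γ : Type*} [LinearOrderedCommGroupWithZero Γ] {vx vt : Γ} {p : ℕ}
    (hp : p ≠ 0) (k : ℤ) (h : vx ^ p = (vt ^ p) ^ k) : vx = vt ^ k := by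
  have h' : vx ^ p = (vt ^ k) ^ p := by
    rw [h, ← zpow_natCast (vt ^ k) p, ← zpow_natCast vt p, ← zpow_mul, ← zpow_mul, mul_comm]
  exact (pow_left_inj₀ zero_le zero_le hp).mp h'

/-- The base change of the Legendre-type model to `Qbar`. -/
noncomputable abbrev legK (α β : ℤ) : Affine Qbar := (legendre (α : ℚ) (β : ℚ))⁄Qbar

theorem fixed_legendre (hTL : TLHyp) (p q : ℕ) (α β t : ℤ) (hp : p.Prime) (hp5 : 5 ≤ p)
    (hq : q.Prime) (hq2 : q ≠ 2) (hqp : q ≠ p) (hα : ¬ (q : ℤ) ∣ α) (hαβ : ¬ (q : ℤ) ∣ (α + β))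
    (hα0 : α ≠ 0) (hβ0 : β ≠ 0) (hβt : β = t ^ p ∨ β = -t ^ p)
    (A : ValuationSubring Qbar) (hA : A.LiesOverPrime q) (s : GalQ)
    (hs : s ∈ A.inertiaSubgroupIn ℚ) (T : (legK α β).Point) (hT : (p : ℤ) • T = 0) :
    s • T = T := by
  have hp2 : p ≠ 2 := by omega
  have hpodd : Odd p := hp.odd_of_ne_two hp2
  have h2 : A.valuation (2 : Qbar) = 1 := valuation_two_eq_one hq hA hq2
  have hvp : A.valuation (p : Qbar) = 1 := valuation_prime_eq_one hq hA hp hqp
  have hvα : A.valuation ((α : ℤ) : Qbar) = 1 := (valuation_intCast_eq_one_iff hq hA α).mpr hα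
  have hvαβ : A.valuation ((α + β : ℤ) : Qbar) = 1 :=
    (valuation_intCast_eq_one_iff hq hA (α + β)).mpr hαβ
  have e1 : (legK α β).a₁ = 0 := legendre_bc_a₁ α β
  have e3 : (legK α β).a₃ = 0 := legendre_bc_a₃ α β
  have e6 : (legK α β).a₆ = 0 := legendre_bc_a₆ α β
  have e2 : (legK α β).a₂ = ((β - α : ℤ) : Qbar) := legendre_bc_a₂ α β
  have e4 : (legK α β).a₄ = ((-(α * β) : ℤ) : Qbar) := legendre_bc_a₄ α β
  have m1 : (legK α β).a₁ ∈ A := by rw [e1]; exact A.zero_mem
  have m3 : (legK α β).a₃ ∈ A := by rw [e3]; exact A.zero_mem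
  have m6 : (legK α β).a₆ ∈ A := by rw [e6]; exact A.zero_mem
  have m2 : (legK α β).a₂ ∈ A := by rw [e2]; exact intCast_mem A _
  have m4 : (legK α β).a₄ ∈ A := by rw [e4]; exact intCast_mem A _
  have hWB : IntegralB A.valuation (legK α β) := IntegralB.of_coeffs A m1 m2 m3 m4 m6 h2
  -- the action of `s`
  let τ : (legK α β).Point →+ (legK α β).Point := DistribSMul.toAddMonoidHom (legK α β).Point s
  let sR : Qbar →+* Qbar := (s : Qbar ≃ₐ[ℚ] Qbar).toAlgHom.toRingHom
  have hsR : ∀ x ∈ A, sR x - x ∈ A.nonunits := fun x hx => inertia_sub_mem_nonunits hs hx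
  have hτ : ∀ (x y : Qbar) (h : (legK α β).Nonsingular x y),
      ∃ h', τ (.some x y h) = .some (sR x) (sR y) h' :=
    fun x y h => ⟨nonsingular_apply _ s h, rfl⟩
  have hL1 : ∀ P : (legK α β).Point, InE1 A P → (p : ℤ) • P = 0 → P = 0 :=
    fun P hP h => inE1_torsion_free A hWB hvp P hP h
  show τ T = T
  by_cases hqβ : (q : ℤ) ∣ β
  · -- multiplicative reduction
    have hvβ : A.valuation ((β : ℤ) : Qbar) < 1 :=
      val_lt_one_of_mem_nonunits ((intCast_mem_nonunits_iff hq hA β).mpr hqβ)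
    have ha₂ : A.valuation (legK α β).a₂ = 1 := by
      rw [e2]
      have : ((β - α : ℤ) : Qbar) = -((α : ℤ) : Qbar) + ((β : ℤ) : Qbar) := by push_cast; ring
      rw [this]
      exact val_add_eq_one_of_lt (by rw [Valuation.map_neg]; exact hvα) hvβ
    have hva₄ : A.valuation (legK α β).a₄ = A.valuation ((β : ℤ) : Qbar) := by
      rw [e4]
      have : ((-(α * β) : ℤ) : Qbar) = -(((α : ℤ) : Qbar) * ((β : ℤ) : Qbar)) := by push_cast; ring
      rw [this, Valuation.map_neg, map_mul, hvα, one_mul]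
    have ha₄ : A.valuation (legK α β).a₄ < 1 := by rw [hva₄]; exact hvβ
    have ha₄0 : (legK α β).a₄ ≠ 0 := by
      rw [e4]
      exact_mod_cast neg_ne_zero.mpr (mul_ne_zero hα0 hβ0)
    have hvβt : A.valuation ((β : ℤ) : Qbar) = A.valuation ((t : ℤ) : Qbar) ^ p := by
      rcases hβt with h | h
      · rw [h]; push_cast; rw [map_pow]
      · rw [h]; push_cast; rw [Valuation.map_neg, map_pow]
    refine fixed_of_mult_reduction A e1 e3 e6 ha₂ ha₄ ha₄0 h2 p hpodd
      (fun P Q hP hQ => inE1_add A hWB P Q hP hQ) hL1 sR hsR ?_ τ hτ T hT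
    intro x y h hn hx4 hx1
    rw [natCast_zsmul] at hn
    obtain ⟨k, hk⟩ := hTL A (legK α β) e1 e3 e6 ha₂ ha₄ ha₄0 h2 p hp hp2 hvp x y h hn hx4 hx1
    rw [hva₄, hvβt] at hk
    have hvx : A.valuation x = A.valuation ((t : ℤ) : Qbar) ^ k :=
      eq_zpow_of_pow_eq hp.ne_zero k hk
    refine ⟨((t : ℤ) : Qbar) ^ k, ?_, ?_⟩
    · show s (((t : ℤ) : Qbar) ^ k) = _
      rw [map_zpow₀, map_intCast]
    · rw [map_zpow₀, hvx]
  · -- good reduction
    have hvβ : A.valuation ((β : ℤ) : Qbar) = 1 := (valuation_intCast_eq_one_iff hq hA β).mpr hqβ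
    have hΔ : (legK α β).Δ ∉ A.nonunits := by
      rw [legendre_bc_Δ, A.mem_nonunits_iff, not_lt]
      have : A.valuation ((16 * (α * β * (α + β)) ^ 2 : ℤ) : Qbar) = 1 := by
        push_cast
        have h16 : A.valuation (16 : Qbar) = 1 := by
          have : (16 : Qbar) = 2 ^ 4 := by norm_num
          rw [this, map_pow, h2, one_pow]
        have hαβ' : A.valuation (((α : ℤ) : Qbar) + ((β : ℤ) : Qbar)) = 1 := by
          have := hvαβ
          push_cast at this
          exact this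
        rw [map_mul, map_pow, map_mul, map_mul, h16, hvα, hvβ, hαβ', one_mul, one_mul, one_mul,
          one_pow]
      exact this.ge
    exact fixed_of_good_reduction A m1 m2 m3 m4 m6 hΔ (p : ℤ) hL1 τ sR hsR hτ T hT

theorem legendreLocalHyp_of_TL (hTL : TLHyp) : LegendreLocalHyp := by
  intro p q α β t hp hp5 hq hq2 hqp hα hαβ hα0 hβ0 _ hβt
  unfold LegendreLocal
  apply unramifiedAt_of_pointwise
  intro A hA s hs T hT
  exact fixed_legendre hTL p q α β t hp hp5 hq hq2 hqp hα hαβ hα0 hβ0 hβt A hA s hs T hT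

end main

end Fermat.Agent.S05
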