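import Fermat.Agent.S05.Congruence

/-!
# The endgame for multiplicative reduction (Legendre-type model)

`W : y² = x³ + a₂ x² + a₄ x` over a field `K` with a valuation subring `A`, `a₂` a unit of `A`,
`a₄` a nonzero element of the maximal ideal, `2` a unit of `A`.  `τ` is an additive endomorphism
of the group of points acting on coordinates through a ring endomorphism `s` of `K` which is
trivial modulo the maximal ideal.  Assuming that the kernel of reduction `E₁` is closed under
subtraction and has no `n`-torsion, and that every `n`-torsion point `(x, y)` with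
`v(a₄) < v(x) < 1` has `v(x) = v(g)` for some `s`-fixed `g`, we show that `τ` fixes all
`n`-torsion points.
-/

set_option autoImplicit false

namespace Fermat.Agent.S05.MultEndgame

open WeierstrassCurve WeierstrassCurve.Affine Fermat.Agent.S05

variable {K : Type*} [Field K]

/-- `P` is `0` or its `x`-coordinate is not in the maximal ideal. -/
def InE0 (A : ValuationSubring K) {W : WeierstrassCurve.Affine K} : W.Point → Prop
  | .zero => True
  | .some x _ _ => x ∉ A.nonunits

/-- Legendre-type model with multiplicative reduction at the node `(0, 0)`. -/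
structure LegType (A : ValuationSubring K) (W : WeierstrassCurve.Affine K) : Prop where
  a₁ : W.a₁ = 0
  a₃ : W.a₃ = 0
  a₆ : W.a₆ = 0
  a₂_unit : A.valuation W.a₂ = 1
  a₄_lt : A.valuation W.a₄ < 1
  a₄_ne : W.a₄ ≠ 0
  two : A.valuation (2 : K) = 1

section basic

variable {A : ValuationSubring K} {W : WeierstrassCurve.Affine K} (hW : LegType A W)
include hW

lemma LegType.equation {x y : K} (h : W.Equation x y) :
    y ^ 2 = x ^ 3 + W.a₂ * x ^ 2 + W.a₄ * x := by
  rw [Affine.equation_iff, hW.a₁, hW.a₃, hW.a₆] at h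
  linear_combination h

lemma LegType.mem_a₁ : W.a₁ ∈ A := by rw [hW.a₁]; exact zero_mem _
lemma LegType.mem_a₃ : W.a₃ ∈ A := by rw [hW.a₃]; exact zero_mem _
lemma LegType.mem_a₆ : W.a₆ ∈ A := by rw [hW.a₆]; exact zero_mem _
lemma LegType.mem_a₂ : W.a₂ ∈ A := (A.valuation_le_one_iff _).mp hW.a₂_unit.le
lemma LegType.mem_a₄ : W.a₄ ∈ A := (A.valuation_le_one_iff _).mp hW.a₄_lt.le

/-- Integral points with unit `x`-coordinate have nonsingular reduction. -/
lemma LegType.nonsingular_reduction {x y : K} (h : W.Equation x y) (hx : A.valuation x = 1) :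
    ¬ (W.a₁ * y - (3 * x ^ 2 + 2 * W.a₂ * x + W.a₄) ∈ A.nonunits ∧
      2 * y + W.a₁ * x + W.a₃ ∈ A.nonunits) := by
  rintro ⟨hWx, hWy⟩
  rw [A.mem_nonunits_iff] at hWx hWy
  rw [hW.a₁, hW.a₃] at hWy
  rw [hW.a₁] at hWx
  set v := A.valuation with hv
  have heq := hW.equation h
  -- v y < 1
  have hy : v y < 1 := by
    have : v (2 * y + 0 * x + 0) = v y := by
      rw [show 2 * y + 0 * x + 0 = 2 * y by ring, map_mul, hW.two, one_mul]
    rwa [this] at hWy
  -- v (3 x^2 + 2 a2 x + a4) < 1
  have h1 : v (3 * x ^ 2 + 2 * W.a₂ * x + W.a₄) < 1 := by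
    have : 0 * y - (3 * x ^ 2 + 2 * W.a₂ * x + W.a₄) = -(3 * x ^ 2 + 2 * W.a₂ * x + W.a₄) := by
      ring
    rwa [this, Valuation.map_neg] at hWx
  -- v (x + a2) < 1
  have h2 : v (x + W.a₂) < 1 := by
    have e : x ^ 2 * (x + W.a₂) = y ^ 2 - W.a₄ * x := by linear_combination -heq
    have : v (x ^ 2 * (x + W.a₂)) < 1 := by
      rw [e]
      refine lt_of_le_of_lt (Valuation.map_sub _ _ _) (max_lt ?_ ?_)
      · rw [map_pow]; exact pow_lt_one₀ zero_le hy (by norm_num)
      · rw [map_mul, hx, mul_one]; exact hW.a₄_lt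
    rwa [map_mul, map_pow, hx, one_pow, one_mul] at this
  -- v (3 x + 2 a2) < 1
  have h3 : v (3 * x + 2 * W.a₂) < 1 := by
    have e : x * (3 * x + 2 * W.a₂) = (3 * x ^ 2 + 2 * W.a₂ * x + W.a₄) - W.a₄ := by ring
    have : v (x * (3 * x + 2 * W.a₂)) < 1 := by
      rw [e]
      exact lt_of_le_of_lt (Valuation.map_sub _ _ _) (max_lt h1 hW.a₄_lt)
    rwa [map_mul, hx, one_mul] at this
  have h4 : v x < 1 := by
    have e : x = (3 * x + 2 * W.a₂) - 2 * (x + W.a₂) := by ring
    rw [e]
    refine lt_of_le_of_lt (Valuation.map_sub _ _ _) (max_lt h3 ?_)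
    rw [map_mul, hW.two, one_mul]; exact h2
  rw [hx] at h4
  exact lt_irrefl _ h4

end basic

section endgame

variable [DecidableEq K] {A : ValuationSubring K} {W : WeierstrassCurve.Affine K}
  (hW : LegType A W) (τ : W.Point →+ W.Point) (s : K →+* K)
  (hs : ∀ x ∈ A, s x - x ∈ A.nonunits)
  (hsA : ∀ x, s x ∈ A → x ∈ A)
  (hτ : ∀ (x y : K) (h : W.Nonsingular x y), ∃ h', τ (.some x y h) = .some (s x) (s y) h')
  (hE1sub : ∀ P Q : W.Point, InE1 A P → InE1 A Q → InE1 A (P - Q))

include hW hs hsA hτ hE1sub in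
/-- **Case (a).** For `R` in `E₀`, `τ R - R` lies in the kernel of reduction. -/
lemma sub_mem_E1_of_mem_E0 (R : W.Point) (hR : InE0 A R) : InE1 A (τ R - R) := by
  rcases R with _ | ⟨x, y, h⟩
  · have : τ Point.zero - Point.zero = (0 : W.Point) := by
      rw [← Point.zero_def, map_zero, sub_zero]
    rw [this]
    exact trivial
  · by_cases hx : x ∈ A
    · have hx1 : A.valuation x = 1 :=
        le_antisymm ((A.valuation_le_one_iff _).mpr hx)
          (not_lt.mp fun hlt => hR (A.mem_nonunits_iff.mpr hlt))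
      have hy : y ∈ A :=
        y_mem_of_x_mem A hW.mem_a₁ hW.mem_a₂ hW.mem_a₃ hW.mem_a₄ hW.mem_a₆ h.1 hx
      exact map_sub_mem_E1 A hW.mem_a₁ hW.mem_a₂ hW.mem_a₃ hW.mem_a₄ τ s hs hτ h hx hy
        (hW.nonsingular_reduction h.1 hx1)
    · obtain ⟨h', e⟩ := hτ x y h
      rw [e]
      exact hE1sub _ _ (show s x ∉ A from fun hsx => hx (hsA x hsx)) (show x ∉ A from hx)

include hW hs hτ in
/-- **Case (b).** A point `(x, y)` with `v(a₄) < v(x) < 1` whose `x`-coordinate has the valuation of
an `s`-fixed element: `τ T - T` lies in the kernel of reduction. -/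
lemma sub_mem_E1_of_mid {x y : K} (h : W.Nonsingular x y)
    (hx1 : A.valuation x < 1) (hx2 : A.valuation W.a₄ < A.valuation x)
    (g : K) (hg : s g = g) (hgx : A.valuation g = A.valuation x) :
    InE1 A (τ (.some x y h) - .some x y h) := by
  set v := A.valuation with hv
  have heq := hW.equation h.1
  have hvx0 : v x ≠ 0 := fun h0 => by rw [h0] at hx2; exact not_lt_zero hx2
  have hvxpos : 0 < v x := zero_lt_iff.mpr hvx0
  have hx0 : x ≠ 0 := fun h0 => hvx0 (by rw [h0, map_zero])
  have hg0 : g ≠ 0 := fun h0 => hvx0 (by rw [← hgx, h0, map_zero])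
  obtain ⟨h', e⟩ := hτ x y h
  rw [e]
  have heq' := hW.equation h'.1
  -- `x / g` is a unit
  have hw : v (x / g) = 1 := by rw [map_div₀, hgx, div_self hvx0]
  have hwA : x / g ∈ A := (A.valuation_le_one_iff _).mp hw.le
  have hsw : v (s (x / g) - x / g) < 1 := A.mem_nonunits_iff.mp (hs _ hwA)
  have e1 : s (x / g) = s x / g := by rw [map_div₀, hg]
  have hxx : s x - x = g * (s (x / g) - x / g) := by
    rw [e1]; field_simp
  have hvxx : v (s x - x) < v x := by
    rw [hxx, map_mul, hgx]
    calc v x * v (s (x / g) - x / g) < v x * 1 := (mul_lt_mul_iff_right₀ hvxpos).mpr hsw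
      _ = v x := mul_one _
  have hvx' : v (s x) = v x := by
    have : s x = x + (s x - x) := by ring
    rw [this]
    exact Valuation.map_add_eq_of_lt_left _ hvxx
  have hsx0 : s x ≠ 0 := fun h0 => hvx0 (by rw [← hvx', h0, map_zero])
  -- `y / x` is a unit
  have hm2 : (y / x) ^ 2 = W.a₂ + (x + W.a₄ / x) := by
    field_simp
    linear_combination heq
  have hvm : v (y / x) = 1 := by
    have h1 : v (x + W.a₄ / x) < 1 := by
      refine lt_of_le_of_lt (Valuation.map_add _ _ _) (max_lt hx1 ?_)
      rw [map_div₀]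
      exact (div_lt_one₀ hvxpos).mpr hx2
    have : v ((y / x) ^ 2) = 1 := by
      rw [hm2, Valuation.map_add_eq_of_lt_left _ (by rw [hW.a₂_unit]; exact h1), hW.a₂_unit]
    rw [map_pow] at this
    exact sq_eq_one.mp this
  have hmA : y / x ∈ A := (A.valuation_le_one_iff _).mp hvm.le
  have hsm : v (s (y / x) - y / x) < 1 := A.mem_nonunits_iff.mp (hs _ hmA)
  have e2 : s (y / x) = s y / s x := map_div₀ s y x
  rw [e2] at hsm
  have hsum : v (s y / s x + y / x) = 1 := by
    have : s y / s x + y / x = 2 * (y / x) + (s y / s x - y / x) := by ring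
    rw [this, Valuation.map_add_eq_of_lt_left _ (by rw [map_mul, hW.two, one_mul, hvm]; exact hsm),
      map_mul, hW.two, one_mul, hvm]
  by_cases hxe : s x = x
  · have hyy : s y ^ 2 = y ^ 2 := by rw [heq', heq, hxe]
    rcases eq_or_eq_neg_of_sq_eq_sq _ _ hyy with hy | hy
    · have : Point.some (s x) (s y) h' = Point.some x y h := by
        simp only [Point.some.injEq]; exact ⟨hxe, hy⟩
      rw [this, sub_self]
      exact trivial
    · exfalso
      rw [hxe, hy, neg_div, neg_add_cancel, map_zero] at hsum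
      exact zero_ne_one hsum
  · rw [sub_eq_add_neg, Point.neg_some, Point.add_of_X_ne hxe]
    show W.addX (s x) x (W.slope (s x) x (s y) (W.negY x y)) ∉ A
    rw [Affine.slope_of_X_ne hxe]
    simp only [Affine.addX, Affine.negY, hW.a₁, hW.a₃]
    set x3 := ((s y - (-y - 0 * x - 0)) / (s x - x)) ^ 2 + 0 * ((s y - (-y - 0 * x - 0)) / (s x - x))
      - W.a₂ - s x - x with hx3
    have hd : s x - x ≠ 0 := sub_ne_zero.mpr hxe
    have key : x3 * (x * s x * (s x - x) ^ 2) = (x * s x * (s y / s x + y / x)) ^ 2 := by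
      rw [hx3]
      field_simp
      linear_combination (s x - x) * x * heq' - (s x - x) * s x * heq
    have hvd0 : v (s x - x) ≠ 0 := fun h0 => hd ((map_eq_zero v).mp h0)
    have key2 : v x3 * v (s x - x) ^ 2 = v x ^ 2 := by
      have := congrArg v key
      simp only [map_mul, map_pow, hsum, hvx', mul_one] at this
      have hne : v x * v x ≠ 0 := mul_ne_zero hvx0 hvx0
      have h3 : v x3 * v (s x - x) ^ 2 * (v x * v x) = v x ^ 2 * (v x * v x) := by
        calc v x3 * v (s x - x) ^ 2 * (v x * v x)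
            = v x3 * (v x * v x * v (s x - x) ^ 2) := by ac_rfl
          _ = (v x * v x) ^ 2 := this
          _ = v x ^ 2 * (v x * v x) := by rw [pow_two, pow_two]
      exact mul_right_cancel₀ hne h3
    intro hA
    have hle : v x3 ≤ 1 := (A.valuation_le_one_iff _).mpr hA
    have hlt : v (s x - x) ^ 2 < v x ^ 2 := pow_lt_pow_left₀ hvxx zero_le (by norm_num)
    have : v x ^ 2 ≤ v (s x - x) ^ 2 := by
      rw [← key2]
      exact mul_le_of_le_one_left zero_le hle
    exact absurd hlt (not_lt.mpr this)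

omit [DecidableEq K] in
include hW in
lemma nonsingular_origin : W.Nonsingular 0 0 := by
  rw [Affine.nonsingular_zero]
  exact ⟨hW.a₆, Or.inr hW.a₄_ne⟩

include hW hτ in
lemma map_origin : τ (.some 0 0 (nonsingular_origin hW)) = .some 0 0 (nonsingular_origin hW) := by
  obtain ⟨h', e⟩ := hτ 0 0 (nonsingular_origin hW)
  rw [e]
  simp only [map_zero]

include hW hs hsA hτ hE1sub in
/-- **Case (c).** A point `(x, y)` with `x ≠ 0` and `v(x) ≤ v(a₄)`: translate by `(0, 0)`. -/
lemma sub_mem_E1_of_low {x y : K} (h : W.Nonsingular x y) (hx0 : x ≠ 0)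
    (hx2 : A.valuation x ≤ A.valuation W.a₄) :
    InE1 A (τ (.some x y h) - .some x y h) := by
  set v := A.valuation with hv
  have heq := hW.equation h.1
  have hvx0 : v x ≠ 0 := fun h0 => hx0 ((map_eq_zero v).mp h0)
  have hvxpos : 0 < v x := zero_lt_iff.mpr hvx0
  set T0 : W.Point := .some 0 0 (nonsingular_origin hW) with hT0
  have hτ0 : τ T0 = T0 := map_origin hW τ s hτ
  have hE0 : InE0 A (Point.some x y h + T0) := by
    rw [hT0, Point.add_of_X_ne hx0]
    show W.addX x 0 (W.slope x 0 y 0) ∉ A.nonunits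
    rw [Affine.slope_of_X_ne hx0]
    simp only [Affine.addX, hW.a₁]
    have e : ((y - 0) / (x - 0)) ^ 2 + 0 * ((y - 0) / (x - 0)) - W.a₂ - x - 0 = W.a₄ / x := by
      simp only [sub_zero, zero_mul, add_zero]
      field_simp
      linear_combination heq
    rw [e, A.mem_nonunits_iff, not_lt, map_div₀]
    exact (one_le_div₀ hvxpos).mpr hx2
  have key := sub_mem_E1_of_mem_E0 hW τ s hs hsA hτ hE1sub _ hE0
  have e : τ (Point.some x y h + T0) - (Point.some x y h + T0) =
      τ (Point.some x y h) - Point.some x y h := by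
    rw [map_add, hτ0]; abel
  rwa [e] at key

include hW hs hsA hτ hE1sub in
/-- **Multiplicative reduction.** `τ` fixes every `n`-torsion point, provided the kernel of
reduction has no `n`-torsion and `n`-torsion points in the open annulus `v(a₄) < v(x) < 1` have
`x`-coordinates whose valuation is that of an `s`-fixed element. -/
theorem fixed_of_mult_reduction (n : ℤ)
    (hL1 : ∀ P : W.Point, InE1 A P → n • P = 0 → P = 0)
    (hmid : ∀ (x y : K) (h : W.Nonsingular x y), n • Point.some x y h = 0 →
      A.valuation W.a₄ < A.valuation x → A.valuation x < 1 →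
        ∃ g : K, s g = g ∧ A.valuation g = A.valuation x)
    (P : W.Point) (hP : n • P = 0) : τ P = P := by
  have key : InE1 A (τ P - P) := by
    rcases P with _ | ⟨x, y, h⟩
    · exact sub_mem_E1_of_mem_E0 hW τ s hs hsA hτ hE1sub _ trivial
    · by_cases hx1 : A.valuation x < 1
      · by_cases hx2 : A.valuation W.a₄ < A.valuation x
        · obtain ⟨g, hg, hgx⟩ := hmid x y h hP hx2 hx1
          exact sub_mem_E1_of_mid hW τ s hs hτ h hx1 hx2 g hg hgx
        · by_cases hx0 : x = 0
          · subst hx0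
            have heq := hW.equation h.1
            have hy : y = 0 := by
              have : y ^ 2 = 0 := by rw [heq]; ring
              exact pow_eq_zero_iff (by norm_num) |>.mp this
            subst hy
            rw [map_origin hW τ s hτ, sub_self]
            exact trivial
          · exact sub_mem_E1_of_low hW τ s hs hsA hτ hE1sub h hx0 (not_lt.mp hx2)
      · exact sub_mem_E1_of_mem_E0 hW τ s hs hsA hτ hE1sub _
          (show x ∉ A.nonunits from fun hm => hx1 (A.mem_nonunits_iff.mp hm))
  have hn : n • (τ P - P) = 0 := by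
    rw [smul_sub, ← map_zsmul, hP, map_zero, sub_zero]
  exact sub_eq_zero.mp (hL1 _ key hn)

end endgame

end Fermat.Agent.S05.MultEndgame
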