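import Mathlib
import Fermat.Prelude.Def_FLTPrelim_GaloisRep

/-!
# S05, piece G2: points with the same nonsingular reduction differ by a point of `E₁`

General Weierstrass curve `W` over a field `K`, `A : ValuationSubring K`, all `aᵢ ∈ A`.
We never form the reduced curve: "reduction" is expressed by congruences modulo `A.nonunits`.
-/

set_option autoImplicit false

namespace Fermat.Agent.S05.SameRed

open WeierstrassCurve WeierstrassCurve.Affine

variable {K : Type*} [Field K]

/-- All Weierstrass coefficients lie in the valuation subring. -/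
def IntegralCoeffs (A : ValuationSubring K) (W : WeierstrassCurve K) : Prop :=
  W.a₁ ∈ A ∧ W.a₂ ∈ A ∧ W.a₃ ∈ A ∧ W.a₄ ∈ A ∧ W.a₆ ∈ A

section val

variable (A : ValuationSubring K)

theorem one_lt_val_of_not_mem {z : K} (hz : z ∉ A) : 1 < A.valuation z := by
  rw [← not_le, A.valuation_le_one_iff]; exact hz

theorem not_mem_of_one_lt_val {z : K} (hz : 1 < A.valuation z) : z ∉ A := by
  rw [← A.valuation_le_one_iff, not_le]; exact hz

theorem val_le_one {z : K} (hz : z ∈ A) : A.valuation z ≤ 1 :=
  (A.valuation_le_one_iff z).2 hz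

theorem val_lt_one {z : K} (hz : z ∈ A.nonunits) : A.valuation z < 1 :=
  A.mem_nonunits_iff.1 hz

theorem mem_of_mem_nonunits {z : K} (hz : z ∈ A.nonunits) : z ∈ A :=
  (A.valuation_le_one_iff z).1 (val_lt_one A hz).le

theorem nonunits_mul_left {a z : K} (ha : a ∈ A) (hz : z ∈ A.nonunits) : a * z ∈ A.nonunits := by
  rw [A.mem_nonunits_iff, map_mul]
  calc A.valuation a * A.valuation z ≤ 1 * A.valuation z :=
        mul_le_mul_of_nonneg_right (val_le_one A ha) zero_le
    _ = A.valuation z := one_mul _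
    _ < 1 := val_lt_one A hz

theorem nonunits_mul_right {a z : K} (hz : z ∈ A.nonunits) (ha : a ∈ A) : z * a ∈ A.nonunits := by
  rw [mul_comm]; exact nonunits_mul_left A ha hz

theorem two_mem : (2 : K) ∈ A := by exact_mod_cast natCast_mem A 2

theorem three_mem : (3 : K) ∈ A := by exact_mod_cast natCast_mem A 3

/-- A unit plus a non-unit has valuation one. -/
theorem val_add_eq_one {u e : K} (hu : A.valuation u = 1) (he : e ∈ A.nonunits) :
    A.valuation (u + e) = 1 := by
  rw [Valuation.map_add_eq_of_lt_left, hu]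
  rw [hu]; exact val_lt_one A he

theorem val_eq_one_of_mem_of_not_nonunits {u : K} (hu : u ∈ A) (hu' : u ∉ A.nonunits) :
    A.valuation u = 1 := by
  rw [A.mem_nonunits_iff, not_lt] at hu'
  exact le_antisymm (val_le_one A hu) hu'

/-- The `x`-coordinate `ℓ² + a₁ℓ - a₂ - x₁ - x₂` of a sum is not integral as soon as the slope
is not integral. -/
theorem addX_not_mem {a1 a2 x1 x2 l : K} (h1 : a1 ∈ A) (h2 : a2 ∈ A) (hx1 : x1 ∈ A)
    (hx2 : x2 ∈ A) (hl : l ∉ A) : l ^ 2 + a1 * l - a2 - x1 - x2 ∉ A := by
  have hl1 : 1 < A.valuation l := one_lt_val_of_not_mem A hl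
  have hl0 : (0 : A.ValueGroup) < A.valuation l := lt_trans zero_lt_one hl1
  have hsq : A.valuation l < A.valuation (l ^ 2) := by
    rw [map_pow, sq]
    calc A.valuation l = A.valuation l * 1 := (mul_one _).symm
      _ < A.valuation l * A.valuation l := by
          exact mul_lt_mul_of_pos_left hl1 hl0
  have ht : A.valuation (a1 * l - a2 - x1 - x2) ≤ A.valuation l := by
    refine Valuation.map_sub_le _ (Valuation.map_sub_le _ (Valuation.map_sub_le _ ?_ ?_) ?_) ?_
    · rw [map_mul]
      calc A.valuation a1 * A.valuation l ≤ 1 * A.valuation l := by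
            exact mul_le_mul_of_nonneg_right (val_le_one A h1) hl0.le
        _ = A.valuation l := one_mul _
    · exact (val_le_one A h2).trans hl1.le
    · exact (val_le_one A hx1).trans hl1.le
    · exact (val_le_one A hx2).trans hl1.le
  have : l ^ 2 + a1 * l - a2 - x1 - x2 = l ^ 2 + (a1 * l - a2 - x1 - x2) := by ring
  rw [this]
  apply not_mem_of_one_lt_val
  rw [Valuation.map_add_eq_of_lt_left _ (lt_of_le_of_lt ht hsq)]
  exact lt_trans hl1 hsq

/-- A quotient of a unit by a nonzero non-unit is not integral. -/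
theorem div_not_mem {n d : K} (hn : A.valuation n = 1) (hd : d ∈ A.nonunits) (hd0 : d ≠ 0) :
    n / d ∉ A := by
  apply not_mem_of_one_lt_val
  have hd1 := val_lt_one A hd
  have hdpos : (0 : A.ValueGroup) < A.valuation d := by
    rw [Valuation.pos_iff]; exact hd0
  rw [map_div₀, hn, one_div]
  exact (one_lt_inv₀ hdpos).2 hd1

end val

section core

variable {W : Affine K} (A : ValuationSubring K)

/-- The partial derivative `-∂W/∂x = 3x² + 2a₂x + a₄ - a₁y` (the numerator of the tangent slope). -/
def Wx (W : Affine K) (x y : K) : K := 3 * x ^ 2 + 2 * W.a₂ * x + W.a₄ - W.a₁ * y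

/-- The partial derivative `∂W/∂y = 2y + a₁x + a₃` (the denominator of the tangent slope). -/
def Wy (W : Affine K) (x y : K) : K := 2 * y + W.a₁ * x + W.a₃

theorem Wx_mem (hW : IntegralCoeffs A W) {x y : K} (hx : x ∈ A) (hy : y ∈ A) : Wx W x y ∈ A := by
  obtain ⟨h1, h2, h3, h4, h6⟩ := hW
  unfold Wx
  exact sub_mem (add_mem (add_mem (mul_mem (three_mem A) (pow_mem hx 2))
    (mul_mem (mul_mem (two_mem A) h2) hx)) h4) (mul_mem h1 hy)

theorem Wy_mem (hW : IntegralCoeffs A W) {x y : K} (hx : x ∈ A) (hy : y ∈ A) : Wy W x y ∈ A := by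
  obtain ⟨h1, h2, h3, h4, h6⟩ := hW
  unfold Wy
  exact add_mem (add_mem (mul_mem (two_mem A) hy) (mul_mem h1 hx)) h3

variable [DecidableEq K]

/-- Key slope estimate: two integral points on `W` that are congruent modulo the maximal ideal, with
`(x, y)` reducing to a nonsingular point.  The slope of the line through `(x', y')` and
`-(x, y) = (x, negY x y)` is not integral (unless `(x', y') = (x, y)`). -/
theorem slope_not_mem (hW : IntegralCoeffs A W) {x y x' y' : K}
    (h : W.Equation x y) (h' : W.Equation x' y')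
    (hx : x ∈ A) (hy : y ∈ A)
    (hxx : x' - x ∈ A.nonunits) (hyy : y' - y ∈ A.nonunits)
    (hns : ¬ (Wx W x y ∈ A.nonunits ∧ Wy W x y ∈ A.nonunits))
    (hne : ¬ (x' = x ∧ y' = y)) :
    W.slope x' x y' (W.negY x y) ∉ A := by
  obtain ⟨h1, h2, h3, h4, h6⟩ := id hW
  have hx' : x' ∈ A := by
    have := add_mem (mem_of_mem_nonunits A hxx) hx
    rwa [sub_add_cancel] at this
  have hWx := Wx_mem A hW hx hy
  have hWy := Wy_mem A hW hx hy
  rw [equation_iff] at h h'
  by_cases hxe : x' = x
  · -- vertical situation: `y' = negY x y`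
    have hyne : y' ≠ y := fun hy => hne ⟨hxe, hy⟩
    have hy'eq : y' = W.negY x y := by
      have : (y' - y) * (y' - W.negY x y) = 0 := by
        rw [negY]; subst hxe; linear_combination h' - h
      rcases mul_eq_zero.1 this with h0 | h0
      · exact absurd (sub_eq_zero.1 h0) hyne
      · exact sub_eq_zero.1 h0
    have hyn : y' ≠ W.negY x (W.negY x y) := by rw [negY_negY]; exact hyne
    rw [slope_of_Y_ne hxe hyn]
    -- numerator = Wx + a₁ Wy, denominator = - Wy
    have hWyeq : y' - y = - Wy W x y := by rw [hy'eq, negY, Wy]; ring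
    have hWym : Wy W x y ∈ A.nonunits := by
      have := neg_mem hyy
      rwa [hWyeq, neg_neg] at this
    have hWxu : A.valuation (Wx W x y) = 1 :=
      val_eq_one_of_mem_of_not_nonunits A hWx (fun hc => hns ⟨hc, hWym⟩)
    have hnum : 3 * x' ^ 2 + 2 * W.a₂ * x' + W.a₄ - W.a₁ * y' = Wx W x y + W.a₁ * Wy W x y := by
      rw [hy'eq, hxe, negY, Wx, Wy]; ring
    have hden : y' - W.negY x' y' = - Wy W x y := by
      rw [hy'eq, hxe, negY, negY, Wy]; ring
    rw [hnum, hden]
    refine div_not_mem A ?_ (neg_mem hWym) ?_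
    · exact val_add_eq_one A hWxu (nonunits_mul_left A h1 hWym)
    · rw [← hWyeq]; exact sub_ne_zero.2 hyne
  · rw [slope_of_X_ne hxe]
    have hd0 : x' - x ≠ 0 := sub_ne_zero.2 hxe
    by_cases hWym : Wy W x y ∈ A.nonunits
    · -- use the other expression of the slope
      have hWxu : A.valuation (Wx W x y) = 1 :=
        val_eq_one_of_mem_of_not_nonunits A hWx (fun hc => hns ⟨hc, hWym⟩)
      set D : K := (y' - y) + W.a₁ * (x' - x) with hD
      set N : K := x' ^ 2 + x' * x + x ^ 2 + W.a₂ * (x' + x) + W.a₄ - W.a₁ * W.negY x y with hN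
      have hid : (y' - W.negY x y) * D = (x' - x) * N := by
        rw [hD, hN, negY]; linear_combination h' - h
      have hNeq : N = Wx W x y + ((x' - x) * (x' + 2 * x) + W.a₂ * (x' - x) + W.a₁ * Wy W x y) := by
        rw [hN, negY, Wx, Wy]; ring
      have hNu : A.valuation N = 1 := by
        rw [hNeq]
        refine val_add_eq_one A hWxu ?_
        refine add_mem (add_mem ?_ ?_) ?_
        · exact nonunits_mul_right A hxx (add_mem hx' (mul_mem (two_mem A) hx))
        · exact nonunits_mul_left A h2 hxx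
        · exact nonunits_mul_left A h1 hWym
      have hDm : D ∈ A.nonunits := add_mem hyy (nonunits_mul_left A h1 hxx)
      have hN0 : N ≠ 0 := by
        intro h0; rw [h0, map_zero] at hNu; exact zero_ne_one hNu
      have hD0 : D ≠ 0 := by
        intro h0
        rw [h0, mul_zero] at hid
        exact (mul_ne_zero hd0 hN0) hid.symm
      have : (y' - W.negY x y) / (x' - x) = N / D := by
        rw [div_eq_div_iff hd0 hD0, hid]; ring
      rw [this]
      exact div_not_mem A hNu hDm hD0
    · have hWyu : A.valuation (Wy W x y) = 1 := val_eq_one_of_mem_of_not_nonunits A hWy hWym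
      have hnum : y' - W.negY x y = Wy W x y + (y' - y) := by rw [negY, Wy]; ring
      rw [hnum]
      exact div_not_mem A (val_add_eq_one A hWyu hyy) hxx hd0

/-- **Same nonsingular reduction ⇒ the difference lies in `E₁`.**
`P = (x, y)` integral, `P' = (x', y')` with `x' ≡ x`, `y' ≡ y` modulo the maximal ideal, and the
common reduction nonsingular (not both partial derivatives at `P` are non-units).  Then
`P' - P` is `0` or an affine point whose `x`-coordinate is not integral. -/
theorem sub_eq_zero_or_not_mem (hW : IntegralCoeffs A W) {x y x' y' : K}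
    (h : W.Nonsingular x y) (h' : W.Nonsingular x' y')
    (hx : x ∈ A) (hy : y ∈ A)
    (hxx : x' - x ∈ A.nonunits) (hyy : y' - y ∈ A.nonunits)
    (hns : ¬ (Wx W x y ∈ A.nonunits ∧ Wy W x y ∈ A.nonunits)) :
    Point.some x' y' h' - Point.some x y h = 0 ∨
      ∃ (x3 y3 : K) (h3 : W.Nonsingular x3 y3),
        Point.some x' y' h' - Point.some x y h = Point.some x3 y3 h3 ∧ x3 ∉ A := by
  obtain ⟨h1, h2, h3, h4, h6⟩ := id hW
  have hx' : x' ∈ A := by
    have := add_mem (mem_of_mem_nonunits A hxx) hx
    rwa [sub_add_cancel] at this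
  rw [sub_eq_add_neg, Point.neg_some]
  by_cases hxy : x' = x ∧ y' = W.negY x (W.negY x y)
  · left
    exact Point.add_of_Y_eq hxy.1 hxy.2
  · right
    have hne : ¬ (x' = x ∧ y' = y) := by rwa [negY_negY] at hxy
    refine ⟨_, _, nonsingular_add h' ((nonsingular_neg ..).mpr h) hxy, Point.add_some hxy, ?_⟩
    exact addX_not_mem A h1 h2 hx' hx (slope_not_mem A hW h.1 h'.1 hx hy hxx hyy hns hne)

/-- Doubling a point whose reduction is a nonsingular point with vertical tangent (`W_y ∈ m`,
`W_x` a unit): `2 • P` is `0` or has non-integral `x`-coordinate. -/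
theorem two_nsmul_eq_zero_or_not_mem (hW : IntegralCoeffs A W) {x y : K}
    (h : W.Nonsingular x y) (hx : x ∈ A) (hy : y ∈ A)
    (hWy : Wy W x y ∈ A.nonunits) (hWx : Wx W x y ∉ A.nonunits) :
    2 • Point.some x y h = 0 ∨
      ∃ (x3 y3 : K) (h3 : W.Nonsingular x3 y3),
        2 • Point.some x y h = Point.some x3 y3 h3 ∧ x3 ∉ A := by
  obtain ⟨h1, h2, h3, h4, h6⟩ := id hW
  rw [two_nsmul]
  by_cases hyy : y = W.negY x y
  · left; exact Point.add_self_of_Y_eq hyy
  · right
    refine ⟨_, _, _, Point.add_self_of_Y_ne hyy, ?_⟩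
    refine addX_not_mem A h1 h2 hx hx ?_
    rw [slope_of_Y_ne rfl hyy]
    have hnum : 3 * x ^ 2 + 2 * W.a₂ * x + W.a₄ - W.a₁ * y = Wx W x y := rfl
    have hden : y - W.negY x y = Wy W x y := by rw [negY, Wy]; ring
    rw [hnum, hden]
    refine div_not_mem A (val_eq_one_of_mem_of_not_nonunits A (Wx_mem A hW hx hy) hWx) hWy ?_
    rw [← hden]; exact sub_ne_zero.2 hyy

/-- Doubling an integral point with `W_y` a unit: the tangent slope `W_x / W_y` is integral and
`2 • P` is the integral point given by the usual formulas. -/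
theorem two_nsmul_integral (hW : IntegralCoeffs A W) {x y : K}
    (h : W.Nonsingular x y) (hx : x ∈ A) (hy : y ∈ A)
    (hWy : Wy W x y ∉ A.nonunits) :
    Wx W x y / Wy W x y ∈ A ∧
      ∃ (h3 : W.Nonsingular (W.addX x x (Wx W x y / Wy W x y))
          (W.addY x x y (Wx W x y / Wy W x y))),
        2 • Point.some x y h = Point.some _ _ h3 ∧
        W.addX x x (Wx W x y / Wy W x y) ∈ A ∧ W.addY x x y (Wx W x y / Wy W x y) ∈ A := by
  obtain ⟨h1, h2, h3, h4, h6⟩ := id hW
  have hWyu : A.valuation (Wy W x y) = 1 :=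
    val_eq_one_of_mem_of_not_nonunits A (Wy_mem A hW hx hy) hWy
  have hl : Wx W x y / Wy W x y ∈ A := by
    rw [← A.valuation_le_one_iff, map_div₀, hWyu, div_one]
    exact val_le_one A (Wx_mem A hW hx hy)
  have hden : y - W.negY x y = Wy W x y := by rw [negY, Wy]; ring
  have hyy : y ≠ W.negY x y := by
    intro hc
    rw [← hden, sub_eq_zero.2 hc, map_zero] at hWyu
    exact zero_ne_one hWyu
  have hslope : W.slope x x y y = Wx W x y / Wy W x y := by
    rw [slope_of_Y_ne rfl hyy, hden]; rfl
  have hX : W.addX x x (Wx W x y / Wy W x y) ∈ A := by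
    simp only [addX]
    exact sub_mem (sub_mem (sub_mem (add_mem (pow_mem hl 2) (mul_mem h1 hl)) h2) hx) hx
  refine ⟨hl, ?_⟩
  have key := Point.add_self_of_Y_ne (h₁ := h) hyy
  rw [← two_nsmul] at key
  have hgen : ∀ l : K, l = W.slope x x y y →
      ∀ hns : W.Nonsingular (W.addX x x l) (W.addY x x y l),
        2 • Point.some x y h = Point.some _ _ hns := by
    rintro _ rfl _; exact key
  have hns3 : W.Nonsingular (W.addX x x (Wx W x y / Wy W x y))
      (W.addY x x y (Wx W x y / Wy W x y)) := by
    have := nonsingular_add h h (fun hxy => hyy hxy.2)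
    rwa [hslope] at this
  refine ⟨hns3, hgen _ hslope.symm hns3, hX, ?_⟩
  simp only [addY, negAddY, negY]
  exact sub_mem (sub_mem (neg_mem (add_mem (mul_mem hl (sub_mem hX hx)) hy)) (mul_mem h1 hX)) h3

end core

section galois

open WeierstrassCurve.Affine.Point

variable {R S : Type*} [CommRing R] [CommRing S] [DecidableEq K] {W' : Affine R}
  [Algebra R S] [Algebra R K] [Algebra S K] [IsScalarTower R S K]

/-- **Inertia form.** `σ` an automorphism of `K` that is congruent to the identity on `A` modulo the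
maximal ideal; `P = (x, y)` an integral point of `W'⁄K` with nonsingular reduction.  Then
`σ • P - P` is `0` or an affine point with non-integral `x`-coordinate. -/
theorem smul_sub_eq_zero_or_not_mem (A : ValuationSubring K) (hW : IntegralCoeffs A (W'⁄K))
    (σ : K ≃ₐ[S] K) (hσ : ∀ z ∈ A, σ z - z ∈ A.nonunits) {x y : K}
    (h : (W'⁄K).Nonsingular x y) (hx : x ∈ A) (hy : y ∈ A)
    (hns : ¬ (Wx (W'⁄K) x y ∈ A.nonunits ∧ Wy (W'⁄K) x y ∈ A.nonunits)) :
    σ • Point.some x y h - Point.some x y h = 0 ∨
      ∃ (x3 y3 : K) (h3 : (W'⁄K).Nonsingular x3 y3),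
        σ • Point.some x y h - Point.some x y h = Point.some x3 y3 h3 ∧ x3 ∉ A := by
  rw [algEquiv_smul_def, Point.map_some]
  exact sub_eq_zero_or_not_mem A hW h _ hx hy (hσ x hx) (hσ y hy) hns

end galois

end Fermat.Agent.S05.SameRed
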