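import Mathlib

set_option autoImplicit false

/-!
# S05, piece M3: inertia-fixed special points, value-group arithmetic, abstract endgame

Design independent helper lemmas (general valued field `K`, valuation subring `A`).
-/

namespace Fermat.Agent.S05.Special

open WeierstrassCurve

variable {K : Type*} [Field K]

/-- A ring automorphism `s` of `K` which stabilises the valuation subring `A` and acts trivially
on its residue field (`s x - x ∈ 𝔪` for `x ∈ A`). -/
structure InertiaLike (A : ValuationSubring K) (s : K ≃+* K) : Prop where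
  mem_iff : ∀ x : K, s x ∈ A ↔ x ∈ A
  sub_mem : ∀ x : K, x ∈ A → s x - x ∈ A.nonunits

variable {A : ValuationSubring K} {s : K ≃+* K}

lemma two_ne_zero_of_val (h2 : A.valuation (2 : K) = 1) : (2 : K) ≠ 0 := by
  intro h
  rw [h, map_zero] at h2
  exact zero_ne_one h2

/-- (S1) A square root `w` of an `s`-fixed element such that `w / c` is a unit of `A` for some
`s`-fixed `c` is itself `s`-fixed (residue characteristic `≠ 2`). -/
theorem fixed_of_sq (hs : InertiaLike A s) (h2 : A.valuation (2 : K) = 1) {w c : K}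
    (hw : s (w ^ 2) = w ^ 2) (hc : s c = c) (hwc : A.valuation (w / c) = 1) :
    s w = w := by
  have h20 : (2 : K) ≠ 0 := two_ne_zero_of_val h2
  have hsq : (s w) ^ 2 = w ^ 2 := by rw [← map_pow, hw]
  rcases sq_eq_sq_iff_eq_or_eq_neg.mp hsq with h | h
  · exact h
  · exfalso
    have hmem : w / c ∈ A := (A.valuation_le_one_iff _).mp hwc.le
    have h1 := hs.sub_mem _ hmem
    rw [map_div₀, hc, h, A.mem_nonunits_iff] at h1
    have : -w / c - w / c = -(2 * (w / c)) := by ring
    rw [this, Valuation.map_neg, map_mul, h2, hwc, one_mul] at h1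
    exact lt_irrefl _ h1

/-- The quantity `η = 2y + a₁x + a₃`. -/
def eta (W : Affine K) (x y : K) : K := 2 * y + W.a₁ * x + W.a₃

lemma eta_sq (W : Affine K) {x y : K} (h : W.Equation x y) :
    eta W x y ^ 2 = 4 * x ^ 3 + W.b₂ * x ^ 2 + 2 * W.b₄ * x + W.b₆ := by
  rw [Affine.equation_iff] at h
  simp only [eta, WeierstrassCurve.b₂, WeierstrassCurve.b₄, WeierstrassCurve.b₆]
  linear_combination 4 * h

lemma eta_negY (W : Affine K) (x y : K) : eta W x (W.negY x y) = - eta W x y := by
  simp only [eta, Affine.negY]; ring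

/-- (S2) If the coefficients of `W` and the abscissa `x` are `s`-fixed and `η / c` is a unit of `A`
for some nonzero `s`-fixed `c`, then the ordinate `y` is `s`-fixed. -/
theorem y_fixed (hs : InertiaLike A s) (h2 : A.valuation (2 : K) = 1) (W : Affine K)
    (h₁ : s W.a₁ = W.a₁) (h₂ : s W.a₂ = W.a₂) (h₃ : s W.a₃ = W.a₃) (h₄ : s W.a₄ = W.a₄)
    (h₆ : s W.a₆ = W.a₆) {x y c : K} (h : W.Equation x y) (hx : s x = x) (hc : s c = c)
    (hη : A.valuation (eta W x y / c) = 1) : s y = y := by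
  have h20 : (2 : K) ≠ 0 := two_ne_zero_of_val h2
  have hfix : s (eta W x y ^ 2) = eta W x y ^ 2 := by
    rw [eta_sq W h]
    simp only [WeierstrassCurve.b₂, WeierstrassCurve.b₄, WeierstrassCurve.b₆, map_add, map_mul,
      map_pow, map_ofNat, hx, h₁, h₂, h₃, h₄, h₆]
  have hη' := fixed_of_sq hs h2 hfix hc hη
  simp only [eta, map_add, map_mul, map_ofNat, hx, h₁, h₃] at hη'
  have : 2 * s y = 2 * y := by linear_combination hη'
  exact mul_left_cancel₀ h20 this

/-- Variant: the point `(x, y)` and its image `(s x, s y)` coincide. -/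
theorem point_fixed (hs : InertiaLike A s) (h2 : A.valuation (2 : K) = 1) (W : Affine K)
    (h₁ : s W.a₁ = W.a₁) (h₂ : s W.a₂ = W.a₂) (h₃ : s W.a₃ = W.a₃) (h₄ : s W.a₄ = W.a₄)
    (h₆ : s W.a₆ = W.a₆) {x y c : K} (h : W.Equation x y) (hx : s x = x) (hc : s c = c)
    (hη : A.valuation (eta W x y / c) = 1) : s x = x ∧ s y = y :=
  ⟨hx, y_fixed hs h2 W h₁ h₂ h₃ h₄ h₆ h hx hc hη⟩

/-! ### Sign selection modulo the maximal ideal -/

/-- If `u² - t² ∈ 𝔪` then `u - t ∈ 𝔪` or `u + t ∈ 𝔪`. -/
theorem sub_or_add_mem_of_sq_sub_sq_mem {u t : K}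
    (h : u ^ 2 - t ^ 2 ∈ A.nonunits) : u - t ∈ A.nonunits ∨ u + t ∈ A.nonunits := by
  rw [A.mem_nonunits_iff] at h
  simp only [A.mem_nonunits_iff]
  by_contra hcon
  push Not at hcon
  have : u ^ 2 - t ^ 2 = (u - t) * (u + t) := by ring
  rw [this, map_mul] at h
  have := mul_le_mul' hcon.1 hcon.2
  rw [one_mul] at this
  exact absurd h (not_lt.mpr this)

/-- Both signs cannot occur when `t` is a unit and `2` is a unit. -/
theorem not_sub_and_add_mem {u t : K} (h2 : A.valuation (2 : K) = 1) (ht : A.valuation t = 1)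
    (h₁ : u - t ∈ A.nonunits) (h₂ : u + t ∈ A.nonunits) : False := by
  have h3 : (u + t) - (u - t) ∈ A.nonunits := A.nonunits.sub_mem h₂ h₁
  have : (u + t) - (u - t) = 2 * t := by ring
  rw [this, A.mem_nonunits_iff, map_mul, h2, ht, one_mul] at h3
  exact lt_irrefl _ h3

/-! ### Existence of points with prescribed abscissa over an algebraically closed field -/

/-- (S4) Over an algebraically closed field every abscissa carries a point of the affine curve. -/
theorem exists_y [IsAlgClosed K] (W : Affine K) (x : K) : ∃ y : K, W.Equation x y := by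
  -- solve `y² + (a₁x+a₃) y - (x³+a₂x²+a₄x+a₆) = 0`
  obtain ⟨y, hy⟩ := IsAlgClosed.exists_root
    (Polynomial.X ^ 2 + Polynomial.C (W.a₁ * x + W.a₃) * Polynomial.X
      - Polynomial.C (x ^ 3 + W.a₂ * x ^ 2 + W.a₄ * x + W.a₆) : Polynomial K)
    (by
      have hd : (Polynomial.X ^ 2 + Polynomial.C (W.a₁ * x + W.a₃) * Polynomial.X
          - Polynomial.C (x ^ 3 + W.a₂ * x ^ 2 + W.a₄ * x + W.a₆) : Polynomial K).degree = 2 := by
        compute_degree!
      rw [hd]; norm_num)
  refine ⟨y, ?_⟩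
  rw [Affine.equation_iff]
  simp only [Polynomial.IsRoot.def, Polynomial.eval_sub, Polynomial.eval_add, Polynomial.eval_pow,
    Polynomial.eval_X, Polynomial.eval_mul, Polynomial.eval_C] at hy
  linear_combination hy

/-- The other point with the same abscissa. -/
theorem equation_negY (W : Affine K) {x y : K} (h : W.Equation x y) :
    W.Equation x (W.negY x y) := (Affine.equation_neg x y).mpr h

/-! ### Value group arithmetic -/

section ValueGroup

variable {Γ : Type*} [LinearOrderedCommGroupWithZero Γ]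

/-- `p`-th powers are injective in a linearly ordered group with zero. -/
theorem pow_inj_of_ne_zero {p : ℕ} (hp : p ≠ 0) {a b : Γ} (h : a ^ p = b ^ p) : a = b := by
  exact (pow_left_inj₀ (zero_le (a := a)) (zero_le (a := b)) hp).mp h

/-- (S3) If `g ^ p = β ^ k` and `β = t ^ p` (with `t ≠ 0`) then `g = t ^ k`. -/
theorem eq_zpow_of_pow_eq {p : ℕ} (hp : p ≠ 0) {g β t : Γ} (k : ℤ)
    (h1 : g ^ p = β ^ k) (h2 : β = t ^ p) : g = t ^ k := by
  apply pow_inj_of_ne_zero hp
  rw [h1, h2, ← zpow_natCast, ← zpow_natCast, ← zpow_mul, ← zpow_mul, mul_comm]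

end ValueGroup

/-- (S3') valuation form: if `v X ^ p = v β ^ k` and `v β = v t ^ p` then `v X = v (t ^ k)`. -/
theorem val_eq_val_zpow {Γ : Type*} [LinearOrderedCommGroupWithZero Γ] (v : Valuation K Γ)
    {p : ℕ} (hp : p ≠ 0) {X β t : K} (k : ℤ)
    (h1 : v X ^ p = v β ^ k) (h2 : v β = v t ^ p) : v X = v (t ^ k) := by
  rw [map_zpow₀]
  exact eq_zpow_of_pow_eq hp k h1 h2

/-! ### Abstract endgame -/

/-- (S5) Abstract endgame: `P = R + Q`, `Q` fixed, `s R - R ∈ E₁`, `E₁` has no `p`-torsion,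
`p • P = 0` imply `s P = P`. -/
theorem endgame {G : Type*} [AddCommGroup G] (σ : G →+ G) (E₁ : AddSubgroup G) (p : ℤ)
    (hE₁ : ∀ T ∈ E₁, p • T = 0 → T = 0) {P R Q : G} (hP : p • P = 0) (hPRQ : P = R + Q)
    (hQ : σ Q = Q) (hR : σ R - R ∈ E₁) : σ P = P := by
  have h1 : σ P - P = σ R - R := by
    rw [hPRQ, map_add, hQ]; abel
  have h2 : p • (σ P - P) = 0 := by
    rw [smul_sub, ← map_zsmul, hP, map_zero, sub_zero]
  have h3 : σ P - P = 0 := hE₁ _ (h1 ▸ hR) h2
  exact sub_eq_zero.mp h3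

/-- Set-version of the endgame (no subgroup structure on `E₁` needed). -/
theorem endgame' {G : Type*} [AddCommGroup G] (σ : G →+ G) (E₁ : Set G) (p : ℤ)
    (hE₁ : ∀ T ∈ E₁, p • T = 0 → T = 0) {P R Q : G} (hP : p • P = 0) (hPRQ : P = R + Q)
    (hQ : σ Q = Q) (hR : σ R - R ∈ E₁) : σ P = P := by
  have h1 : σ P - P = σ R - R := by
    rw [hPRQ, map_add, hQ]; abel
  have h2 : p • (σ P - P) = 0 := by
    rw [smul_sub, ← map_zsmul, hP, map_zero, sub_zero]
  have h3 : σ P - P = 0 := hE₁ _ (h1 ▸ hR) h2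
  exact sub_eq_zero.mp h3

end Fermat.Agent.S05.Special
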