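import Fermat.Agent.S51.Torsion

/-!
# x-only identities for the group law of a Weierstrass curve (helper file for S05)

For affine points `P Q` of a Weierstrass curve over a field with `xc P ≠ xc Q`:
* `(xc (P+Q) + xc (P-Q)) * (xc P - xc Q)^2 = addT W (xc P) (xc Q)`
* `xc (P+Q) * xc (P-Q) * (xc P - xc Q)^2 = addPi W (xc P) (xc Q)`
and the `(x, η)`-coordinate form of the addition law, `η = 2y + a₁x + a₃`.
-/

set_option autoImplicit false
set_option linter.unusedSectionVars false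

namespace Fermat.Agent.S05

open WeierstrassCurve WeierstrassCurve.Affine
open Fermat.Agent.S51 (xc f2 phi2)

variable {F : Type*} [Field F] [DecidableEq F] {W : WeierstrassCurve.Affine F}

/-- `x(P+Q) + x(P-Q) = addT / (x₁-x₂)²`. -/
def addT (W : WeierstrassCurve.Affine F) (x1 x2 : F) : F :=
  2 * x1 * x2 * (x1 + x2) + W.b₂ * x1 * x2 + W.b₄ * (x1 + x2) + W.b₆

/-- `x(P+Q) * x(P-Q) = addPi / (x₁-x₂)²`. -/
def addPi (W : WeierstrassCurve.Affine F) (x1 x2 : F) : F :=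
  x1 ^ 2 * x2 ^ 2 - W.b₄ * x1 * x2 - W.b₆ * (x1 + x2) - W.b₈

/-- The `η`-coordinate `2y + a₁x + a₃` (`0` at infinity). -/
def eta : W.Point → F
  | .zero => 0
  | .some x y _ => 2 * y + W.a₁ * x + W.a₃

@[simp] lemma eta_some {x y : F} (h : W.Nonsingular x y) :
    eta (Point.some x y h) = 2 * y + W.a₁ * x + W.a₃ := rfl

@[simp] lemma eta_zero : eta (0 : W.Point) = 0 := rfl

@[simp] lemma xc_zero : xc (0 : W.Point) = 0 := rfl

lemma eta_neg (P : W.Point) : eta (-P) = -eta P := by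
  cases P with
  | zero => 
    change eta (-(0 : W.Point)) = -eta (0 : W.Point)
    rw [neg_zero]; simp
  | some x y h =>
    rw [Point.neg_some]
    simp only [eta_some, Affine.negY]
    ring

lemma eta_sq (P : W.Point) (hP : P ≠ 0) : eta P ^ 2 = f2 W (xc P) := by
  cases P with
  | zero => exact absurd rfl hP
  | some x y h =>
    have := Fermat.Agent.S51.f2_eq_sq h.1
    rw [Fermat.Agent.S51.xc_some, this, eta_some]
    unfold Affine.negY
    ring

lemma eq_of_xc_eq_of_eta_eq [NeZero (2 : F)] {P Q : W.Point} (hP : P ≠ 0) (hQ : Q ≠ 0)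
    (hx : xc P = xc Q) (he : eta P = eta Q) : P = Q := by
  cases P with
  | zero => exact absurd rfl hP
  | some x y h =>
    cases Q with
    | zero => exact absurd rfl hQ
    | some x' y' h' =>
      simp only [Fermat.Agent.S51.xc_some] at hx
      subst hx
      simp only [eta_some] at he
      have h2 : (2 : F) ≠ 0 := NeZero.ne 2
      have : y = y' := by
        have : 2 * y = 2 * y' := by linear_combination he
        exact mul_left_cancel₀ h2 this
      subst this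
      rfl

/-- numerator of `x(P₁+P₂)` -/
private def numP (W : WeierstrassCurve.Affine F) (x1 y1 x2 y2 : F) : F :=
  (y1 - y2) ^ 2 + W.a₁ * (y1 - y2) * (x1 - x2) - (W.a₂ + x1 + x2) * (x1 - x2) ^ 2

private lemma addX_eq_numP {x1 y1 x2 y2 : F} (hx : x1 ≠ x2) :
    W.addX x1 x2 ((y1 - y2) / (x1 - x2)) * (x1 - x2) ^ 2 = numP W x1 y1 x2 y2 := by
  have hd : x1 - x2 ≠ 0 := sub_ne_zero.mpr hx
  simp only [Affine.addX, numP]
  field_simp
  ring

private lemma numP_add {x1 y1 x2 y2 : F} (h1 : W.Equation x1 y1) (h2 : W.Equation x2 y2) :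
    numP W x1 y1 x2 y2 + numP W x1 y1 x2 (W.negY x2 y2) = addT W x1 x2 := by
  rw [Affine.equation_iff] at h1 h2
  simp only [numP, addT, Affine.negY, WeierstrassCurve.b₂, WeierstrassCurve.b₄,
    WeierstrassCurve.b₆]
  linear_combination 2 * h1 + 2 * h2

private lemma numP_mul {x1 y1 x2 y2 : F} (h1 : W.Equation x1 y1) (h2 : W.Equation x2 y2) :
    numP W x1 y1 x2 y2 * numP W x1 y1 x2 (W.negY x2 y2) = (x1 - x2) ^ 2 * addPi W x1 x2 := by
  rw [Affine.equation_iff] at h1 h2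
  simp only [numP, addPi, Affine.negY, WeierstrassCurve.b₄,
    WeierstrassCurve.b₆, WeierstrassCurve.b₈]
  linear_combination
    (-x1^3 + 2*x1^2*x2 - x1^2*W.a₂ + x1*y1*W.a₁ + 2*x1*x2^2 + x1*x2*W.a₁^2 + 4*x1*x2*W.a₂
      + x1*W.a₁*W.a₃ + x1*W.a₄ + y1^2 + y1*W.a₃ - 2*x2^3 - x2^2*W.a₁^2 - 2*x2^2*W.a₂
      - 2*x2*y2*W.a₁ - x2*W.a₁*W.a₃ - 2*y2^2 - 2*y2*W.a₃ + W.a₆) * h1
    + (-4*x1^3 + 2*x1^2*x2 - x1^2*W.a₁^2 - 4*x1^2*W.a₂ + 2*x1*x2^2 + x1*x2*W.a₁^2
      + 4*x1*x2*W.a₂ - x1*W.a₁*W.a₃ - 2*x1*W.a₄ - x2^3 - x2^2*W.a₂ + x2*y2*W.a₁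
      + x2*W.a₁*W.a₃ + x2*W.a₄ + y2^2 + y2*W.a₃ - W.a₆) * h2

private lemma two_numP {x1 y1 x2 y2 : F} (h1 : W.Equation x1 y1) (h2 : W.Equation x2 y2) :
    2 * numP W x1 y1 x2 y2 =
      addT W x1 x2 - (2 * y1 + W.a₁ * x1 + W.a₃) * (2 * y2 + W.a₁ * x2 + W.a₃) := by
  rw [Affine.equation_iff] at h1 h2
  simp only [numP, addT, WeierstrassCurve.b₂, WeierstrassCurve.b₄,
    WeierstrassCurve.b₆]
  linear_combination 2 * h1 + 2 * h2

/-- Description of `P + Q` for affine points with distinct `x`-coordinates. -/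
lemma add_some_of_ne {x1 y1 x2 y2 : F} (h1 : W.Nonsingular x1 y1) (h2 : W.Nonsingular x2 y2)
    (hx : x1 ≠ x2) :
    Point.some x1 y1 h1 + Point.some x2 y2 h2 ≠ 0 ∧
    xc (Point.some x1 y1 h1 + Point.some x2 y2 h2) * (x1 - x2) ^ 2 = numP W x1 y1 x2 y2 ∧
    eta (Point.some x1 y1 h1 + Point.some x2 y2 h2) =
      -((2 * y1 + W.a₁ * x1 + W.a₃) - (2 * y2 + W.a₁ * x2 + W.a₃)) / (x1 - x2) *
        (xc (Point.some x1 y1 h1 + Point.some x2 y2 h2) - x1) - (2 * y1 + W.a₁ * x1 + W.a₃) := by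
  have hd : x1 - x2 ≠ 0 := sub_ne_zero.mpr hx
  rw [Point.add_of_X_ne hx]
  refine ⟨Point.some_ne_zero _, ?_, ?_⟩
  · rw [Fermat.Agent.S51.xc_some, Affine.slope_of_X_ne hx]
    exact addX_eq_numP hx
  · rw [Fermat.Agent.S51.xc_some, eta_some, Affine.slope_of_X_ne hx]
    simp only [Affine.addY, Affine.negAddY, Affine.negY]
    field_simp
    ring

variable {P Q : W.Point}

lemma add_ne_zero_of_xc_ne (hP : P ≠ 0) (hQ : Q ≠ 0) (hx : xc P ≠ xc Q) : P + Q ≠ 0 := by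
  cases P with
  | zero => exact absurd rfl hP
  | some x1 y1 h1 =>
    cases Q with
    | zero => exact absurd rfl hQ
    | some x2 y2 h2 => exact (add_some_of_ne h1 h2 hx).1

lemma sub_ne_zero_of_xc_ne (hP : P ≠ 0) (hQ : Q ≠ 0) (hx : xc P ≠ xc Q) : P - Q ≠ 0 := by
  rw [sub_eq_add_neg]
  exact add_ne_zero_of_xc_ne hP (neg_ne_zero.mpr hQ) (by rwa [Fermat.Agent.S51.xc_neg])

/-- `2 x(P+Q) (x₁-x₂)² = T - η₁η₂`. -/
theorem two_xc_add (hP : P ≠ 0) (hQ : Q ≠ 0) (hx : xc P ≠ xc Q) :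
    2 * xc (P + Q) * (xc P - xc Q) ^ 2 = addT W (xc P) (xc Q) - eta P * eta Q := by
  cases P with
  | zero => exact absurd rfl hP
  | some x1 y1 h1 =>
    cases Q with
    | zero => exact absurd rfl hQ
    | some x2 y2 h2 =>
      simp only [Fermat.Agent.S51.xc_some] at hx
      obtain ⟨-, hxc, -⟩ := add_some_of_ne h1 h2 hx
      simp only [Fermat.Agent.S51.xc_some, eta_some]
      rw [← two_numP h1.1 h2.1, ← hxc]
      ring

/-- `2 x(P-Q) (x₁-x₂)² = T + η₁η₂`. -/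
theorem two_xc_sub (hP : P ≠ 0) (hQ : Q ≠ 0) (hx : xc P ≠ xc Q) :
    2 * xc (P - Q) * (xc P - xc Q) ^ 2 = addT W (xc P) (xc Q) + eta P * eta Q := by
  have h := two_xc_add hP (neg_ne_zero.mpr hQ) (by rwa [Fermat.Agent.S51.xc_neg])
  rw [Fermat.Agent.S51.xc_neg, eta_neg, ← sub_eq_add_neg] at h
  rw [h]; ring

/-- `(x(P+Q) + x(P-Q)) (x₁-x₂)² = T`. -/
theorem xc_add_add_xc_sub (hP : P ≠ 0) (hQ : Q ≠ 0) (hx : xc P ≠ xc Q) :
    (xc (P + Q) + xc (P - Q)) * (xc P - xc Q) ^ 2 = addT W (xc P) (xc Q) := by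
  cases P with
  | zero => exact absurd rfl hP
  | some x1 y1 h1 =>
    cases Q with
    | zero => exact absurd rfl hQ
    | some x2 y2 h2 =>
      simp only [Fermat.Agent.S51.xc_some] at hx
      obtain ⟨-, hxc, -⟩ := add_some_of_ne h1 h2 hx
      have h2' : W.Nonsingular x2 (W.negY x2 y2) := (Affine.nonsingular_neg ..).mpr h2
      obtain ⟨-, hxc', -⟩ := add_some_of_ne h1 h2' hx
      rw [sub_eq_add_neg, Point.neg_some]
      simp only [Fermat.Agent.S51.xc_some]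
      rw [add_mul, hxc, hxc', numP_add h1.1 h2.1]

/-- `x(P+Q) x(P-Q) (x₁-x₂)² = Π`. -/
theorem xc_add_mul_xc_sub (hP : P ≠ 0) (hQ : Q ≠ 0) (hx : xc P ≠ xc Q) :
    xc (P + Q) * xc (P - Q) * (xc P - xc Q) ^ 2 = addPi W (xc P) (xc Q) := by
  cases P with
  | zero => exact absurd rfl hP
  | some x1 y1 h1 =>
    cases Q with
    | zero => exact absurd rfl hQ
    | some x2 y2 h2 =>
      simp only [Fermat.Agent.S51.xc_some] at hx
      have hd : x1 - x2 ≠ 0 := sub_ne_zero.mpr hx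
      obtain ⟨-, hxc, -⟩ := add_some_of_ne h1 h2 hx
      have h2' : W.Nonsingular x2 (W.negY x2 y2) := (Affine.nonsingular_neg ..).mpr h2
      obtain ⟨-, hxc', -⟩ := add_some_of_ne h1 h2' hx
      rw [sub_eq_add_neg, Point.neg_some]
      simp only [Fermat.Agent.S51.xc_some]
      have hm := numP_mul h1.1 h2.1
      rw [← hxc, ← hxc'] at hm
      have hd2 : (x1 - x2) ^ 2 ≠ 0 := pow_ne_zero 2 hd
      apply mul_left_cancel₀ hd2
      linear_combination hm

/-- `η`-coordinate of a sum. -/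
theorem eta_add (hP : P ≠ 0) (hQ : Q ≠ 0) (hx : xc P ≠ xc Q) :
    eta (P + Q) = -(eta P - eta Q) / (xc P - xc Q) * (xc (P + Q) - xc P) - eta P := by
  cases P with
  | zero => exact absurd rfl hP
  | some x1 y1 h1 =>
    cases Q with
    | zero => exact absurd rfl hQ
    | some x2 y2 h2 =>
      simp only [Fermat.Agent.S51.xc_some] at hx
      obtain ⟨-, -, he⟩ := add_some_of_ne h1 h2 hx
      simpa using he

end Fermat.Agent.S05
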